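import Fermat.Agent.LT.Bianchi

set_option autoImplicit false

/-!
# Elementary arithmetic of the Eisenstein integers

Coordinates, norms, the primes above a rational prime and coprimality.
-/

noncomputable section

open scoped ComplexConjugate
open Complex (normSq)

namespace FermatAgent.LT.Period

theorem omega_re : omega.re = -1 / 2 := rfl

theorem omega_im : omega.im = Real.sqrt 3 / 2 := rfl

theorem omega_sq : omega * omega = -1 - omega := by
  have h : √(3 : ℝ) * √3 = 3 := Real.mul_self_sqrt (by norm_num)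
  apply Complex.ext <;> simp [omega] <;> linarith [h]

theorem conj_omega : conj omega = -1 - omega := by
  apply Complex.ext <;> simp [omega]
  norm_num

theorem omega_mem : omega ∈ EisInt := Subring.subset_closure rfl

/-- The element `a + b ω`. -/
def eis (a b : ℤ) : EisInt :=
  ⟨(a : ℂ) + (b : ℂ) * omega,
    add_mem (intCast_mem _ a) (mul_mem (intCast_mem _ b) omega_mem)⟩

theorem coe_eis (a b : ℤ) : (eis a b : ℂ) = (a : ℂ) + (b : ℂ) * omega := rfl

theorem eis_re (a b : ℤ) : (eis a b : ℂ).re = a - b / 2 := by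
  simp [coe_eis, omega]; ring

theorem eis_im (a b : ℤ) : (eis a b : ℂ).im = b * (Real.sqrt 3 / 2) := by
  simp [coe_eis, omega]

theorem eis_add (a b c d : ℤ) : eis a b + eis c d = eis (a + c) (b + d) := by
  apply Subtype.ext
  push_cast [coe_eis]
  ring

theorem eis_neg (a b : ℤ) : -eis a b = eis (-a) (-b) := by
  apply Subtype.ext
  push_cast [coe_eis]
  ring

theorem eis_mul (a b c d : ℤ) :
    eis a b * eis c d = eis (a * c - b * d) (a * d + b * c - b * d) := by
  apply Subtype.ext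
  push_cast [coe_eis]
  linear_combination ((b : ℂ) * d) * omega_sq

theorem intCast_eq_eis (n : ℤ) : (n : EisInt) = eis n 0 := Subtype.ext (by simp [coe_eis])

theorem natCast_eq_eis (n : ℕ) : (n : EisInt) = eis n 0 := Subtype.ext (by simp [coe_eis])

theorem exists_eq_eis (x : EisInt) : ∃ a b : ℤ, x = eis a b := by
  suffices h : ∀ z ∈ EisInt, ∃ a b : ℤ, z = (a : ℂ) + (b : ℂ) * omega by
    obtain ⟨a, b, hab⟩ := h x x.2
    exact ⟨a, b, Subtype.ext hab⟩
  intro z hz
  induction hz using Subring.closure_induction with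
  | mem z hz => exact ⟨0, 1, by simpa using hz⟩
  | zero => exact ⟨0, 0, by simp⟩
  | one => exact ⟨1, 0, by simp⟩
  | add z w _ _ hz hw =>
    obtain ⟨a, b, rfl⟩ := hz
    obtain ⟨c, d, rfl⟩ := hw
    exact ⟨a + c, b + d, by push_cast; ring⟩
  | neg z _ hz =>
    obtain ⟨a, b, rfl⟩ := hz
    exact ⟨-a, -b, by push_cast; ring⟩
  | mul z w _ _ hz hw =>
    obtain ⟨a, b, rfl⟩ := hz
    obtain ⟨c, d, rfl⟩ := hw
    refine ⟨a * c - b * d, a * d + b * c - b * d, ?_⟩
    push_cast
    linear_combination ((b : ℂ) * d) * omega_sq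

theorem eis_inj {a b c d : ℤ} (h : eis a b = eis c d) : a = c ∧ b = d := by
  have h1 := congrArg (fun x : EisInt ↦ (x : ℂ).re) h
  have h2 := congrArg (fun x : EisInt ↦ (x : ℂ).im) h
  simp only [eis_re, eis_im] at h1 h2
  have h3 : (b : ℝ) = d := mul_right_cancel₀ (by positivity) h2
  rw [h3] at h1
  exact ⟨Int.cast_injective (by linarith : (a : ℝ) = c), Int.cast_injective h3⟩

instance : Countable EisInt :=
  Function.Surjective.countable (f := fun q : ℤ × ℤ ↦ eis q.1 q.2) fun x ↦ by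
    obtain ⟨a, b, h⟩ := exists_eq_eis x
    exact ⟨(a, b), h.symm⟩

theorem normSq_eis (a b : ℤ) :
    normSq (eis a b : ℂ) = ((a * a - a * b + b * b : ℤ) : ℝ) := by
  have h : √(3 : ℝ) * √3 = 3 := Real.mul_self_sqrt (by norm_num)
  rw [Complex.normSq_apply, eis_re, eis_im]
  push_cast
  linear_combination ((b : ℝ) * b / 4) * h

theorem exists_natCast_normSq (x : EisInt) : ∃ n : ℕ, normSq (x : ℂ) = n := by
  obtain ⟨a, b, rfl⟩ := exists_eq_eis x
  have h0 : 0 ≤ a * a - a * b + b * b := by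
    nlinarith [sq_nonneg (a - b), mul_self_nonneg a, mul_self_nonneg b]
  obtain ⟨n, hn⟩ := Int.eq_ofNat_of_zero_le h0
  exact ⟨n, by rw [normSq_eis, hn, Int.cast_natCast]⟩

theorem one_le_normSq {x : EisInt} (hx : x ≠ 0) : 1 ≤ normSq (x : ℂ) := by
  obtain ⟨n, hn⟩ := exists_natCast_normSq x
  have : n ≠ 0 := by
    rintro rfl
    exact hx (Subtype.ext (Complex.normSq_eq_zero.1 (by simpa using hn)))
  rw [hn]
  exact_mod_cast Nat.one_le_iff_ne_zero.2 this

/-- Complex conjugation on the Eisenstein integers. -/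
def eisConj (x : EisInt) : EisInt :=
  ⟨conj (x : ℂ), by
    obtain ⟨a, b, rfl⟩ := exists_eq_eis x
    rw [coe_eis, map_add, map_mul, map_intCast, map_intCast, conj_omega]
    exact add_mem (intCast_mem _ a)
      (mul_mem (intCast_mem _ b) (sub_mem (neg_mem (one_mem _)) omega_mem))⟩

theorem coe_eisConj (x : EisInt) : (eisConj x : ℂ) = conj (x : ℂ) := rfl

theorem eisConj_eis (a b : ℤ) : eisConj (eis a b) = eis (a - b) (-b) := by
  apply Subtype.ext
  rw [coe_eisConj, coe_eis, coe_eis, map_add, map_mul, map_intCast, map_intCast, conj_omega]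
  push_cast
  ring

theorem normSq_eisConj (x : EisInt) : normSq (eisConj x : ℂ) = normSq (x : ℂ) :=
  Complex.normSq_conj _

theorem mul_eisConj {x : EisInt} {n : ℕ} (h : normSq (x : ℂ) = n) :
    x * eisConj x = (n : EisInt) := by
  apply Subtype.ext
  push_cast [coe_eisConj]
  rw [Complex.mul_conj, h, Complex.ofReal_natCast]

theorem isCoprime_natCast {m n : ℕ} (h : m.Coprime n) : IsCoprime (m : EisInt) (n : EisInt) := by
  have := (Int.isCoprime_iff_nat_coprime.2 (by simpa using h) : IsCoprime (m : ℤ) (n : ℤ))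
  simpa using this.map (Int.castRingHom EisInt)

theorem natCast_dvd_eis {n : ℕ} {a b : ℤ} :
    (n : EisInt) ∣ eis a b ↔ (n : ℤ) ∣ a ∧ (n : ℤ) ∣ b := by
  constructor
  · rintro ⟨y, hy⟩
    obtain ⟨c, d, rfl⟩ := exists_eq_eis y
    rw [natCast_eq_eis, eis_mul] at hy
    obtain ⟨h1, h2⟩ := eis_inj hy
    exact ⟨⟨c, by rw [h1]; ring⟩, ⟨d, by rw [h2]; ring⟩⟩
  · rintro ⟨⟨c, rfl⟩, d, rfl⟩
    refine ⟨eis c d, ?_⟩
    rw [natCast_eq_eis, eis_mul]
    congr 1 <;> ring

theorem natCast_dvd_natCast {m n : ℕ} : (m : EisInt) ∣ (n : EisInt) ↔ m ∣ n := by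
  rw [natCast_eq_eis n, natCast_dvd_eis]
  simp [Int.natCast_dvd_natCast]

theorem not_isCoprime_prime_pow {p n : ℕ} (hp : p.Prime) (hn : p ∣ n) (k : ℕ) :
    ¬ IsCoprime ((p ^ (k + 1) : ℕ) : EisInt) (n : EisInt) := by
  intro h
  have h' : IsCoprime (p : EisInt) (p : EisInt) :=
    (h.of_isCoprime_of_dvd_left
      (natCast_dvd_natCast.2 (dvd_pow_self p k.succ_ne_zero))).of_isCoprime_of_dvd_right
      (natCast_dvd_natCast.2 hn)
  have hu := isCoprime_self.1 h'
  have h1 : (p : EisInt) ∣ ((1 : ℕ) : EisInt) := hu.dvd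
  exact hp.not_dvd_one (natCast_dvd_natCast.1 h1)

section Split

variable {π : EisInt} {p : ℕ}

theorem dvd_of_normSq (h : normSq (π : ℂ) = p) : π ∣ (p : EisInt) :=
  ⟨eisConj π, (mul_eisConj h).symm⟩

theorem eis_norm_eq {a b : ℤ} (h : normSq (eis a b : ℂ) = p) :
    a * a - a * b + b * b = p := by
  rw [normSq_eis] at h
  exact_mod_cast h

theorem not_dvd_im (hp : p.Prime) {a b : ℤ} (h : normSq (eis a b : ℂ) = p) :
    ¬ (p : ℤ) ∣ b := by
  intro hb
  have hn := eis_norm_eq h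
  have hpp := Nat.prime_iff_prime_int.1 hp
  have ha : (p : ℤ) ∣ a := by
    have : (p : ℤ) ∣ a * a := by
      rw [show a * a = (a * a - a * b + b * b) + b * (a - b) by ring, hn]
      exact dvd_add dvd_rfl (dvd_mul_of_dvd_left hb _)
    exact (hpp.dvd_or_dvd this).elim id id
  obtain ⟨c, rfl⟩ := hb
  obtain ⟨d, rfl⟩ := ha
  have h1 : (p : ℤ) * (p * (d * d - d * c + c * c)) = p * 1 := by
    rw [mul_one]; linear_combination hn
  have h2 := mul_left_cancel₀ (Int.natCast_ne_zero.2 hp.ne_zero) h1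
  exact hp.not_dvd_one (Int.natCast_dvd_natCast.1 ⟨_, by exact_mod_cast h2.symm⟩)

theorem exists_intCast_sub (hp : p.Prime) (h : normSq (π : ℂ) = p) (x : EisInt) :
    ∃ n : ℤ, π ∣ x - n := by
  obtain ⟨a, b, rfl⟩ := exists_eq_eis π
  obtain ⟨c, d, rfl⟩ := exists_eq_eis x
  obtain ⟨u, v, huv⟩ : IsCoprime b (p : ℤ) :=
    ((Prime.coprime_iff_not_dvd (Nat.prime_iff_prime_int.1 hp)).2 (not_dvd_im hp h)).symm
  refine ⟨c - d * u * a, ?_⟩
  have : eis c d - ((c - d * u * a : ℤ) : EisInt) =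
      ((d * u : ℤ) : EisInt) * eis a b + ((d * v : ℤ) : EisInt) * eis 0 1 * (p : EisInt) := by
    rw [intCast_eq_eis, intCast_eq_eis, intCast_eq_eis, natCast_eq_eis, sub_eq_add_neg, eis_neg]
    simp only [eis_mul, eis_add]
    congr 1
    · ring
    · linear_combination (-d) * huv
  rw [this]
  exact dvd_add (dvd_mul_left _ _) (dvd_mul_of_dvd_right (dvd_of_normSq h) _)

theorem dvd_intCast_iff (hp : p.Prime) (h : normSq (π : ℂ) = p) (n : ℤ) :
    π ∣ (n : EisInt) ↔ (p : ℤ) ∣ n := by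
  constructor
  · rintro ⟨y, hy⟩
    obtain ⟨m, hm⟩ := exists_natCast_normSq y
    have h1 := congrArg (fun x : EisInt ↦ normSq (x : ℂ)) hy
    simp only [MulMemClass.coe_mul, map_mul, h, hm] at h1
    rw [show ((n : EisInt) : ℂ) = ((n : ℤ) : ℂ) from map_intCast EisInt.subtype n,
      ← Complex.ofReal_intCast, Complex.normSq_ofReal] at h1
    have h2 : n * n = (p : ℤ) * m := by exact_mod_cast h1
    exact ((Nat.prime_iff_prime_int.1 hp).dvd_or_dvd ⟨_, h2⟩).elim id id
  · rintro ⟨m, rfl⟩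
    push_cast
    exact dvd_mul_of_dvd_left (dvd_of_normSq h) _

theorem prime_of_normSq (hp : p.Prime) (h : normSq (π : ℂ) = p) : Prime π := by
  refine ⟨?_, ?_, fun x y hxy ↦ ?_⟩
  · rintro rfl
    simp [hp.ne_zero, eq_comm] at h
  · intro hu
    have h1 : π ∣ ((1 : ℤ) : EisInt) := hu.dvd
    rw [dvd_intCast_iff hp h] at h1
    exact hp.not_dvd_one (Int.natCast_dvd_natCast.1 (by simpa using h1))
  · obtain ⟨m, hm⟩ := exists_intCast_sub hp h x
    obtain ⟨n, hn⟩ := exists_intCast_sub hp h y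
    have : π ∣ ((m * n : ℤ) : EisInt) := by
      have := dvd_sub hxy (dvd_add (dvd_mul_of_dvd_left hm y) (dvd_mul_of_dvd_right hn (m : EisInt)))
      push_cast
      convert this using 1
      ring
    rw [dvd_intCast_iff hp h] at this
    rcases (Nat.prime_iff_prime_int.1 hp).dvd_or_dvd this with h' | h'
    · exact Or.inl (by simpa using dvd_add hm ((dvd_intCast_iff hp h m).2 h'))
    · exact Or.inr (by simpa using dvd_add hn ((dvd_intCast_iff hp h n).2 h'))

theorem isCoprime_eisConj (hp : p.Prime) (hp3 : p ≠ 3) (h : normSq (π : ℂ) = p) :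
    IsCoprime π (eisConj π) := by
  obtain ⟨a, b, rfl⟩ := exists_eq_eis π
  have hpp := Nat.prime_iff_prime_int.1 hp
  have ht : ¬ (p : ℤ) ∣ 2 * a - b := fun ht ↦ by
    have h3 : (p : ℤ) ∣ 3 * (b * b) := by
      rw [show 3 * (b * b) = 4 * (a * a - a * b + b * b) - (2 * a - b) * (2 * a - b) by ring,
        eis_norm_eq h]
      exact dvd_sub (dvd_mul_left _ _) (dvd_mul_of_dvd_left ht _)
    rcases hpp.dvd_or_dvd h3 with h4 | h4
    · exact hp3 ((Nat.prime_dvd_prime_iff_eq hp Nat.prime_three).1 (by exact_mod_cast h4))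
    · exact not_dvd_im hp h ((hpp.dvd_or_dvd h4).elim id id)
  obtain ⟨u, v, huv⟩ : IsCoprime (p : ℤ) (2 * a - b) := (Prime.coprime_iff_not_dvd hpp).2 ht
  refine ⟨(u : EisInt) * eisConj (eis a b) + v, v, ?_⟩
  have hsum : eis a b + eisConj (eis a b) = ((2 * a - b : ℤ) : EisInt) := by
    rw [eisConj_eis, intCast_eq_eis, eis_add]
    congr 1 <;> ring
  have := congrArg (Int.cast : ℤ → EisInt) huv
  rw [Int.cast_add, Int.cast_mul, Int.cast_mul, Int.cast_natCast, Int.cast_one, ← hsum,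
    ← mul_eisConj h] at this
  linear_combination this

theorem exists_normSq_eq (hp : p.Prime) (hp3 : p % 3 = 1) :
    ∃ π : EisInt, normSq (π : ℂ) = p := by
  have : Fact p.Prime := ⟨hp⟩
  obtain ⟨z, hz⟩ : ∃ z : ZMod p, z * z + z + 1 = 0 := by
    have hd : 3 ∣ Fintype.card (ZMod p)ˣ := by rw [ZMod.card_units]; omega
    have := Fact.mk Nat.prime_three
    obtain ⟨g, hg⟩ := exists_prime_orderOf_dvd_card 3 hd
    have h1 : (g : ZMod p) ≠ 1 := fun h1 ↦ by
      rw [Units.val_eq_one.1 h1, orderOf_one] at hg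
      omega
    have h3 : (g : ZMod p) ^ 3 = 1 := by
      rw [← Units.val_pow_eq_pow_val, ← hg, pow_orderOf_eq_one, Units.val_one]
    refine ⟨g, (mul_eq_zero.1 ?_).resolve_left (sub_ne_zero.2 h1)⟩
    linear_combination h3
  set k := p.sqrt
  have hcard : Fintype.card (ZMod p) < Fintype.card (Fin (k + 1) × Fin (k + 1)) := by
    simpa [ZMod.card] using Nat.lt_succ_sqrt p
  obtain ⟨⟨i, j⟩, ⟨i', j'⟩, hne, hij⟩ := Fintype.exists_ne_map_eq_of_card_lt
    (fun q : Fin (k + 1) × Fin (k + 1) ↦ (q.1 : ℕ) - z * ((q.2 : ℕ) : ZMod p)) hcard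
  set a : ℤ := (i : ℕ) - (i' : ℕ) with ha
  set b : ℤ := (j : ℕ) - (j' : ℕ) with hb
  have hab : ¬ (a = 0 ∧ b = 0) := fun ⟨h1, h2⟩ ↦
    hne (Prod.ext (Fin.ext (show (i : ℕ) = i' by omega)) (Fin.ext (show (j : ℕ) = j' by omega)))
  have hkp : (k : ℤ) * k < p := by
    have h1 : k * k ≤ p := Nat.sqrt_le p
    have h2 : k * k ≠ p := fun h2 ↦ hp.prime.irreducible.not_isSquare ⟨k, h2.symm⟩
    exact_mod_cast lt_of_le_of_ne h1 h2
  set n := a * a + a * b + b * b with hn
  have hdvd : (p : ℤ) ∣ n := by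
    have he : (a : ZMod p) = b * z := by
      push_cast [ha, hb]
      linear_combination hij
    rw [← ZMod.intCast_zmod_eq_zero_iff_dvd, hn]
    push_cast
    rw [he]
    linear_combination ((b : ZMod p) * b) * hz
  have hpos : 0 < n := by
    have h1 : 0 < a * a + b * b := by
      rcases not_and_or.1 hab with h1 | h1
      · linarith [mul_self_pos.2 h1, mul_self_nonneg b]
      · linarith [mul_self_pos.2 h1, mul_self_nonneg a]
    nlinarith [mul_self_nonneg (a + b)]
  have hlt : n < 3 * p := by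
    have := i.isLt; have := i'.isLt; have := j.isLt; have := j'.isLt
    have h1 : |a| ≤ k := abs_le.2 ⟨by omega, by omega⟩
    have h2 : |b| ≤ k := abs_le.2 ⟨by omega, by omega⟩
    have h3 : a * a ≤ (k : ℤ) * k := by
      rw [← abs_mul_abs_self a]; exact mul_self_le_mul_self (abs_nonneg a) h1
    have h4 : b * b ≤ (k : ℤ) * k := by
      rw [← abs_mul_abs_self b]; exact mul_self_le_mul_self (abs_nonneg b) h2
    nlinarith [mul_self_nonneg (a - b)]
  have h2p : n ≠ 2 * p := fun h2 => by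
    have hev : ∀ x y : ZMod 2, x * x + x * y + y * y = 0 → x = 0 ∧ y = 0 := by decide
    have h20 : (2 : ZMod 2) = 0 := rfl
    have h0 : (n : ZMod 2) = 0 := by rw [h2]; push_cast; rw [h20, zero_mul]
    rw [hn] at h0
    push_cast at h0
    obtain ⟨hx, hy⟩ := hev _ _ h0
    rw [ZMod.intCast_zmod_eq_zero_iff_dvd] at hx hy
    obtain ⟨c, hc⟩ := hx
    obtain ⟨d, hd⟩ := hy
    rw [hn, hc, hd] at h2
    have h22 : (2 : ℤ) ∣ (p : ℤ) := ⟨c * c + c * d + d * d, by push_cast at h2; linarith⟩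
    have := (Nat.prime_dvd_prime_iff_eq Nat.prime_two hp).1 (by exact_mod_cast h22)
    omega
  obtain ⟨e, he⟩ := hdvd
  have hp0 : (0 : ℤ) < p := by exact_mod_cast hp.pos
  have he1 : e = 1 := by
    have h1 : 0 < e := pos_of_mul_pos_right (he ▸ hpos) hp0.le
    have h2 : e < 3 := lt_of_mul_lt_mul_left (by rw [← he]; linarith) hp0.le
    interval_cases e
    · rfl
    · exact absurd (by rw [he, mul_comm]) h2p
  refine ⟨eis a (-b), ?_⟩
  rw [normSq_eis, show a * a - a * -b + -b * -b = n by rw [hn]; ring, he, he1, mul_one,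
    Int.cast_natCast]

end Split

theorem prime_of_inert {p : ℕ} (hp : p.Prime) (hp3 : p % 3 = 2) : Prime (p : EisInt) := by
  have : Fact p.Prime := ⟨hp⟩
  have key : ∀ a b : ℤ, (p : ℤ) ∣ a * a - a * b + b * b → (p : ℤ) ∣ a ∧ (p : ℤ) ∣ b := by
    intro a b h
    rw [← ZMod.intCast_zmod_eq_zero_iff_dvd] at h
    push_cast at h
    simp only [← ZMod.intCast_zmod_eq_zero_iff_dvd]
    by_cases hb : (b : ZMod p) = 0
    · simp only [hb, mul_zero, sub_zero, add_zero, mul_eq_zero, or_self] at h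
      exact ⟨h, hb⟩
    exfalso
    set t : ZMod p := a / b
    have ht : t * t - t + 1 = 0 := by
      simp only [t]
      field_simp
      linear_combination h
    have ht0 : t ≠ 0 := fun h0 ↦ by simp [h0] at ht
    have h3 : t ^ 3 = -1 := by linear_combination (t + 1) * ht
    obtain ⟨j, hj⟩ : ∃ j, p - 1 = 3 * j + 1 := ⟨(p - 2) / 3, by omega⟩
    have h1 := ZMod.pow_card_sub_one_eq_one ht0
    rw [hj, pow_succ, pow_mul, h3] at h1
    rcases neg_one_pow_eq_or (ZMod p) j with e | e <;> rw [e] at h1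
    · have : t = 1 := by linear_combination h1
      simp [this] at ht
    · have : t = -1 := by linear_combination -h1
      have h30 : ((3 : ℕ) : ZMod p) = 0 := by
        push_cast
        rw [this] at ht
        linear_combination ht
      have := (Nat.prime_dvd_prime_iff_eq hp Nat.prime_three).1
        ((ZMod.natCast_eq_zero_iff _ _).1 h30)
      omega
  refine ⟨?_, ?_, fun x y hxy ↦ ?_⟩
  · rw [natCast_eq_eis]
    intro h0
    have := (eis_inj (h0.trans (natCast_eq_eis 0 ▸ Nat.cast_zero.symm))).1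
    exact hp.ne_zero (by exact_mod_cast this)
  · intro hu
    have h1 : (p : EisInt) ∣ ((1 : ℕ) : EisInt) := hu.dvd
    exact hp.not_dvd_one (natCast_dvd_natCast.1 h1)
  · obtain ⟨a, b, rfl⟩ := exists_eq_eis x
    obtain ⟨c, d, rfl⟩ := exists_eq_eis y
    obtain ⟨z, hz⟩ := hxy
    obtain ⟨n, hn⟩ := exists_natCast_normSq z
    have h1 := congrArg (fun x : EisInt ↦ normSq (x : ℂ)) hz
    simp only [MulMemClass.coe_mul, map_mul, normSq_eis, hn] at h1
    rw [show ((p : EisInt) : ℂ) = ((p : ℕ) : ℂ) from map_natCast EisInt.subtype p,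
      Complex.normSq_natCast] at h1
    have h2 : (p : ℤ) ∣ (a * a - a * b + b * b) * (c * c - c * d + d * d) :=
      ⟨p * n, by exact_mod_cast (by rw [← mul_assoc]; exact h1 :
        (((a * a - a * b + b * b : ℤ)) : ℝ) * ((c * c - c * d + d * d : ℤ) : ℝ) =
          (p : ℝ) * ((p : ℝ) * n))⟩
    rcases (Nat.prime_iff_prime_int.1 hp).dvd_or_dvd h2 with h3 | h3
    · exact Or.inl (natCast_dvd_eis.2 (key a b h3))
    · exact Or.inr (natCast_dvd_eis.2 (key c d h3))

theorem isCoprime_of_dvd_natCast {π π' : EisInt} {m n : ℕ} (hπ : π ∣ (m : EisInt))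
    (hπ' : π' ∣ (n : EisInt)) (h : m.Coprime n) : IsCoprime π π' :=
  ((isCoprime_natCast h).of_isCoprime_of_dvd_left hπ).of_isCoprime_of_dvd_right hπ'

end FermatAgent.LT.Period
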