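import Fermat.Agent.LT.Setup
import Fermat.Agent.GalRep.Density.Counting
import Fermat.Agent.GalRep.Construct.Cyclotomic
import Fermat.Agent.TW.Places

set_option autoImplicit false

/-!
# Frobenius images of a representation onto `GL₂(𝔽₃)` and their densities

The densities are shared by the two setups of the Langlands-Tunnell argument.
-/

noncomputable section

open Filter Topology Asymptotics
open Matrix (GeneralLinearGroup)
open FermatAgent.GalRep (primeSum)

namespace FermatAgent.LT.Period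

local notation "Qb" => AlgebraicClosure ℚ
local notation "GQ" => AlgebraicClosure ℚ ≃ₐ[ℚ] AlgebraicClosure ℚ
local notation "G3" => GL (Fin 2) (ZMod 3)

attribute [local instance] FermatAgent.RT.isGalois_algClosureRat

/-- A place over a prime. -/
def frobPlace (p : Nat.Primes) : ValuationSubring Qb :=
  (FermatAgent.RT.exists_place_isFrobeniusAt p.2).choose

/-- A Frobenius element at that place. -/
def frobElt (p : Nat.Primes) : GQ :=
  (FermatAgent.RT.exists_place_isFrobeniusAt p.2).choose_spec.choose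

theorem frobPlace_liesOver (p : Nat.Primes) : (frobPlace p).LiesOverPrime p :=
  (FermatAgent.RT.exists_place_isFrobeniusAt p.2).choose_spec.choose_spec.1

theorem frobElt_isFrobeniusAt (p : Nat.Primes) : (frobPlace p).IsFrobeniusAt (frobElt p) p :=
  (FermatAgent.RT.exists_place_isFrobeniusAt p.2).choose_spec.choose_spec.2

variable (ρ : GQ →* G3)

/-- The image of Frobenius. -/
def frobImage (p : Nat.Primes) : G3 := ρ (frobElt p)

theorem conj_mem_quaternionSubgroup {g : G3} (h : g ∈ quaternionSubgroup) (x : G3) :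
    x * g * x⁻¹ ∈ quaternionSubgroup := by
  change IsQ8 _
  obtain ⟨hd, ht⟩ := (h : IsQ8 _)
  simp only [GeneralLinearGroup.coe_mul]
  refine ⟨?_, ?_⟩
  · rw [Matrix.det_mul, Matrix.det_mul, mul_right_comm, ← Matrix.det_mul,
      ← GeneralLinearGroup.coe_mul, mul_inv_cancel, Units.val_one, Matrix.det_one, hd, mul_one]
  rcases ht with ht | ht | ht
  · left
    rw [Matrix.trace_mul_cycle, ← GeneralLinearGroup.coe_mul, inv_mul_cancel, Units.val_one,
      one_mul, ht]
  · exact Or.inr (Or.inl (by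
      rw [ht, mul_one, ← GeneralLinearGroup.coe_mul, mul_inv_cancel, Units.val_one]))
  · exact Or.inr (Or.inr (by
      rw [ht, mul_neg, mul_one, neg_mul, ← GeneralLinearGroup.coe_mul, mul_inv_cancel,
        Units.val_one]))

theorem exists_conj_map_frobImage {p : Nat.Primes}
    (hunr : ∀ A : ValuationSubring Qb, A.LiesOverPrime p → ∀ σ ∈ A.inertiaSubgroupIn ℚ, ρ σ = 1)
    {A : ValuationSubring Qb} (hA : A.LiesOverPrime p) {σ : GQ} (hσ : A.IsFrobeniusAt σ p) :
    ∃ x : G3, ρ σ = x * frobImage ρ p * x⁻¹ := by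
  obtain ⟨g, hg⟩ := FermatAgent.TW.exists_conj_map_frobenius ρ p.2 hunr (frobPlace_liesOver p) hA
    (frobElt_isFrobeniusAt p) hσ
  exact ⟨ρ g, hg⟩

theorem forall_map_mem_quaternion_iff {p : Nat.Primes}
    (hunr : ∀ A : ValuationSubring Qb, A.LiesOverPrime p → ∀ σ ∈ A.inertiaSubgroupIn ℚ, ρ σ = 1) :
    (∀ A : ValuationSubring Qb, A.LiesOverPrime p → ∀ σ : GQ, A.IsFrobeniusAt σ p →
      ρ σ ∈ quaternionSubgroup) ↔ frobImage ρ p ∈ quaternionSubgroup := by
  refine ⟨fun h => h _ (frobPlace_liesOver p) _ (frobElt_isFrobeniusAt p), fun h A hA σ hσ => ?_⟩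
  obtain ⟨x, hx⟩ := exists_conj_map_frobImage ρ hunr hA hσ
  rw [hx]
  exact conj_mem_quaternionSubgroup h x

theorem exists_conj_frobImage (S : Setup) {p : Nat.Primes} (hp : ¬ (p : ℕ) ∣ 3 * S.m)
    {A : ValuationSubring Qb} (hA : A.LiesOverPrime p) {σ : GQ} (hσ : A.IsFrobeniusAt σ p) :
    ∃ x : G3, S.ρ σ = x * frobImage S.ρ p * x⁻¹ :=
  exists_conj_map_frobImage S.ρ (S.unramified p p.2 hp) hA hσ

theorem splitsInF_iff (S : Setup) {p : Nat.Primes} (hp : ¬ (p : ℕ) ∣ 3 * S.m) :
    S.SplitsInF p ↔ frobImage S.ρ p ∈ quaternionSubgroup :=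
  forall_map_mem_quaternion_iff S.ρ (S.unramified p p.2 hp)

variable {ρ}
variable (hfin : GaloisFactorsThroughFiniteLevel ρ) (hsurj : Function.Surjective ρ)

theorem det_frobImage
    (hdet : ∀ σ, Matrix.GeneralLinearGroup.det (ρ σ) = WeierstrassCurve.modThreeCyclotomicChar σ)
    {p : Nat.Primes} (hp : (p : ℕ) ≠ 3) :
    (frobImage ρ p : Matrix (Fin 2) (Fin 2) (ZMod 3)).det = ((p : ℕ) : ZMod 3) := by
  have : Fact (Nat.Prime 3) := ⟨Nat.prime_three⟩
  rw [← GeneralLinearGroup.val_det_apply, frobImage, hdet,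
    WeierstrassCurve.modThreeCyclotomicChar_apply]
  symm
  refine modularCyclotomicCharacter.unique Qb
    (IsAlgClosed.card_rootsOfUnity_eq (AlgebraicClosure ℚ) 3) _ fun t ht => ?_
  have ht3 : (t : Qb) ^ 3 = 1 := by
    rw [← Units.val_pow_eq_pow_val, (mem_rootsOfUnity _ t).1 ht, Units.val_one]
  change frobElt p (t : Qb) = _
  rw [ZMod.val_natCast, ← pow_eq_pow_mod _ ht3]
  set A := frobPlace p
  set ζ := (t : Qb) with hζdef
  set τ := frobElt p
  have hint : ζ ∈ A := by
    have : IsIntegral A ζ :=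
      ⟨Polynomial.X ^ 3 - 1, Polynomial.monic_X_pow_sub_C _ (by norm_num), by simp [ht3]⟩
    obtain ⟨y, hy⟩ := IsIntegrallyClosed.isIntegral_iff.mp this
    exact hy ▸ y.2
  obtain ⟨-, hfrob⟩ := FermatAgent.TW.isFrobeniusAt_iff.1 (frobElt_isFrobeniusAt p)
  have hsub := hfrob ζ hint
  have hζ0 : ζ ≠ 0 := t.ne_zero
  have hval : A.valuation ζ = 1 := by
    have h := congrArg A.valuation ht3
    rw [map_pow, map_one] at h
    exact (pow_eq_one_iff.1 h).resolve_right (by norm_num)
  have h1 : A.valuation (τ ζ / ζ ^ (p : ℕ) - 1) < 1 := by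
    rw [div_sub_one (pow_ne_zero _ hζ0), map_div₀, map_pow, hval, one_pow, div_one]
    exact hsub
  have hu : (τ ζ / ζ ^ (p : ℕ)) ^ 3 ^ 1 = 1 := by
    rw [pow_one, div_pow, ← map_pow, ht3, map_one, ← pow_mul, mul_comm, pow_mul, ht3, one_pow,
      div_one]
  have := FermatAgent.GalRep.eq_one_of_sub_one_mem_nonunits 3 (ℓ := (p : ℕ))
    ((Nat.coprime_primes p.2 Nat.prime_three).2 hp) (frobPlace_liesOver p) hu h1
  exact (div_eq_one_iff_eq (pow_ne_zero _ hζ0)).1 this

variable (ρ) in
/-- The number of conjugators bringing Frobenius into a subgroup. -/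
def conjCount (D : Subgroup G3) (p : Nat.Primes) : ℝ :=
  (Nat.card {x : G3 // x⁻¹ * frobImage ρ p * x ∈ D} : ℝ)

theorem abs_conjCount_le (ρ : GQ →* G3) (D : Subgroup G3) (p : Nat.Primes) :
    |conjCount ρ D p| ≤ Nat.card G3 := by
  rw [conjCount, Nat.abs_cast]
  exact Nat.cast_le.2 (Nat.card_le_card_of_injective _ Subtype.val_injective)

include hfin hsurj in
theorem conjCount_isBigO (D : Subgroup G3) :
    (fun s => primeSum (conjCount ρ D) s + (Nat.card D : ℝ) * Real.log (s - 1)) =O[𝓝[>] 1]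
      (fun _ => (1 : ℝ)) := by
  classical
  obtain ⟨E, hE, hEker⟩ := hfin
  have hle : E.fixingSubgroup ≤ ρ.ker := fun σ hσ =>
    hEker σ ((IntermediateField.mem_fixingSubgroup_iff E σ).1 hσ)
  let Hc : ClosedSubgroup GQ :=
    ⟨ρ.ker, Subgroup.isClosed_of_isOpen _
      (Subgroup.isOpen_mono hle (IntermediateField.fixingSubgroup_isOpen E))⟩
  have hfix : (IntermediateField.fixedField ρ.ker).fixingSubgroup = ρ.ker :=
    InfiniteGalois.fixingSubgroup_fixedField Hc
  set L := IntermediateField.fixedField ρ.ker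
  have hLE : L ≤ E := by
    rw [← InfiniteGalois.fixedField_fixingSubgroup E]
    exact IntermediateField.fixedField_antitone hle
  have : FiniteDimensional ℚ L := FiniteDimensional.of_injective
    (IntermediateField.inclusion hLE).toLinearMap (IntermediateField.inclusion hLE).injective
  have hnorm : L.fixingSubgroup.Normal := by rw [hfix]; infer_instance
  have : IsGalois ℚ L := (InfiniteGalois.normal_iff_isGalois L).mp hnorm
  set r : GQ →* (L ≃ₐ[ℚ] L) := AlgEquiv.restrictNormalHom L
  have hr : Function.Surjective r := AlgEquiv.restrictNormalHom_surjective Qb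
  have hker : r.ker = ρ.ker := by rw [← hfix]; exact IntermediateField.restrictNormalHom_ker L
  let e : (L ≃ₐ[ℚ] L) →* G3 := r.liftOfSurjective hr ⟨ρ, hker.le⟩
  have he : ∀ σ, e (r σ) = ρ σ := fun σ =>
    MonoidHom.liftOfRightInverse_comp_apply r _ _ _ σ
  have hebij : Function.Bijective e := by
    refine ⟨(injective_iff_map_eq_one e).2 fun y hy => ?_, fun g => ?_⟩
    · obtain ⟨σ, rfl⟩ := hr y
      rw [he] at hy
      rw [← MonoidHom.mem_ker, hker]
      exact hy
    · obtain ⟨σ, rfl⟩ := hsurj g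
      exact ⟨r σ, he σ⟩
  let ee : (L ≃ₐ[ℚ] L) ≃* G3 := MulEquiv.ofBijective e hebij
  set D' := D.comap e
  have hD' : Nat.card D' = Nat.card D :=
    Nat.card_congr (ee.toEquiv.subtypeEquiv fun x => Iff.rfl)
  set K := IntermediateField.fixedField D'
  have : NumberField K := ⟨⟩
  obtain ⟨B, hB, hBeq⟩ := FermatAgent.GalRep.exists_finite_idealCount_eq K
  have hfin : {p : Nat.Primes |
      conjCount ρ D p ≠ (Nat.card D : ℝ) * FermatAgent.GalRep.idealCount K p}.Finite := by
    refine (hB.preimage Subtype.val_injective.injOn).subset fun p hp => ?_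
    by_contra hpB
    refine hp ?_
    rw [hBeq p p.2 hpB _ (frobPlace_liesOver p) _ (frobElt_isFrobeniusAt p), ← Nat.cast_mul,
      ← hD', ← FermatAgent.GalRep.card_conj_mem_eq L D' (frobElt p)]
    simp only [conjCount, Nat.cast_inj]
    symm
    refine Nat.card_congr (ee.toEquiv.subtypeEquiv fun x => ?_)
    show e (x⁻¹ * r (frobElt p) * x) ∈ D ↔ (e x)⁻¹ * frobImage ρ p * e x ∈ D
    simp only [frobImage, map_mul, map_inv, he]
  let C : ℝ := max (Nat.card G3)
    ((Nat.card D : ℝ) * 2 ^ Module.finrank ℤ (NumberField.RingOfIntegers K))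
  refine ((FermatAgent.GalRep.primeSum_sub_isBigO (C := C)
    (fun p => (abs_conjCount_le ρ D p).trans (le_max_left _ _))
    (fun p => by
      rw [abs_mul, Nat.abs_cast]
      exact (mul_le_mul_of_nonneg_left (FermatAgent.GalRep.idealCount_prime_abs_le K p)
        (Nat.cast_nonneg _)).trans (le_max_right _ _)) hfin).add
    ((FermatAgent.GalRep.primeSum_idealCount_isBigO K).const_mul_left
      (Nat.card D : ℝ))).congr_left fun s => ?_
  rw [FermatAgent.GalRep.primeSum_const_mul]
  ring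

/-- The diagonal involution. -/
def invol : G3 := ⟨!![1, 0; 0, -1], !![1, 0; 0, -1], by decide, by decide⟩

theorem exists_conj_invol_aux : ∀ a b c d : ZMod 3, a * d - b * c = -1 →
    a * a + b * c = 1 → a * b + b * d = 0 → c * a + d * c = 0 → c * b + d * d = 1 →
    ∃ x y z w : ZMod 3, x * w - y * z ≠ 0 ∧ a * x + b * z = x ∧ a * y + b * w = -y ∧
      c * x + d * z = z ∧ c * y + d * w = -w := by
  decide

theorem sq_ne_neg_one_aux : ∀ a b c d : ZMod 3, a * d - b * c = -1 →
    ¬ (a * a + b * c = -1 ∧ a * b + b * d = 0 ∧ c * b + d * d = -1) := by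
  decide

theorem sq_ne_neg_one {g : G3} (h : (g : Matrix (Fin 2) (Fin 2) (ZMod 3)).det = -1) :
    g ^ 2 ≠ -1 := by
  intro hg
  rw [Matrix.det_fin_two] at h
  have e := congrArg (fun x : G3 => (x : Matrix (Fin 2) (Fin 2) (ZMod 3))) hg
  simp only [sq, Units.val_mul, Units.val_neg, Units.val_one, ← Matrix.ext_iff, Fin.forall_fin_two,
    Matrix.mul_apply, Fin.sum_univ_two, Matrix.neg_apply, Matrix.one_apply_eq, ne_eq, zero_ne_one,
    not_false_eq_true, Matrix.one_apply_ne, neg_zero] at e
  exact sq_ne_neg_one_aux _ _ _ _ h ⟨e.1.1, e.1.2, e.2.2⟩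

/-- Involutions of determinant `-1`. -/
def IsOddInvol (g : G3) : Prop :=
  (g : Matrix (Fin 2) (Fin 2) (ZMod 3)).det = -1 ∧ g ^ 2 = 1

theorem exists_conj_invol {g : G3} (h : IsOddInvol g) : ∃ x : G3, x⁻¹ * g * x = invol := by
  obtain ⟨hd, hg⟩ := h
  rw [Matrix.det_fin_two] at hd
  have e := congrArg (fun x : G3 => (x : Matrix (Fin 2) (Fin 2) (ZMod 3))) hg
  simp only [sq, Units.val_mul, Units.val_one, ← Matrix.ext_iff, Fin.forall_fin_two,
    Matrix.mul_apply, Fin.sum_univ_two, Matrix.one_apply_eq, ne_eq, zero_ne_one, one_ne_zero,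
    not_false_eq_true, Matrix.one_apply_ne] at e
  obtain ⟨x, y, z, w, hxw, h1, h2, h3, h4⟩ :=
    exists_conj_invol_aux _ _ _ _ hd e.1.1 e.1.2 e.2.1 e.2.2
  have : Fact (Nat.Prime 3) := ⟨Nat.prime_three⟩
  refine ⟨GeneralLinearGroup.mkOfDetNeZero !![x, y; z, w]
    (by rwa [Matrix.det_fin_two_of]), ?_⟩
  rw [mul_assoc, inv_mul_eq_iff_eq_mul]
  apply Units.ext
  simp only [Units.val_mul]
  ext i j
  fin_cases i <;> fin_cases j <;>
    simp [invol, GeneralLinearGroup.mkOfDetNeZero, Matrix.mul_apply, Fin.sum_univ_two,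
      GeneralLinearGroup.mk', Matrix.unitOfDetInvertible, h1, h2, h3, h4]

theorem card_G3 : Nat.card G3 = 48 := by
  have : Fact (Nat.Prime 3) := ⟨Nat.prime_three⟩
  rw [Matrix.card_GL_field, Fin.prod_univ_two, ZMod.card]
  norm_num

theorem mem_zpowers_of_sq {G : Type*} [Group G] {t : G} (ht : t * t = 1) (x : G) :
    x ∈ Subgroup.zpowers t ↔ x = 1 ∨ x = t := by
  constructor
  · rintro ⟨k, rfl⟩
    show t ^ k = 1 ∨ t ^ k = t
    have h2 : t ^ (2 : ℤ) = 1 := by rw [zpow_two, ht]
    rcases Int.even_or_odd' k with ⟨j, rfl | rfl⟩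
    · exact Or.inl (by rw [zpow_mul, h2, one_zpow])
    · exact Or.inr (by rw [zpow_add, zpow_mul, h2, one_zpow, zpow_one, one_mul])
  · rintro (rfl | rfl)
    · exact one_mem _
    · exact Subgroup.mem_zpowers _

theorem invol_mul_self : invol * invol = 1 := Units.ext (by decide)

theorem invol_ne_one : invol ≠ 1 := fun h => absurd (congrArg Units.val h) (by decide)

theorem neg_one_ne_one : (-1 : G3) ≠ 1 := fun h => absurd (congrArg Units.val h) (by decide)

theorem eq_zero_of_eq_neg_three : ∀ t : ZMod 3, t = -t → t = 0 := by decide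

theorem card_centraliser_invol : Nat.card {y : G3 // y⁻¹ * invol * y = invol} = 4 := by
  have : Fact (Nat.Prime 3) := ⟨Nat.prime_three⟩
  have h4 : Nat.card ((ZMod 3)ˣ × (ZMod 3)ˣ) = 4 := by
    rw [Nat.card_prod, Nat.card_eq_fintype_card, ZMod.card_units]
  rw [← h4]
  symm
  let f : (ZMod 3)ˣ × (ZMod 3)ˣ → {y : G3 // y⁻¹ * invol * y = invol} := fun u =>
    ⟨⟨!![(u.1 : ZMod 3), 0; 0, u.2], !![((u.1⁻¹ : (ZMod 3)ˣ) : ZMod 3), 0; 0, (u.2⁻¹ : (ZMod 3)ˣ)],
      by rw [Matrix.mul_fin_two]; simp only [Units.mul_inv, mul_zero, zero_mul, add_zero, zero_add,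
           ← Matrix.one_fin_two],
      by rw [Matrix.mul_fin_two]; simp only [Units.inv_mul, mul_zero, zero_mul, add_zero, zero_add,
           ← Matrix.one_fin_two]⟩, by
      rw [mul_assoc, inv_mul_eq_iff_eq_mul]
      apply Units.ext
      simp only [Units.val_mul, invol]
      ext i j
      fin_cases i <;> fin_cases j <;> simp [Matrix.mul_apply, Fin.sum_univ_two]⟩
  refine Nat.card_congr (Equiv.ofBijective f ⟨fun u v huv => ?_, ?_⟩)
  · have h := congrArg (fun y : {y : G3 // y⁻¹ * invol * y = invol} =>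
      (y.1 : Matrix (Fin 2) (Fin 2) (ZMod 3))) huv
    simp only [f] at h
    exact Prod.ext (Units.ext (by simpa using congrFun (congrFun h 0) 0))
      (Units.ext (by simpa using congrFun (congrFun h 1) 1))
  · rintro ⟨y, hy⟩
    rw [mul_assoc, inv_mul_eq_iff_eq_mul] at hy
    have h := congrArg (fun y : G3 => (y : Matrix (Fin 2) (Fin 2) (ZMod 3))) hy
    have key : ∀ t : ZMod 3, t = -t → t = 0 := fun t ht =>
      eq_zero_of_eq_neg_three t ht
    simp only [invol, Units.val_mul] at h
    rw [Matrix.eta_fin_two (y : Matrix (Fin 2) (Fin 2) (ZMod 3)), Matrix.mul_fin_two,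
      Matrix.mul_fin_two, ← Matrix.ext_iff] at h
    simp [Fin.forall_fin_two] at h
    have h01 : y 0 1 = 0 := key _ (by linear_combination h.1)
    have h10 : y 1 0 = 0 := key _ (by linear_combination -h.2)
    have hdet := y.det_ne_zero
    rw [Matrix.det_fin_two, h01, zero_mul, sub_zero, mul_ne_zero_iff] at hdet
    refine ⟨(Units.mk0 _ hdet.1, Units.mk0 _ hdet.2), Subtype.ext (Units.ext ?_)⟩
    ext i j
    fin_cases i <;> fin_cases j <;> simp [f, h01, h10]

open Classical in
theorem conjCount_bot (ρ : GQ →* G3) (p : Nat.Primes) :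
    conjCount ρ ⊥ p = 48 * if frobImage ρ p = 1 then 1 else 0 := by
  rw [conjCount]
  split_ifs with h
  · rw [Nat.card_congr (Equiv.subtypeUnivEquiv fun x => by simp [h]), card_G3]
    norm_num
  · have : IsEmpty {x : G3 // x⁻¹ * frobImage ρ p * x ∈ (⊥ : Subgroup G3)} := ⟨fun x => h (by
      have := Subgroup.mem_bot.1 x.2
      rwa [mul_assoc, inv_mul_eq_one, right_eq_mul] at this)⟩
    rw [Nat.card_of_isEmpty, Nat.cast_zero, mul_zero]

open Classical in
theorem conjCount_neg_one (ρ : GQ →* G3) (p : Nat.Primes) :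
    conjCount ρ (Subgroup.zpowers (-1)) p =
      48 * if frobImage ρ p = 1 ∨ frobImage ρ p = -1 then 1 else 0 := by
  have hiff : ∀ x : G3, x⁻¹ * frobImage ρ p * x ∈ Subgroup.zpowers (-1 : G3) ↔
      (frobImage ρ p = 1 ∨ frobImage ρ p = -1) := by
    intro x
    rw [mem_zpowers_of_sq (by rw [neg_mul_neg, one_mul])]
    constructor
    · rintro (h | h) <;> rw [mul_assoc, inv_mul_eq_iff_eq_mul] at h
      · exact Or.inl (by simpa using h)
      · exact Or.inr (mul_right_cancel (h.trans (by simp [mul_neg, neg_mul])))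
    · rintro (h | h) <;> simp [h]
  rw [conjCount, Nat.card_congr (Equiv.subtypeEquivRight hiff)]
  split_ifs with h
  · rw [Nat.card_congr (Equiv.subtypeUnivEquiv fun _ => h), card_G3]
    norm_num
  · have : IsEmpty {_x : G3 // frobImage ρ p = 1 ∨ frobImage ρ p = -1} := ⟨fun x => h x.2⟩
    simp

open Classical in
theorem conjCount_invol (ρ : GQ →* G3) (p : Nat.Primes) :
    conjCount ρ (Subgroup.zpowers invol) p =
      conjCount ρ ⊥ p + 4 * if IsOddInvol (frobImage ρ p) then 1 else 0 := by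
  rw [conjCount_bot, conjCount]
  by_cases h1 : frobImage ρ p = 1
  · have hn : ¬ IsOddInvol (frobImage ρ p) := fun h => by
      have := h.1
      rw [h1, Units.val_one, Matrix.det_one] at this
      exact absurd this (by decide)
    rw [if_pos h1, if_neg hn, Nat.card_congr (Equiv.subtypeUnivEquiv fun x => by simp [h1]),
      card_G3]
    norm_num
  have hiff : ∀ x : G3, x⁻¹ * frobImage ρ p * x ∈ Subgroup.zpowers invol ↔
      x⁻¹ * frobImage ρ p * x = invol := by
    intro x
    rw [mem_zpowers_of_sq invol_mul_self, or_iff_right]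
    intro h
    rw [mul_assoc, inv_mul_eq_one, right_eq_mul] at h
    exact h1 h
  rw [if_neg h1, Nat.card_congr (Equiv.subtypeEquivRight hiff), mul_zero, zero_add]
  split_ifs with h
  · obtain ⟨x₀, hx₀⟩ := exists_conj_invol h
    have he : ∀ x : G3, x⁻¹ * frobImage ρ p * x = invol ↔
        (x₀⁻¹ * x)⁻¹ * invol * (x₀⁻¹ * x) = invol := by
      intro x
      rw [← hx₀]
      group
    rw [Nat.card_congr ((Equiv.mulLeft x₀⁻¹).subtypeEquiv
      (q := fun y => y⁻¹ * invol * y = invol) he), card_centraliser_invol]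
    norm_num
  · have : IsEmpty {x : G3 // x⁻¹ * frobImage ρ p * x = invol} := ⟨fun ⟨x, hx⟩ => h (by
      have hd : (invol : Matrix (Fin 2) (Fin 2) (ZMod 3)).det = -1 := by decide
      have hs : invol ^ 2 = 1 := by rw [sq, invol_mul_self]
      have e : frobImage ρ p = x * invol * x⁻¹ := by rw [← hx]; group
      refine ⟨?_, ?_⟩
      · rw [e, Units.val_mul, Units.val_mul, Matrix.det_mul, Matrix.det_mul, mul_right_comm,
          ← Matrix.det_mul, ← Units.val_mul, mul_inv_cancel, Units.val_one, Matrix.det_one,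
          one_mul, hd]
      · rw [e, conj_pow, hs, mul_one, mul_inv_cancel])⟩
    simp

open Classical in
variable (ρ) in
/-- The indicator of `±1`. -/
def indCentral (p : Nat.Primes) : ℝ :=
  if frobImage ρ p = 1 ∨ frobImage ρ p = -1 then 1 else 0

open Classical in
variable (ρ) in
/-- The indicator of the involutions of determinant `-1`. -/
def indInvol (p : Nat.Primes) : ℝ := if IsOddInvol (frobImage ρ p) then 1 else 0

include hfin hsurj in
theorem primeSum_indCentral_isBigO :
    (fun s => primeSum (indCentral ρ) s + (1 / 24 : ℝ) * Real.log (s - 1)) =O[𝓝[>] 1]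
      (fun _ => (1 : ℝ)) := by
  have h2 : Nat.card (Subgroup.zpowers (-1 : G3)) = 2 := by
    rw [Nat.card_zpowers]
    exact orderOf_eq_prime (by rw [sq, neg_mul_neg, one_mul]) neg_one_ne_one
  refine ((conjCount_isBigO hfin hsurj (Subgroup.zpowers (-1))).const_mul_left (1 / 48 : ℝ)).congr_left
    fun s => ?_
  rw [show conjCount ρ (Subgroup.zpowers (-1)) = fun p => 48 * indCentral ρ p from
    funext (conjCount_neg_one ρ), FermatAgent.GalRep.primeSum_const_mul, h2]
  push_cast
  ring

include hfin hsurj in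
theorem primeSum_indInvol_isBigO :
    (fun s => primeSum (indInvol ρ) s + (1 / 4 : ℝ) * Real.log (s - 1)) =O[𝓝[>] 1]
      (fun _ => (1 : ℝ)) := by
  have h2 : Nat.card (Subgroup.zpowers invol) = 2 := by
    rw [Nat.card_zpowers]
    exact orderOf_eq_prime (by rw [sq, invol_mul_self]) invol_ne_one
  have hI : ∀ p, |4 * indInvol ρ p| ≤ max (Nat.card G3 : ℝ) 4 := fun p => by
    refine le_trans ?_ (le_max_right _ _)
    unfold indInvol
    split_ifs <;> norm_num
  have hC : ∀ p, |conjCount ρ ⊥ p| ≤ max (Nat.card G3 : ℝ) 4 := fun p =>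
    (abs_conjCount_le ρ _ p).trans (le_max_left _ _)
  refine (((conjCount_isBigO hfin hsurj (Subgroup.zpowers invol)).sub
    (conjCount_isBigO hfin hsurj ⊥)).const_mul_left (1 / 4 : ℝ)).congr' ?_ EventuallyEq.rfl
  filter_upwards [self_mem_nhdsWithin] with s hs
  have hs1 : (1 : ℝ) < s := hs
  have e : primeSum (conjCount ρ (Subgroup.zpowers invol)) s =
      primeSum (conjCount ρ ⊥) s + 4 * primeSum (indInvol ρ) s := by
    rw [← FermatAgent.GalRep.primeSum_const_mul, primeSum, primeSum, primeSum,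
      ← (FermatAgent.GalRep.summable_primeSum hC hs1).tsum_add
        (FermatAgent.GalRep.summable_primeSum hI hs1)]
    exact tsum_congr fun p => by rw [conjCount_invol, indInvol]; ring
  rw [e, h2, Subgroup.card_bot]
  push_cast
  ring

end FermatAgent.LT.Period
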