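import Fermat.Agent.LT.Bianchi

set_option autoImplicit false

/-!
# The input of the period computation

The part of a Bianchi form of level `N` used by the period computation; it is shared by the
Bianchi forms of the Langlands-Tunnell argument and of its general version.
-/

noncomputable section

open scoped ComplexConjugate

namespace FermatAgent.LT

/-- A cusp form on `H3 × GL₂(O/N)` with a coefficient expansion at the diagonal matrices. -/
structure PeriodData (N : ℕ) where
  /-- the form -/
  φ : H3 → GL (Fin 2) (EisInt ⧸ eisIdeal N) → ℂ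
  invariant : ∀ (γ : GL (Fin 2) EisInt) (P : H3) h, φ (cplxMat γ • P) (redMat _ γ * h) = φ P h
  scalar : ∀ (a : (EisInt ⧸ eisIdeal N)ˣ) P h,
    φ P (h * Matrix.GeneralLinearGroup.scalar (Fin 2) a) = φ P h
  continuous : ∀ h, Continuous fun P => φ P h
  bounded : ∃ C, ∀ P h, ‖φ P h‖ ≤ C
  decay : ∀ h, ∃ C, ∀ P : H3, 1 ≤ P.t → ‖φ P h‖ ≤ C / P.t
  /-- the coefficients -/
  c : EisInt → ℂ
  expansion : ∀ (d : (EisInt ⧸ eisIdeal N)ˣ) (P : H3),
    HasSum (fun ν : EisInt => c ν *
      H3.wave ((ν : ℂ) / ((N : ℂ) * (1 + 2 * omega))) P) (φ P (diagMat d))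
  c_zero : c 0 = 0
  c_real : ∀ ν, conj (c ν) = c ν
  c_unit : ∀ (u : EisIntˣ) ν, c ((u : EisInt) * ν) = c ν

/-- A Bianchi form as input of the period computation. -/
def BianchiForm.periodData {S : Setup} (B : BianchiForm S) : PeriodData (3 * S.m) :=
  ⟨B.φ, B.invariant, B.scalar, B.continuous, B.bounded, B.decay, B.c, B.expansion, B.c_zero,
    B.c_real, B.c_unit⟩

namespace Period

/-- The coefficient at a rational integer. -/
def coef (c : EisInt → ℂ) (n : ℕ) : ℝ := (c (n : EisInt)).re

/-- The term of the series over the rational integers. -/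
def dterm (c : EisInt → ℂ) (s : ℝ) (n : ℕ) : ℝ := coef c n * (n : ℝ) ^ (-s)

end Period

end FermatAgent.LT
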