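import Fermat.Agent.LT.Period.Eis
import Fermat.Agent.LT.Period.Data
import Fermat.Agent.LT.Base.Bessel

set_option autoImplicit false

/-!
# The mean square bound for the coefficients

Bessel's inequality on a horizontal torus at small height gives `∑_{N ν ≤ X} |c ν|² = O(X)`.
-/

noncomputable section

open MeasureTheory Filter Topology
open scoped ComplexConjugate
open Complex (normSq)

namespace FermatAgent.LT.Period

/-- First coordinate. -/
def eisA (ν : EisInt) : ℤ := (exists_eq_eis ν).choose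

/-- Second coordinate. -/
def eisB (ν : EisInt) : ℤ := (exists_eq_eis ν).choose_spec.choose

theorem eis_coords (ν : EisInt) : ν = eis (eisA ν) (eisB ν) :=
  (exists_eq_eis ν).choose_spec.choose_spec

theorem coe_eis_coords (ν : EisInt) : (ν : ℂ) = (eisA ν : ℂ) + (eisB ν : ℂ) * omega := by
  conv_lhs => rw [eis_coords ν]
  rfl

theorem eq_of_coords {μ ν : EisInt} (hA : eisA μ = eisA ν) (hB : eisB μ = eisB ν) : μ = ν := by
  rw [eis_coords μ, eis_coords ν, hA, hB]

theorem normSq_one_add_two_omega : normSq (1 + 2 * omega) = 3 := by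
  have h : √(3 : ℝ) * √3 = 3 := Real.mul_self_sqrt (by norm_num)
  simp [Complex.normSq_apply, omega]
  linarith [h]

theorem one_add_two_omega : 1 + 2 * omega = (Real.sqrt 3 : ℂ) * Complex.I := by
  apply Complex.ext <;> simp [omega] <;> ring

theorem norm_one_add_two_omega : ‖1 + 2 * omega‖ = Real.sqrt 3 := by
  rw [Complex.norm_def, normSq_one_add_two_omega]

/-- The frequency constant `4π / (N √3)`. -/
def kap (N : ℕ) : ℝ := 4 * Real.pi / (N * Real.sqrt 3)

theorem kap_pos {N : ℕ} (hN : N ≠ 0) : 0 < kap N := by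
  have : (0 : ℝ) < N := by exact_mod_cast Nat.pos_of_ne_zero hN
  unfold kap
  positivity

/-- The frequency attached to `ν`. -/
def freq (N : ℕ) (ν : EisInt) : ℂ := (ν : ℂ) / ((N : ℂ) * (1 + 2 * omega))

theorem norm_freq (N : ℕ) (ν : EisInt) :
    4 * Real.pi * ‖freq N ν‖ = kap N * ‖(ν : ℂ)‖ := by
  rw [freq, norm_div, norm_mul, Complex.norm_natCast, norm_one_add_two_omega, kap]
  ring

/-- The characters of the horizontal torus. -/
def torusChar (ν : EisInt) (q : ℝ × ℝ) : ℂ :=
  Complex.exp (2 * Real.pi * Complex.I * (eisB ν : ℂ) * (q.1 : ℂ)) *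
    Complex.exp (2 * Real.pi * Complex.I * ((eisA ν - eisB ν : ℤ) : ℂ) * (q.2 : ℂ))

theorem norm_torusChar (ν : EisInt) (q : ℝ × ℝ) : ‖torusChar ν q‖ = 1 := by
  rw [torusChar, norm_mul, Complex.norm_exp, Complex.norm_exp]
  simp

theorem continuous_torusChar (ν : EisInt) : Continuous (torusChar ν) := by
  unfold torusChar; fun_prop

theorem wave_torus {N : ℕ} (hN : N ≠ 0) {t : ℝ} (ht : 0 < t) (ν : EisInt) (q : ℝ × ℝ) :
    H3.wave (freq N ν) ⟨(N : ℂ) * (q.1 + q.2 * omega), t, ht⟩ =
      ((t * H3.besselK0 (kap N * ‖(ν : ℂ)‖ * t) : ℝ) : ℂ) * torusChar ν q := by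
  have hN' : (N : ℂ) ≠ 0 := Nat.cast_ne_zero.2 hN
  have hd : 1 + 2 * omega ≠ 0 := fun h => by
    have := normSq_one_add_two_omega
    rw [h, map_zero] at this
    norm_num at this
  rw [H3.wave]
  simp only [norm_freq]
  congr 1
  rw [torusChar, ← Complex.exp_add]
  congr 1
  have hre : 2 * (freq N ν * ((N : ℂ) * (q.1 + q.2 * omega))).re =
      (eisB ν : ℝ) * q.1 + ((eisA ν : ℝ) - eisB ν) * q.2 := by
    rw [show freq N ν * ((N : ℂ) * (q.1 + q.2 * omega)) =
      (ν : ℂ) * (q.1 + q.2 * omega) / (1 + 2 * omega) by rw [freq]; field_simp]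
    rw [one_add_two_omega, coe_eis_coords ν]
    have h : √(3 : ℝ) * √3 = 3 := Real.mul_self_sqrt (by norm_num)
    simp [Complex.div_re, Complex.normSq_apply, omega, h]
    field_simp
    linear_combination (2 * ((eisA ν : ℝ) * q.2 - (eisB ν : ℝ) * q.2 + (eisB ν : ℝ) * q.1)) * h
  rw [hre]
  push_cast
  ring

/-- The torus measure. -/
def torusMeasure : Measure (ℝ × ℝ) :=
  (volume.restrict (Set.Ioc (0 : ℝ) 1)).prod (volume.restrict (Set.Ioc (0 : ℝ) 1))

instance : IsProbabilityMeasure (volume.restrict (Set.Ioc (0 : ℝ) 1)) :=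
  ⟨by simp⟩

instance : IsProbabilityMeasure torusMeasure := by
  unfold torusMeasure; infer_instance

theorem integral_exp_Ioc (n : ℤ) :
    ∫ u : ℝ in Set.Ioc (0 : ℝ) 1, Complex.exp (2 * Real.pi * Complex.I * (n : ℂ) * (u : ℂ)) =
      if n = 0 then 1 else 0 := by
  rw [← intervalIntegral.integral_of_le zero_le_one]
  split_ifs with h
  · simp [h]
  · have hc : 2 * (Real.pi : ℂ) * Complex.I * (n : ℂ) ≠ 0 :=
      mul_ne_zero Complex.two_pi_I_ne_zero (Int.cast_ne_zero.2 h)
    rw [integral_exp_mul_complex hc]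
    have : Complex.exp (2 * (Real.pi : ℂ) * Complex.I * (n : ℂ) * ((1 : ℝ) : ℂ)) = 1 := by
      rw [Complex.ofReal_one, mul_one, mul_comm]
      exact Complex.exp_int_mul_two_pi_mul_I n
    rw [this]
    simp

theorem integral_torusChar_mul (μ ν : EisInt) :
    ∫ q, torusChar μ q * conj (torusChar ν q) ∂torusMeasure = if μ = ν then 1 else 0 := by
  have e : ∀ q : ℝ × ℝ, torusChar μ q * conj (torusChar ν q) =
      Complex.exp (2 * Real.pi * Complex.I * ((eisB μ - eisB ν : ℤ) : ℂ) * (q.1 : ℂ)) *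
        Complex.exp (2 * Real.pi * Complex.I *
          (((eisA μ - eisB μ) - (eisA ν - eisB ν) : ℤ) : ℂ) * (q.2 : ℂ)) := by
    intro q
    simp only [torusChar, map_mul, ← Complex.exp_conj, Complex.conj_ofReal, Complex.conj_I,
      map_intCast, map_ofNat]
    rw [← Complex.exp_add, ← Complex.exp_add, ← Complex.exp_add, ← Complex.exp_add]
    congr 1
    push_cast
    ring
  simp only [e]
  rw [torusMeasure,
    integral_prod_mul
      (fun u : ℝ => Complex.exp (2 * Real.pi * Complex.I * ((eisB μ - eisB ν : ℤ) : ℂ) * (u : ℂ)))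
      (fun v : ℝ => Complex.exp (2 * Real.pi * Complex.I *
        (((eisA μ - eisB μ) - (eisA ν - eisB ν) : ℤ) : ℂ) * (v : ℂ))),
    integral_exp_Ioc, integral_exp_Ioc]
  rcases eq_or_ne μ ν with rfl | h
  · simp
  · have : ¬ (eisB μ - eisB ν = 0 ∧ eisA μ - eisB μ - (eisA ν - eisB ν) = 0) :=
      fun ⟨h1, h2⟩ => h (eq_of_coords (by omega) (by omega))
    rw [if_neg h]
    by_cases h1 : eisB μ - eisB ν = 0
    · rw [if_neg fun h2 => this ⟨h1, h2⟩, mul_zero]
    · rw [if_neg h1, zero_mul]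

/-- Bessel's inequality for an absolutely convergent series of torus characters. -/
theorem bessel_torus {A : EisInt → ℂ} {f : ℝ × ℝ → ℂ} {M : ℝ} (hfc : Continuous f)
    (hfM : ∀ q, ‖f q‖ ≤ M) (hA : Summable fun ν => ‖A ν‖)
    (hf : ∀ q, HasSum (fun ν => A ν * torusChar ν q) (f q)) (T : Finset EisInt) :
    ∑ ν ∈ T, ‖A ν‖ ^ 2 ≤ M ^ 2 := by
  have hcoef : ∀ ν, ∫ q, f q * conj (torusChar ν q) ∂torusMeasure = A ν := by
    intro ν
    have e : ∀ q, f q * conj (torusChar ν q) =
        ∑' μ, A μ * (torusChar μ q * conj (torusChar ν q)) := fun q => by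
      rw [← (hf q).tsum_eq, ← tsum_mul_right]
      exact tsum_congr fun μ => mul_assoc _ _ _
    simp only [e]
    rw [← integral_tsum_of_summable_integral_norm]
    · simp only [integral_const_mul, integral_torusChar_mul]
      rw [tsum_eq_single ν fun μ hμ => by simp [hμ]]
      simp
    · intro μ
      refine Integrable.of_bound (Continuous.aestronglyMeasurable ?_) ‖A μ‖
        (Eventually.of_forall fun q => by simp [norm_torusChar])
      exact continuous_const.mul
        ((continuous_torusChar μ).mul (Complex.continuous_conj.comp (continuous_torusChar ν)))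
    · simpa [norm_torusChar] using hA
  set g : ℝ × ℝ → ℂ := fun q => ∑ ν ∈ T, A ν * torusChar ν q
  have hgc : Continuous g :=
    continuous_finsetSum _ fun ν _ => continuous_const.mul (continuous_torusChar ν)
  have hgM : ∀ q, ‖g q‖ ≤ ∑ ν ∈ T, ‖A ν‖ := fun q =>
    (norm_sum_le _ _).trans (Finset.sum_le_sum fun ν _ => by simp [norm_torusChar])
  have hfi : ∀ ν, Integrable (fun q => f q * conj (torusChar ν q)) torusMeasure := fun ν =>
    Integrable.of_bound
      (hfc.mul (Complex.continuous_conj.comp (continuous_torusChar ν))).aestronglyMeasurable M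
      (Eventually.of_forall fun q => by simpa [norm_torusChar] using hfM q)
  have h1 : ∫ q, f q * conj (g q) ∂torusMeasure = ((∑ ν ∈ T, ‖A ν‖ ^ 2 : ℝ) : ℂ) := by
    have e : ∀ q, f q * conj (g q) = ∑ ν ∈ T, conj (A ν) * (f q * conj (torusChar ν q)) := fun q => by
      simp only [g, map_sum, map_mul, Finset.mul_sum]
      exact Finset.sum_congr rfl fun ν _ => by ring
    simp only [e]
    rw [integral_finsetSum _ fun ν _ => (hfi ν).const_mul _, Complex.ofReal_sum]
    refine Finset.sum_congr rfl fun ν _ => ?_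
    rw [integral_const_mul, hcoef, mul_comm, Complex.mul_conj, Complex.normSq_eq_norm_sq]
  have h2 : ∫ q, g q * conj (g q) ∂torusMeasure = ((∑ ν ∈ T, ‖A ν‖ ^ 2 : ℝ) : ℂ) := by
    have e : ∀ q, g q * conj (g q) =
        ∑ ν ∈ T, ∑ μ ∈ T, (A μ * conj (A ν)) * (torusChar μ q * conj (torusChar ν q)) := fun q => by
      simp only [g, map_sum, map_mul, Finset.mul_sum, Finset.sum_mul]
      exact Finset.sum_congr rfl fun ν _ => Finset.sum_congr rfl fun μ _ => by ring
    simp only [e]
    have hi : ∀ ν μ : EisInt, Integrable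
        (fun q => (A μ * conj (A ν)) * (torusChar μ q * conj (torusChar ν q))) torusMeasure :=
      fun ν μ => (Integrable.of_bound ((continuous_torusChar μ).mul
        (Complex.continuous_conj.comp (continuous_torusChar ν))).aestronglyMeasurable 1
        (Eventually.of_forall fun q => by simp [norm_torusChar])).const_mul _
    rw [integral_finsetSum _ fun ν _ => integrable_finsetSum _ fun μ _ => hi ν μ,
      Complex.ofReal_sum]
    refine Finset.sum_congr rfl fun ν hν => ?_
    rw [integral_finsetSum _ fun μ _ => hi ν μ]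
    simp only [integral_const_mul, integral_torusChar_mul, mul_ite, mul_one, mul_zero]
    rw [Finset.sum_ite_eq' T ν, if_pos hν, Complex.mul_conj, Complex.normSq_eq_norm_sq]
  have hfg : Integrable (fun q => f q * conj (g q)) torusMeasure :=
    Integrable.of_bound (hfc.mul (Complex.continuous_conj.comp hgc)).aestronglyMeasurable
      (M * ∑ ν ∈ T, ‖A ν‖) (Eventually.of_forall fun q => by
        rw [norm_mul, Complex.norm_conj]
        exact mul_le_mul (hfM q) (hgM q) (norm_nonneg _) ((norm_nonneg _).trans (hfM q)))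
  have hgg : Integrable (fun q => g q * conj (g q)) torusMeasure :=
    Integrable.of_bound (hgc.mul (Complex.continuous_conj.comp hgc)).aestronglyMeasurable
      ((∑ ν ∈ T, ‖A ν‖) * ∑ ν ∈ T, ‖A ν‖) (Eventually.of_forall fun q => by
        rw [norm_mul, Complex.norm_conj]
        exact mul_le_mul (hgM q) (hgM q) (norm_nonneg _) ((norm_nonneg _).trans (hgM q)))
  have hpt : ∀ q, 2 * (f q * conj (g q)).re - (g q * conj (g q)).re ≤ M ^ 2 := fun q => by
    have h := normSq_nonneg' (f q) (g q)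
    have h3 : normSq (f q) ≤ M ^ 2 := by
      rw [Complex.normSq_eq_norm_sq]
      exact pow_le_pow_left₀ (norm_nonneg _) (hfM q) 2
    rw [show (g q * conj (g q)).re = normSq (g q) by rw [Complex.mul_conj, Complex.ofReal_re]]
    linarith
  have hi1 : Integrable (fun q => 2 * (f q * conj (g q)).re) torusMeasure :=
    (hfg.re).const_mul 2
  have hi2 : Integrable (fun q => (g q * conj (g q)).re) torusMeasure := hgg.re
  have hi3 : Integrable (fun q => 2 * (f q * conj (g q)).re - (g q * conj (g q)).re) torusMeasure :=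
    hi1.sub hi2
  have h4 := integral_mono hi3 (integrable_const (M ^ 2)) hpt
  rw [integral_sub hi1 hi2, integral_const_mul] at h4
  have hre1 := integral_re hfg
  have hre2 := integral_re hgg
  simp only [RCLike.re_to_complex] at hre1 hre2
  rw [hre1, hre2, h1, h2, Complex.ofReal_re, integral_const] at h4
  simp at h4
  linarith
where
  normSq_nonneg' (x y : ℂ) : 0 ≤ normSq x + normSq y - 2 * (x * conj y).re := by
    rw [← Complex.normSq_sub]
    exact Complex.normSq_nonneg _

theorem level_ne_zero (S : Setup) : 3 * S.m ≠ 0 :=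
  mul_ne_zero three_ne_zero S.m_squarefree.ne_zero

variable {N : ℕ} (B : PeriodData N) (hN : N ≠ 0)
include hN

/-- The mean square bound. -/
theorem exists_sum_normSq_le : ∃ C : ℝ, 0 ≤ C ∧ ∀ X : ℝ, 0 < X → ∀ T : Finset EisInt,
    (∀ ν ∈ T, normSq (ν : ℂ) ≤ X) → ∑ ν ∈ T, normSq (B.c ν) ≤ C * X := by
  classical
  obtain ⟨M, hM⟩ := B.bounded
  have hκ := kap_pos hN
  have hK : 0 < H3.besselK0 1 := H3.besselK0_pos one_pos
  refine ⟨(M * kap N / H3.besselK0 1) ^ 2, sq_nonneg _, fun X hX T hT => ?_⟩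
  set t : ℝ := 1 / (kap N * Real.sqrt X) with ht'
  have hsX : 0 < Real.sqrt X := Real.sqrt_pos.2 hX
  have ht : 0 < t := by positivity
  set pt : ℝ × ℝ → H3 := fun q => ⟨(N : ℂ) * (q.1 + q.2 * omega), t, ht⟩
  set A : EisInt → ℂ := fun ν => B.c ν * ((t * H3.besselK0 (kap N * ‖(ν : ℂ)‖ * t) : ℝ) : ℂ)
  have hf : ∀ q, HasSum (fun ν => A ν * torusChar ν q) (B.φ (pt q) (diagMat 1)) := fun q => by
    refine (B.expansion 1 (pt q)).congr_fun fun ν => ?_
    show A ν * torusChar ν q = B.c ν * H3.wave (freq N ν) (pt q)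
    rw [wave_torus hN ht, ← mul_assoc]
  have hA : Summable fun ν => ‖A ν‖ :=
    ((summable_norm_iff.2 (hf (0, 0)).summable)).congr fun ν => by
      rw [norm_mul, norm_torusChar, mul_one]
  have hc : Continuous fun q => B.φ (pt q) (diagMat 1) := by
    refine (B.continuous _).comp ?_
    rw [continuous_induced_rng]
    show Continuous fun q : ℝ × ℝ => ((N : ℂ) * (q.1 + q.2 * omega), t)
    fun_prop
  have h := bessel_torus hc (fun q => hM _ _) hA hf T
  have key : ∀ ν ∈ T, normSq (B.c ν) * (t * H3.besselK0 1) ^ 2 ≤ ‖A ν‖ ^ 2 := by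
    intro ν hν
    rw [norm_mul, mul_pow (‖B.c ν‖), ← Complex.normSq_eq_norm_sq, Complex.norm_real,
      Real.norm_eq_abs, sq_abs]
    rcases eq_or_ne ν 0 with rfl | hν0
    · simp [B.c_zero]
    have h1 : kap N * ‖(ν : ℂ)‖ * t ≤ 1 := by
      have h2 : ‖(ν : ℂ)‖ ≤ Real.sqrt X := by
        rw [Complex.norm_def]; exact Real.sqrt_le_sqrt (hT ν hν)
      rw [ht', mul_one_div, div_le_one (by positivity)]
      exact mul_le_mul_of_nonneg_left h2 hκ.le
    have h3 : 0 < kap N * ‖(ν : ℂ)‖ * t := by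
      have : (ν : ℂ) ≠ 0 := fun h0 => hν0 (Subtype.ext h0)
      positivity
    have h5 := H3.besselK0_anti h3 h1
    gcongr
    exact Complex.normSq_nonneg _
  have h6 : (∑ ν ∈ T, normSq (B.c ν)) * (t * H3.besselK0 1) ^ 2 ≤ M ^ 2 := by
    rw [Finset.sum_mul]
    exact (Finset.sum_le_sum key).trans h
  rw [← le_div_iff₀ (by positivity)] at h6
  refine h6.trans (le_of_eq ?_)
  rw [ht']
  field_simp
  rw [Real.sq_sqrt hX.le]

theorem exists_norm_c_le : ∃ C : ℝ, 0 ≤ C ∧ ∀ ν, ‖B.c ν‖ ≤ C * ‖(ν : ℂ)‖ := by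
  obtain ⟨C, hC0, hC⟩ := exists_sum_normSq_le B hN
  refine ⟨Real.sqrt C, Real.sqrt_nonneg _, fun ν => ?_⟩
  rcases eq_or_ne ν 0 with rfl | hν
  · simp [B.c_zero]
  have hpos : 0 < normSq (ν : ℂ) := lt_of_lt_of_le one_pos (one_le_normSq hν)
  have h := hC _ hpos {ν} (by simp)
  rw [Finset.sum_singleton] at h
  rw [Complex.norm_def, Complex.norm_def, ← Real.sqrt_mul hC0]
  exact Real.sqrt_le_sqrt h

/-- The Dirichlet series of the squares is `O(1/(s-1))`, uniformly in finite partial sums. -/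
theorem exists_dirichlet_sq_le : ∃ C : ℝ, 0 ≤ C ∧ ∀ s : ℝ, 1 < s → s ≤ 3 / 2 →
    ∀ T : Finset EisInt, ∑ ν ∈ T, normSq (B.c ν) * normSq (ν : ℂ) ^ (-s) ≤ C / (s - 1) := by
  classical
  obtain ⟨C, hC0, hC⟩ := exists_sum_normSq_le B hN
  choose n hn using exists_natCast_normSq
  refine ⟨8 * C, by positivity, fun s hs hs' T => ?_⟩
  set r : ℝ := (2 : ℝ) ^ (1 - s) with hr
  have hr0 : 0 < r := by positivity
  have hr1 : (s - 1) / 4 ≤ 1 - r := by
    have hu : 0 < s - 1 := by linarith
    have h1 : 1 + (s - 1) * Real.log 2 ≤ (2 : ℝ) ^ (s - 1) := by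
      rw [Real.rpow_def_of_pos two_pos, mul_comm (Real.log 2)]
      linarith [Real.add_one_le_exp ((s - 1) * Real.log 2)]
    have h2 : (2 : ℝ) ^ (s - 1) ≤ 2 :=
      (Real.rpow_le_rpow_of_exponent_le one_le_two (by linarith : s - 1 ≤ 1)).trans_eq
        (Real.rpow_one 2)
    have h3 : 1 / 2 ≤ Real.log 2 := by linarith [Real.log_two_gt_d9]
    have h4 : 0 < (2 : ℝ) ^ (s - 1) := by positivity
    have h5 : r = ((2 : ℝ) ^ (s - 1))⁻¹ := by
      rw [hr, show 1 - s = -(s - 1) by ring, Real.rpow_neg zero_le_two]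
    rw [h5, le_sub_iff_add_le, ← le_sub_iff_add_le', inv_le_iff_one_le_mul₀ h4]
    nlinarith
  set T' := T.filter (· ≠ 0)
  have hT' : ∑ ν ∈ T, normSq (B.c ν) * normSq (ν : ℂ) ^ (-s) =
      ∑ ν ∈ T', normSq (B.c ν) * normSq (ν : ℂ) ^ (-s) := by
    refine (Finset.sum_filter_of_ne fun ν _ hne => ?_).symm
    rintro rfl
    simp [B.c_zero] at hne
  rw [hT', ← Finset.sum_fiberwise_of_maps_to (g := fun ν => Nat.log 2 (n ν))
    (t := T'.image fun ν => Nat.log 2 (n ν)) fun ν hν => Finset.mem_image_of_mem _ hν]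
  have hfib : ∀ i ∈ T'.image fun ν => Nat.log 2 (n ν),
      ∑ ν ∈ T' with Nat.log 2 (n ν) = i, normSq (B.c ν) * normSq (ν : ℂ) ^ (-s) ≤
        2 * C * r ^ i := by
    intro i _
    have hb : ∀ ν ∈ T'.filter (fun ν => Nat.log 2 (n ν) = i),
        (2 : ℝ) ^ i ≤ normSq (ν : ℂ) ∧ normSq (ν : ℂ) ≤ 2 ^ (i + 1) := by
      intro ν hν
      obtain ⟨hνT, rfl⟩ := Finset.mem_filter.1 hν
      have h0 : n ν ≠ 0 := fun h0 => by
        have := one_le_normSq (Finset.mem_filter.1 hνT).2
        rw [hn, h0] at this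
        norm_num at this
      rw [hn]
      exact ⟨by exact_mod_cast Nat.pow_log_le_self 2 h0,
        by exact_mod_cast (Nat.lt_pow_succ_log_self one_lt_two _).le⟩
    calc _ ≤ ∑ ν ∈ T'.filter (fun ν => Nat.log 2 (n ν) = i),
          normSq (B.c ν) * ((2 : ℝ) ^ i) ^ (-s) := by
            refine Finset.sum_le_sum fun ν hν => mul_le_mul_of_nonneg_left ?_ (Complex.normSq_nonneg _)
            exact Real.rpow_le_rpow_of_nonpos (by positivity) (hb ν hν).1 (by linarith)
      _ ≤ C * 2 ^ (i + 1) * ((2 : ℝ) ^ i) ^ (-s) := by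
            rw [← Finset.sum_mul]
            exact mul_le_mul_of_nonneg_right (hC _ (by positivity) _ fun ν hν => (hb ν hν).2)
              (by positivity)
      _ = 2 * C * r ^ i := by
            rw [hr, ← Real.rpow_natCast ((2 : ℝ) ^ (1 - s)) i, ← Real.rpow_mul zero_le_two,
              ← Real.rpow_natCast 2 i, ← Real.rpow_mul zero_le_two, pow_succ, ← Real.rpow_natCast 2 i]
            rw [show C * ((2 : ℝ) ^ (i : ℝ) * 2) * 2 ^ ((i : ℝ) * -s) =
              2 * C * ((2 : ℝ) ^ (i : ℝ) * 2 ^ ((i : ℝ) * -s)) by ring, ← Real.rpow_add two_pos]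
            congr 2
            ring
  refine (Finset.sum_le_sum hfib).trans ?_
  rw [← Finset.mul_sum]
  have hgeo := (hasSum_geometric_of_lt_one hr0.le (by linarith : r < 1))
  refine (mul_le_mul_of_nonneg_left (sum_le_hasSum _ (fun i _ => by positivity) hgeo)
    (by positivity)).trans ?_
  rw [← div_eq_mul_inv, div_le_div_iff₀ (by linarith) (by linarith)]
  nlinarith

end FermatAgent.LT.Period
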