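import Fermat.Agent.LT.Period.Unfold
import Fermat.Agent.LT.Period.Parseval

set_option autoImplicit false

/-!
# The strip integral is the coefficient series
-/

noncomputable section

open MeasureTheory Filter Topology
open scoped MatrixGroups Classical
open UpperHalfPlane
open FermatAgent.LT.H3 (besselK0)

namespace FermatAgent.LT.Period

/-- An upper unipotent matrix. -/
def shiftMat {R : Type*} [CommRing R] (b : R) : GL (Fin 2) R where
  val := !![1, b; 0, 1]
  inv := !![1, -b; 0, 1]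
  val_inv := by ext i j; fin_cases i <;> fin_cases j <;> simp [Matrix.mul_apply, Fin.sum_univ_two]
  inv_val := by ext i j; fin_cases i <;> fin_cases j <;> simp [Matrix.mul_apply, Fin.sum_univ_two]

theorem shiftMat_neg_mul {R : Type*} [CommRing R] (b : R) : shiftMat (-b) * shiftMat b = 1 := by
  refine Units.ext (Matrix.ext fun i j => ?_)
  fin_cases i <;> fin_cases j <;> simp [shiftMat, Matrix.mul_apply, Fin.sum_univ_two]

theorem map_shiftMat {R R' : Type*} [CommRing R] [CommRing R'] (f : R →+* R') (b : R) :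
    Matrix.GeneralLinearGroup.map f (shiftMat b) = shiftMat (f b) := by
  refine Units.ext (Matrix.ext fun i j => ?_)
  fin_cases i <;> fin_cases j <;> simp [shiftMat, Matrix.GeneralLinearGroup.map_apply]

theorem map_diagMat {R R' : Type*} [CommRing R] [CommRing R'] (f : R →+* R') (d : Rˣ) :
    Matrix.GeneralLinearGroup.map f (diagMat d) = diagMat (Units.map (f : R →* R') d) := by
  refine Units.ext (Matrix.ext fun i j => ?_)
  fin_cases i <;> fin_cases j <;> simp [diagMat, Matrix.GeneralLinearGroup.map_apply]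

theorem map_scalar {R R' : Type*} [CommRing R] [CommRing R'] (f : R →+* R') (d : Rˣ) :
    Matrix.GeneralLinearGroup.map f (Matrix.GeneralLinearGroup.scalar (Fin 2) d) =
      Matrix.GeneralLinearGroup.scalar (Fin 2) (Units.map (f : R →* R') d) := by
  refine Units.ext (Matrix.ext fun i j => ?_)
  fin_cases i <;> fin_cases j <;> simp [Matrix.GeneralLinearGroup.map_apply]

theorem cplxMat_shiftMat_smul (b : EisInt) (P : H3) :
    cplxMat (shiftMat b) • P = ⟨P.z + b, P.t, P.t_pos⟩ := by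
  rw [H3.smul_def, cplxMat, map_shiftMat]
  refine H3.ext ?_ ?_ <;> simp [H3.act, H3.den, shiftMat]

variable {N : ℕ} [NeZero N]

/-- Coordinates on the upper triangular residue matrices. -/
def borelMat (q : ℕ × (ZMod N)ˣ × (ZMod N)ˣ) : GL (Fin 2) (ZMod N) :=
  shiftMat (q.1 : ZMod N) * diagMat q.2.1 * Matrix.GeneralLinearGroup.scalar (Fin 2) q.2.2

omit [NeZero N] in
theorem borelMat_apply (q : ℕ × (ZMod N)ˣ × (ZMod N)ˣ) :
    (borelMat q : Matrix (Fin 2) (Fin 2) (ZMod N)) =
      !![(q.2.1 : ZMod N) * q.2.2, (q.1 : ZMod N) * q.2.2; 0, (q.2.2 : ZMod N)] := by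
  ext i j
  fin_cases i <;> fin_cases j <;>
    simp [borelMat, shiftMat, diagMat, Matrix.mul_apply, Fin.sum_univ_two]

theorem sum_borel {M : Type*} [AddCommMonoid M] (F : GL (Fin 2) (ZMod N) → M) :
    (∑ h : GL (Fin 2) (ZMod N),
      if (h : Matrix (Fin 2) (Fin 2) (ZMod N)) 1 0 = 0 then F h else 0) =
      ∑ d : (ZMod N)ˣ, ∑ δ : (ZMod N)ˣ, ∑ b ∈ Finset.range N, F (borelMat (b, d, δ)) := by
  rw [← Finset.sum_filter]
  have e : ∑ d : (ZMod N)ˣ, ∑ δ : (ZMod N)ˣ, ∑ b ∈ Finset.range N, F (borelMat (b, d, δ)) =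
      ∑ q ∈ Finset.range N ×ˢ (Finset.univ : Finset ((ZMod N)ˣ × (ZMod N)ˣ)), F (borelMat q) := by
    simp only [Finset.sum_product, Fintype.sum_prod_type]
    symm
    rw [Finset.sum_comm]
    exact Finset.sum_congr rfl fun d _ => Finset.sum_comm
  rw [e]
  symm
  refine Finset.sum_nbij borelMat (fun q _ => by simp [borelMat_apply]) ?_ ?_ fun q _ => rfl
  · rintro ⟨b, d, δ⟩ hq ⟨b', d', δ'⟩ hq' h
    have h' := congrArg (fun g : GL (Fin 2) (ZMod N) => (g : Matrix (Fin 2) (Fin 2) (ZMod N))) h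
    simp only [borelMat_apply] at h'
    have hδ : δ = δ' := Units.ext (by simpa using congrFun (congrFun h' 1) 1)
    subst hδ
    have hd : d = d' := Units.ext (δ.isUnit.mul_left_injective
      (by simpa using congrFun (congrFun h' 0) 0))
    have hb : (b : ZMod N) = b' :=
      δ.isUnit.mul_left_injective (by simpa using congrFun (congrFun h' 0) 1)
    simp only [Finset.coe_product, Finset.coe_univ, Set.mem_prod, Finset.coe_range, Set.mem_Iio,
      Set.mem_univ, and_true] at hq hq'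
    have hbb : b = b' := by
      have := congrArg ZMod.val hb
      rwa [ZMod.val_natCast_of_lt hq, ZMod.val_natCast_of_lt hq'] at this
    simp [hd, hbb]
  · intro h hh
    simp only [Finset.coe_filter, Finset.mem_univ, true_and] at hh
    have hdet := Matrix.GeneralLinearGroup.det h |>.isUnit
    rw [Matrix.GeneralLinearGroup.val_det_apply, Matrix.det_fin_two, hh, mul_zero, sub_zero] at hdet
    obtain ⟨u0, hu0⟩ := isUnit_of_mul_isUnit_left hdet
    obtain ⟨u1, hu1⟩ := isUnit_of_mul_isUnit_right hdet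
    refine ⟨(((h : Matrix (Fin 2) (Fin 2) (ZMod N)) 0 1 * ((u1⁻¹ : (ZMod N)ˣ) : ZMod N)).val,
      u0 * u1⁻¹, u1), by simp [ZMod.val_lt], Units.ext ?_⟩
    rw [borelMat_apply]
    conv_rhs => rw [Matrix.eta_fin_two (h : Matrix (Fin 2) (Fin 2) (ZMod N)), hh, ← hu1, ← hu0]
    simp [mul_assoc]

variable (B : PeriodData N)

omit [NeZero N] in
theorem coef_zero' : coef B.c 0 = 0 := by simp [coef, B.c_zero]

omit [NeZero N] in
theorem dterm_zero' (s : ℝ) : dterm B.c s 0 = 0 := by simp [dterm, coef_zero']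

omit [NeZero N] in
theorem c_neg (ν : EisInt) : B.c (-ν) = B.c ν := by
  have := B.c_unit (-1) ν
  simpa using this

omit [NeZero N] in
theorem c_intCast (n : ℤ) : B.c (n : EisInt) = (coef B.c n.natAbs : ℂ) := by
  rw [coef, Complex.conj_eq_iff_re.1 (B.c_real _)]
  rcases Int.natAbs_eq n with h | h
  · conv_lhs => rw [h, Int.cast_natCast]
  · conv_lhs => rw [h, Int.cast_neg, Int.cast_natCast, c_neg]

theorem eisB_intCast (n : ℤ) : eisB (n : EisInt) = 0 :=
  (eis_inj ((eis_coords _).symm.trans (intCast_eq_eis n))).2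

omit [NeZero N] in
theorem uhpForm_borelMat {q : ℝ × ℝ} (hq : 0 < q.2)
    (r : ℕ × (ZMod N)ˣ × (ZMod N)ˣ) :
    uhpForm B (mkH q) (borelMat r) = B.φ ⟨((q.1 - r.1 : ℝ) : ℂ), q.2, hq⟩
      (diagMat (Units.map (zmodToEis N).toMonoidHom r.2.1)) := by
  rw [uhpForm, borelMat, map_mul, map_mul, zmodMat, map_scalar, map_shiftMat, map_diagMat, B.scalar,
    ← B.invariant (shiftMat (-(r.1 : EisInt)))]
  rw [redMat, map_shiftMat, ← mul_assoc, map_natCast,
    show (Ideal.Quotient.mk (eisIdeal N)) (-(r.1 : EisInt)) =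
        -(r.1 : EisInt ⧸ eisIdeal N) by
      rw [map_neg, map_natCast],
    shiftMat_neg_mul, one_mul, cplxMat_shiftMat_smul]
  congr 1
  refine H3.ext ?_ ?_
  · simp only [H3.ofUHP, mkH_re hq]
    rw [show ((-(r.1 : EisInt) : EisInt) : ℂ) = -((r.1 : ℕ) : ℂ) by
      push_cast [NegMemClass.coe_neg]
      exact congrArg Neg.neg (map_natCast EisInt.subtype r.1)]
    push_cast
    ring
  · simp [H3.ofUHP, mkH_im hq]

theorem wave_real {n : ℕ} (hn : n ≠ 0) {y : ℝ} (hy : 0 < y) (ν : EisInt) (x : ℝ) :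
    H3.wave (freq n ν) ⟨(x : ℂ), y, hy⟩ =
      ((y * besselK0 (kap n * ‖(ν : ℂ)‖ * y) : ℝ) : ℂ) *
        Complex.exp (2 * Real.pi * Complex.I * (eisB ν : ℂ) / n * (x : ℂ)) := by
  have hn' : (n : ℝ) ≠ 0 := Nat.cast_ne_zero.2 hn
  have hpt : (⟨(x : ℂ), y, hy⟩ : H3) =
      ⟨(n : ℂ) * (((x / n, 0) : ℝ × ℝ).1 + ((x / n, 0) : ℝ × ℝ).2 * omega), y, hy⟩ := by
    refine H3.ext ?_ rfl
    push_cast
    field_simp
    ring
  rw [hpt, wave_torus hn hy]
  congr 1
  simp only [torusChar, Complex.ofReal_zero, mul_zero, Complex.exp_zero, mul_one]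
  congr 1
  push_cast
  field_simp

theorem sum_integral_shift {y : ℝ} (hy : 0 < y) (d : (EisInt ⧸ eisIdeal N)ˣ) :
    ∑ b ∈ Finset.range N, ∫ x : ℝ in Set.Ioc (0 : ℝ) 1,
        B.φ ⟨((x - b : ℝ) : ℂ), y, hy⟩ (diagMat d) =
      ((2 * N * ∑' n : ℕ, coef B.c n * (y * besselK0 (kap N * n * y)) : ℝ) : ℂ) := by
  have hN : N ≠ 0 := NeZero.ne _
  set A : EisInt → ℂ := fun ν => B.c ν * ((y * besselK0 (kap N * ‖(ν : ℂ)‖ * y) : ℝ) : ℂ)
  set χ : EisInt → ℝ → ℂ := fun ν x =>
    Complex.exp (2 * Real.pi * Complex.I * (eisB ν : ℂ) / N * (x : ℂ))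
  have hexp : ∀ x : ℝ, HasSum (fun ν => A ν * χ ν x) (B.φ ⟨(x : ℂ), y, hy⟩ (diagMat d)) := by
    intro x
    refine (B.expansion d _).congr_fun fun ν => ?_
    show A ν * χ ν x = B.c ν * H3.wave (freq N ν) ⟨(x : ℂ), y, hy⟩
    rw [wave_real hN hy, ← mul_assoc]
  have hχ : ∀ ν x, ‖χ ν x‖ = 1 := fun ν x => by
    simp [χ, Complex.norm_exp, Complex.div_re]
  have hA : Summable fun ν => ‖A ν‖ :=
    (summable_norm_iff.2 (hexp 0).summable).congr fun ν => by rw [norm_mul, hχ, mul_one]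
  have hb : ∀ b : ℕ, ∫ x : ℝ in Set.Ioc (0 : ℝ) 1, B.φ ⟨((x - b : ℝ) : ℂ), y, hy⟩ (diagMat d) =
      ∑' ν, A ν * ∫ x : ℝ in Set.Ioc (0 : ℝ) 1, χ ν (x - b) := by
    intro b
    simp only [← fun x : ℝ => (hexp (x - b)).tsum_eq]
    rw [← integral_tsum_of_summable_integral_norm]
    · simp only [integral_const_mul]
    · intro ν
      exact Integrable.of_bound (Continuous.aestronglyMeasurable (by simp only [χ]; fun_prop)) ‖A ν‖
        (Eventually.of_forall fun x => by simp [hχ])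
    · simpa [hχ] using hA
  rw [Finset.sum_congr rfl fun b _ => hb b]
  have hsb : ∀ b ∈ Finset.range N, Summable fun ν => A ν * ∫ x : ℝ in Set.Ioc (0 : ℝ) 1, χ ν (x - b) := by
    intro b _
    refine Summable.of_norm_bounded hA fun ν => ?_
    rw [norm_mul]
    refine mul_le_of_le_one_right (norm_nonneg _) ((norm_setIntegral_le_of_norm_le_const (C := 1)
      (by simp) fun x _ => (hχ ν _).le).trans ?_)
    simp
  rw [← Summable.tsum_finsetSum hsb]
  have hsum : ∀ ν, ∑ b ∈ Finset.range N, A ν * ∫ x : ℝ in Set.Ioc (0 : ℝ) 1, χ ν (x - b) =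
      A ν * if eisB ν = 0 then (N : ℂ) else 0 := fun ν => by
    rw [← Finset.mul_sum, ← sum_integral_exp_shift hN (eisB ν)]
    congr 1
    refine Finset.sum_congr rfl fun b _ => ?_
    simp [χ]
  simp only [hsum]
  have hinj : Function.Injective fun n : ℤ => (n : EisInt) := fun a b h => by
    simp only [intCast_eq_eis] at h
    exact (eis_inj h).1
  rw [← hinj.tsum_eq]
  swap
  · intro ν hν
    have hB : eisB ν = 0 := by
      by_contra h
      simp [h] at hν
    exact ⟨eisA ν, ((intCast_eq_eis _).trans (hB ▸ (eis_coords ν).symm))⟩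
  set g : ℤ → ℝ := fun n =>
    (N : ℝ) * (coef B.c n.natAbs * (y * besselK0 (kap N * n.natAbs * y)))
  have hg : ∀ n : ℤ, A (n : EisInt) * (if eisB (n : EisInt) = 0 then (N : ℂ) else 0) = (g n : ℂ) := by
    intro n
    have hn : ‖((n : EisInt) : ℂ)‖ = (n.natAbs : ℝ) := by
      rw [show ((n : EisInt) : ℂ) = ((n : ℤ) : ℂ) from map_intCast EisInt.subtype n,
        Complex.norm_intCast, Nat.cast_natAbs, Int.cast_abs]
    rw [eisB_intCast, if_pos rfl]
    simp only [A, g, c_intCast, hn]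
    push_cast
    ring
  rw [tsum_congr hg, ← Complex.ofReal_tsum]
  congr 1
  have hgs : Summable g := by
    have h1 := ((hA.comp_injective hinj).mul_right (N : ℝ))
    refine Summable.of_norm ((h1.congr fun n => ?_))
    have := congrArg norm (hg n)
    rw [eisB_intCast, if_pos rfl, norm_mul, Complex.norm_natCast, Complex.norm_real] at this
    exact this
  have hgn : Summable fun n : ℕ => g n := hgs.comp_injective Int.ofNat_injective
  rw [tsum_int_split hgs]
  have e2 : (∑' n : ℕ, g (-((n : ℤ) + 1))) = ∑' n : ℕ, g ((n + 1 : ℕ) : ℤ) :=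
    tsum_congr fun n => by
      have e : (-((n : ℤ) + 1)).natAbs = (((n + 1 : ℕ) : ℤ)).natAbs := by omega
      simp only [g, e]
  have e3 := hgn.tsum_eq_zero_add
  have hg0 : g (0 : ℕ) = 0 := by simp [g, coef_zero']
  rw [hg0, zero_add] at e3
  rw [e2, ← e3, ← tsum_mul_left, ← hgn.tsum_add hgn]
  refine tsum_congr fun n => ?_
  simp [g]
  ring

/-- The strip integral in terms of the coefficient series. -/
theorem stripIntegral_eq {s : ℝ} (hs : 1 < s) (hs' : s < 2)
    (hsum : Summable fun n => ‖dterm B.c s n‖) :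
    ∫ τ in strip, stripFun B s τ =
      ((2 * N * (Fintype.card (ZMod N)ˣ) ^ 2 * kap N ^ (-s) * kMom s *
        ∑' n, dterm B.c s n : ℝ) : ℂ) := by
  have hN : N ≠ 0 := NeZero.ne _
  have hκ := kap_pos hN
  set U := Fintype.card (ZMod N)ˣ
  have hint := (strip_integral_pair (stripFun B s)).2.1 (integrableOn_stripFun B hs hs')
  rw [(strip_integral_pair (stripFun B s)).1, stripMeasure, integral_prod_symm _ hint]
  set J : ℝ → ℝ := fun y => ∑' n : ℕ, coef B.c n * (y * besselK0 (kap N * n * y))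
  have hinner : ∀ y ∈ Set.Ioi (0 : ℝ),
      ∫ x in Set.Ico (0 : ℝ) 1, (y ^ 2)⁻¹ • stripFun B s (mkH (x, y)) =
        ((((y ^ 2)⁻¹ * y ^ s) * ((U : ℝ) ^ 2 * (2 * N * J y)) : ℝ) : ℂ) := by
    intro y hy
    have hy0 : (0 : ℝ) < y := hy
    have e : ∀ x : ℝ, (y ^ 2)⁻¹ • stripFun B s (mkH (x, y)) =
        (((y ^ 2)⁻¹ * y ^ s : ℝ) : ℂ) * ∑ d : (ZMod N)ˣ, ∑ _δ : (ZMod N)ˣ, ∑ b ∈ Finset.range N,
          B.φ ⟨((x - b : ℝ) : ℂ), y, hy0⟩ (diagMat (Units.map (zmodToEis N).toMonoidHom d)) := by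
      intro x
      rw [stripFun, mkH_im (q := (x, y)) hy0, borelSum, sum_borel, Complex.real_smul,
        Complex.ofReal_mul, mul_assoc]
      simp only [uhpForm_borelMat B (q := (x, y)) hy0]
    simp only [e]
    have hI : ∀ (b : ℕ) (d : (ZMod N)ˣ), IntegrableOn (fun x : ℝ =>
        B.φ ⟨((x - b : ℝ) : ℂ), y, hy0⟩ (diagMat (Units.map (zmodToEis N).toMonoidHom d)))
        (Set.Ioc (0 : ℝ) 1) := by
      intro b d
      refine (Continuous.integrableOn_Icc ?_).mono_set Set.Ioc_subset_Icc_self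
      refine (B.continuous _).comp ?_
      rw [continuous_induced_rng]
      show Continuous fun x : ℝ => (((x - b : ℝ) : ℂ), y)
      fun_prop
    rw [integral_const_mul, Complex.ofReal_mul ((y ^ 2)⁻¹ * y ^ s)]
    congr 1
    rw [setIntegral_congr_set Ico_ae_eq_Ioc, integral_finsetSum _ fun d _ =>
      integrable_finsetSum _ fun δ _ => integrable_finsetSum _ fun b _ => hI b d]
    have hd : ∀ d : (ZMod N)ˣ, ∫ x in Set.Ioc (0 : ℝ) 1, ∑ _δ : (ZMod N)ˣ, ∑ b ∈ Finset.range N,
        B.φ ⟨((x - b : ℝ) : ℂ), y, hy0⟩ (diagMat (Units.map (zmodToEis N).toMonoidHom d)) =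
          (((U : ℝ) * (2 * N * J y) : ℝ) : ℂ) := by
      intro d
      rw [integral_finsetSum _ fun δ _ => integrable_finsetSum _ fun b _ => hI b d,
        Finset.sum_const, Finset.card_univ, integral_finsetSum _ fun b _ => hI b d,
        sum_integral_shift B hy0, nsmul_eq_mul, Complex.ofReal_mul (U : ℝ)]
      rfl
    simp only [hd]
    rw [Finset.sum_const, Finset.card_univ, nsmul_eq_mul]
    push_cast
    ring
  rw [setIntegral_congr_fun measurableSet_Ioi hinner]
  rw [integral_complex_ofReal]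
  congr 1
  set h : ℕ → ℝ → ℝ := fun n y => coef B.c n * (y ^ (s - 1) * besselK0 (kap N * n * y))
  have hne : ∀ n : ℕ, n ≠ 0 → 0 < kap N * n := fun n hn =>
    mul_pos hκ (Nat.cast_pos.2 (Nat.pos_of_ne_zero hn))
  have hhi : ∀ n, IntegrableOn (h n) (Set.Ioi 0) := fun n => by
    rcases eq_or_ne n 0 with rfl | hn
    · simp [h, coef_zero']
    · exact ((moment_scaled hs (hne n hn)).1.const_mul _)
  have hval : ∀ n, ∫ y in Set.Ioi (0 : ℝ), h n y = kap N ^ (-s) * kMom s * dterm B.c s n ∧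
      ∫ y in Set.Ioi (0 : ℝ), ‖h n y‖ = kap N ^ (-s) * kMom s * ‖dterm B.c s n‖ := fun n => by
    rcases eq_or_ne n 0 with rfl | hn
    · simp [h, coef_zero', dterm_zero']
    have hm := (moment_scaled hs (hne n hn)).2
    rw [Real.mul_rpow hκ.le (Nat.cast_nonneg n)] at hm
    constructor
    · simp only [h]
      rw [integral_const_mul, hm, dterm]
      ring
    · have e : ∀ y ∈ Set.Ioi (0 : ℝ), ‖h n y‖ =
          |coef B.c n| * (y ^ (s - 1) * besselK0 (kap N * n * y)) := fun y hy => by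
        have hy0 : (0 : ℝ) < y := hy
        simp only [h]
        rw [norm_mul, Real.norm_eq_abs, Real.norm_of_nonneg (mul_nonneg (Real.rpow_nonneg hy0.le _)
          (H3.besselK0_pos (mul_pos (hne n hn) hy0)).le)]
      rw [setIntegral_congr_fun measurableSet_Ioi e, integral_const_mul, hm, dterm, norm_mul,
        Real.norm_eq_abs, Real.norm_of_nonneg (Real.rpow_nonneg (Nat.cast_nonneg n) _)]
      ring
  have hswap := integral_tsum_of_summable_integral_norm (μ := volume.restrict (Set.Ioi (0 : ℝ))) hhi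
    ((hsum.mul_left _).congr fun n => (hval n).2.symm)
  have e : ∀ y ∈ Set.Ioi (0 : ℝ), (y ^ 2)⁻¹ * y ^ s * ((U : ℝ) ^ 2 * (2 * N * J y)) =
      2 * N * (U : ℝ) ^ 2 * ∑' n, h n y := by
    intro y hy
    have hy0 : (0 : ℝ) < y := hy
    have e1 : (∑' n, h n y) = (y ^ 2)⁻¹ * y ^ s * J y := by
      simp only [J]
      rw [← tsum_mul_left]
      refine tsum_congr fun n => ?_
      simp only [h]
      rw [Real.rpow_sub hy0, Real.rpow_one]
      field_simp
    rw [e1]
    ring
  rw [setIntegral_congr_fun measurableSet_Ioi e, integral_const_mul, ← hswap]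
  simp only [(hval _).1]
  rw [tsum_mul_left]
  ring

end FermatAgent.LT.Period
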