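import Fermat.Agent.LT.Period.Euler
import Fermat.Agent.LT.Period.ConstantTerm

set_option autoImplicit false

/-!
# The period of a Bianchi form of level `N` does not vanish

Route: the coefficient Dirichlet series over `ℤ` is unbounded as `s → 1⁺` (Euler product, the
bound `∑_{N ν ≤ X} |c ν|² = O(X)` from Parseval at small height, and densities of `q8Trace`), and
by unfolding against the Eisenstein series of the rational modular curves it is
`O(1) + const · period / (s - 1)`.
-/

noncomputable section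

open MeasureTheory Filter Topology
open scoped MatrixGroups Modular Classical ENNReal
open UpperHalfPlane

namespace FermatAgent.LT.Period

attribute [local instance] countable_slz

theorem measurable_latSum (N : ℕ) (r : Fin 2 → ZMod N) {s : ℝ} (hs : 1 < s) :
    Measurable fun τ : ℍ => latSum N r τ s := by
  set f : ℍ → (Fin 2 → ℤ) → ℝ := fun τ v =>
    if (fun i => (v i : ZMod N)) = r then latTerm τ s v else 0
  have hf0 : ∀ τ v, 0 ≤ f τ v := fun τ v => by simp only [f]; split_ifs <;> simp [latTerm_nonneg]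
  have hsum : ∀ τ, Summable (f τ) := fun τ =>
    Summable.of_nonneg_of_le (hf0 τ)
      (fun v => by simp only [f]; split_ifs; exacts [le_rfl, latTerm_nonneg _ _ _])
      (summable_latTerm τ hs)
  have hm : ∀ v, Measurable fun τ => f τ v := fun v => by
    simp only [f]
    split_ifs
    · unfold latTerm
      refine (UpperHalfPlane.continuous_im.measurable.div ?_).pow_const s
      exact (Complex.continuous_normSq.comp
        ((continuous_const.mul UpperHalfPlane.continuous_coe).add continuous_const)).measurable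
    · exact measurable_const
  have e : (fun τ : ℍ => latSum N r τ s) = fun τ => (∑' v, ENNReal.ofReal (f τ v)).toReal := by
    funext τ
    rw [← ENNReal.ofReal_tsum_of_nonneg (hf0 τ) (hsum τ), ENNReal.toReal_ofReal (tsum_nonneg (hf0 τ))]
    rfl
  rw [e]
  exact (Measurable.tsum fun v => ENNReal.measurable_ofReal.comp (hm v)).ennreal_toReal

theorem four_fifths_le_im {τ : ℍ} (h : τ ∈ 𝒟) : 4 / 5 ≤ τ.im := by
  have h1 := ModularGroup.three_le_four_mul_im_sq_of_mem_fd h
  nlinarith [τ.im_pos]

/-- The dominating function on the fundamental domain. -/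
def fdBound (τ : ℍ) : ℝ := τ.im ^ (3 / 2 : ℝ) / (1 + τ.im)

theorem fdBound_nonneg (τ : ℍ) : 0 ≤ fdBound τ := by
  have := τ.im_pos
  unfold fdBound
  positivity

theorem one_div_le_fdBound {τ : ℍ} (h : 4 / 5 ≤ τ.im) : 1 / (1 + τ.im) ≤ 2 * fdBound τ := by
  have hy := τ.im_pos
  have h1 := (im_rpow_bounds h le_rfl (show (1 : ℝ) ≤ 3 / 2 by norm_num)).1
  rw [fdBound, ← mul_div_assoc]
  exact div_le_div_of_nonneg_right (by linarith) (by linarith)

theorem integrableOn_fdBound : IntegrableOn fdBound 𝒟 := by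
  have hc : Continuous fdBound := by
    unfold fdBound
    refine (UpperHalfPlane.continuous_im.rpow_const fun τ => Or.inr (by norm_num)).div
      (continuous_const.add UpperHalfPlane.continuous_im) fun τ => ?_
    linarith [τ.im_pos]
  have hs : IntegrableOn fdBound strip :=
    integrableOn_strip_of_le hc (D := 1) (by norm_num) (show (3 / 2 : ℝ) < 2 by norm_num) fun τ => by
      rw [Real.norm_of_nonneg (fdBound_nonneg τ), one_mul]
      exact le_rfl
  have hT : IntegrableOn fdBound ((fun z : ℍ => ModularGroup.T • z) ⁻¹' strip) := by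
    have := ((measurePreserving_slz_smul ModularGroup.T).integrableOn_comp_preimage
      (measurableEmbedding_slz_smul ModularGroup.T)).2 hs
    refine this.congr_fun (fun z _ => ?_)
      ((measurableEmbedding_slz_smul ModularGroup.T).measurable measurableSet_strip)
    simp only [Function.comp_apply, fdBound, ModularGroup.im_T_smul]
  refine (hs.union hT).mono_set fun τ hτ => ?_
  have h := abs_le.1 hτ.2
  rcases le_or_gt 0 τ.re with hr | hr
  · exact Or.inl ⟨hr, by linarith⟩
  · refine Or.inr ?_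
    show (ModularGroup.T • τ).re ∈ Set.Ico (0 : ℝ) 1
    rw [ModularGroup.re_T_smul, Set.mem_Ico]
    constructor <;> linarith

variable {N : ℕ} [NeZero N] (B : PeriodData N)

/-- If the period vanishes, the strip integral stays bounded. -/
theorem exists_norm_stripIntegral_le (hP : ∫ τ in 𝒟, ∑ h, uhpForm B τ h = 0) :
    ∃ C : ℝ, ∀ᶠ s in 𝓝[>] (1 : ℝ), ‖∫ τ in strip, stripFun B s τ‖ ≤ C := by
  obtain ⟨D, hD0, hD⟩ := exists_norm_uhpForm_le B
  obtain ⟨C₀, hC⟩ := exists_abs_latSum_sub_le
  set G := Fintype.card (GL (Fin 2) (ZMod N))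
  set U := Fintype.card (ZMod N)ˣ
  set C := |C₀|
  have hφ : ∀ τ, ∀ h, ‖uhpForm B τ h‖ ≤ D / (1 + τ.im) := fun τ h => by
    rw [le_div_iff₀ (by linarith [τ.im_pos])]
    exact hD τ h
  have hsumb : ∀ τ : ℍ, 4 / 5 ≤ τ.im → ‖∑ h, uhpForm B τ h‖ ≤ G * D * 2 * fdBound τ := by
    intro τ hτ
    refine (norm_sum_le _ _).trans ((Finset.sum_le_sum fun h _ => hφ τ h).trans ?_)
    rw [Finset.sum_const, Finset.card_univ, nsmul_eq_mul]
    have := mul_le_mul_of_nonneg_left (one_div_le_fdBound hτ) (show (0 : ℝ) ≤ G * D by positivity)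
    calc (G : ℝ) * (D / (1 + τ.im)) = G * D * (1 / (1 + τ.im)) := by ring
      _ ≤ _ := this.trans_eq (by ring)
  have hae : ∀ᵐ τ ∂volume.restrict (𝒟 : Set ℍ), 4 / 5 ≤ τ.im :=
    (ae_restrict_mem measurableSet_fd').mono fun τ h => four_fifths_le_im h
  have hPint : Integrable (fun τ => ∑ h, uhpForm B τ h) (volume.restrict (𝒟 : Set ℍ)) :=
    (integrableOn_fdBound.const_mul (G * D * 2 : ℝ)).mono'
      (continuous_finsetSum _ fun h _ => continuous_uhpForm B h).aestronglyMeasurable
      (hae.mono hsumb)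
  refine ⟨G * D * U * C * ∫ τ in 𝒟, fdBound τ, ?_⟩
  filter_upwards [hC, Ioc_mem_nhdsGT (show (1 : ℝ) < 3 / 2 by norm_num)] with s hCs hs
  obtain ⟨hs1, hs2⟩ := hs
  set K := latMain N s
  set L : GL (Fin 2) (ZMod N) → ℍ → ℝ := fun h τ =>
    ∑ e : (ZMod N)ˣ, latSum N (fun i => (e : ZMod N) * rowVec h i) τ s
  set R : ℍ → ℂ := fun τ => ∑ h, uhpForm B τ h * ((L h τ - U * K : ℝ) : ℂ)
  have hR : ∀ τ : ℍ, 4 / 5 ≤ τ.im → ‖R τ‖ ≤ G * D * U * C * fdBound τ := by
    intro τ hτ
    refine (norm_sum_le _ _).trans ((Finset.sum_le_sum fun h _ => ?_).trans_eq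
      (b := ∑ _h : GL (Fin 2) (ZMod N), D / (1 + τ.im) * (U * (C * τ.im ^ (3 / 2 : ℝ))))
      (by rw [Finset.sum_const, Finset.card_univ, nsmul_eq_mul, fdBound]; ring))
    rw [norm_mul, Complex.norm_real, Real.norm_eq_abs]
    refine mul_le_mul (hφ τ h) ?_ (abs_nonneg _) (div_nonneg hD0 (by linarith [τ.im_pos]))
    calc |L h τ - U * K| = |∑ e : (ZMod N)ˣ,
          (latSum N (fun i => (e : ZMod N) * rowVec h i) τ s - K)| := by
            rw [Finset.sum_sub_distrib, Finset.sum_const, Finset.card_univ, nsmul_eq_mul]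
      _ ≤ ∑ e : (ZMod N)ˣ, |latSum N (fun i => (e : ZMod N) * rowVec h i) τ s - K| :=
            Finset.abs_sum_le_sum_abs _ _
      _ ≤ ∑ _e : (ZMod N)ˣ, C * τ.im ^ (3 / 2 : ℝ) := Finset.sum_le_sum fun e _ =>
            (hCs N _ τ hτ).trans (mul_le_mul_of_nonneg_right (le_abs_self C₀)
              (Real.rpow_nonneg τ.im_pos.le _))
      _ = _ := by rw [Finset.sum_const, Finset.card_univ, nsmul_eq_mul]
  have hRint : Integrable R (volume.restrict (𝒟 : Set ℍ)) := by
    refine (integrableOn_fdBound.const_mul (G * D * U * C : ℝ)).mono' ?_ (hae.mono hR)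
    refine Measurable.aestronglyMeasurable (Finset.measurable_sum _ fun h _ => ?_)
    refine (continuous_uhpForm B h).measurable.mul (Complex.continuous_ofReal.measurable.comp ?_)
    exact (Finset.measurable_sum _ fun e _ => measurable_latSum N _ hs1).sub_const _
  have hF : Integrable (strip.indicator (stripFun B s)) :=
    (integrable_indicator_iff measurableSet_strip).2 (integrableOn_stripFun B hs1 (by linarith))
  have key : (coprimeSum N s : ℂ) * (2 * ∫ τ in strip, stripFun B s τ) = ∫ τ in 𝒟, R τ := by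
    rw [← integral_indicator measurableSet_strip, two_integral_eq hF, ← integral_const_mul,
      setIntegral_congr_fun measurableSet_fd' (g := fun τ => ((U * K : ℝ) : ℂ) * (∑ h, uhpForm B τ h) + R τ)
        fun τ _ => ?_, integral_add (hPint.const_mul _) hRint, integral_const_mul,
      hP, mul_zero, zero_add]
    rw [tsum_slz_stripFun B hs1 τ]
    simp only [R]
    rw [Finset.mul_sum, ← Finset.sum_add_distrib]
    refine Finset.sum_congr rfl fun h _ => ?_
    simp only [L]
    push_cast
    ring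
  have hle : ‖∫ τ in 𝒟, R τ‖ ≤ G * D * U * C * ∫ τ in 𝒟, fdBound τ := by
    rw [← integral_const_mul]
    exact norm_integral_le_of_norm_le (integrableOn_fdBound.const_mul _) (hae.mono hR)
  rw [← key, norm_mul, norm_mul, Complex.norm_real, Complex.norm_ofNat,
    Real.norm_of_nonneg (zero_le_one.trans (one_le_coprimeSum N hs1))] at hle
  have hn := norm_nonneg (∫ τ in strip, stripFun B s τ)
  have h1 := one_le_coprimeSum N hs1
  nlinarith

/-- The period does not vanish if the coefficient series converges for `1 < s` and is unbounded as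
`s → 1⁺`. -/
theorem integral_uhpForm_ne_zero (hsum : ∀ s : ℝ, 1 < s → Summable fun n => ‖dterm B.c s n‖)
    (hdir : Tendsto (fun s => |∑' n, dterm B.c s n|) (𝓝[>] 1) atTop) :
    ∫ τ in 𝒟, ∑ h, uhpForm B τ h ≠ 0 := by
  intro hP
  obtain ⟨C, hC⟩ := exists_norm_stripIntegral_le B hP
  have hN : (1 : ℝ) ≤ N := by exact_mod_cast Nat.one_le_iff_ne_zero.2 (NeZero.ne N)
  have hU : (1 : ℝ) ≤ Fintype.card (ZMod N)ˣ := by exact_mod_cast Fintype.card_pos
  have hκ := kap_pos (NeZero.ne N)
  have hK := H3.besselK0_pos two_pos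
  set b := (H3.besselK0 2) / (1 + kap N) ^ 2
  have hb : 0 < b := by positivity
  have hbig := hdir.eventually_gt_atTop (C / b)
  obtain ⟨s, hsC, hsD, hs1, hs2⟩ := (hC.and (hbig.and
    (Ioc_mem_nhdsGT (show (1 : ℝ) < 3 / 2 by norm_num)))).exists
  rw [stripIntegral_eq B hs1 (by linarith) (hsum s hs1), Complex.norm_real, Real.norm_eq_abs,
    abs_mul] at hsC
  have hk : b ≤ |2 * (N : ℝ) * (Fintype.card (ZMod N)ˣ : ℝ) ^ 2 * kap N ^ (-s) * kMom s| := by
    refine le_trans ?_ (le_abs_self _)
    have h1 : ((1 + kap N) ^ 2)⁻¹ ≤ kap N ^ (-s) := by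
      rw [Real.rpow_neg hκ.le]
      refine inv_anti₀ (by positivity) ?_
      calc kap N ^ s ≤ (1 + kap N) ^ s :=
            Real.rpow_le_rpow hκ.le (by linarith) (by linarith)
        _ ≤ (1 + kap N) ^ (2 : ℝ) :=
            Real.rpow_le_rpow_of_exponent_le (by linarith) (by linarith)
        _ = _ := Real.rpow_two _
    have h2 : 1 ≤ 2 * (N : ℝ) * (Fintype.card (ZMod N)ˣ : ℝ) ^ 2 := by
      nlinarith [one_le_pow₀ (n := 2) hU]
    calc b = 1 * ((1 + kap N) ^ 2)⁻¹ * H3.besselK0 2 := by simp only [b]; ring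
      _ ≤ _ := mul_le_mul (mul_le_mul h2 h1 (by positivity) (by linarith)) (kMom_ge hs1) hK.le
            (by positivity)
  rw [div_lt_iff₀ hb] at hsD
  nlinarith [abs_nonneg (∑' n, dterm B.c s n)]

end FermatAgent.LT.Period

namespace FermatAgent.LT.BianchiForm

theorem period_ne_zero {S : Setup} [NeZero S.m] (B : BianchiForm S) : B.period ≠ 0 :=
  haveI : NeZero (3 * S.m) := ⟨mul_ne_zero three_ne_zero (NeZero.ne S.m)⟩
  Period.integral_uhpForm_ne_zero B.periodData (fun _ hs => Period.summable_norm_dterm B hs)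
    (Period.tendsto_abs_dirichlet B)

end FermatAgent.LT.BianchiForm
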