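import Fermat.Agent.LT.Base.Bessel

set_option autoImplicit false

/-!
# Moments of `K₀`, periods of exponentials and integrability on the positive axis
-/

noncomputable section

open MeasureTheory Filter Topology
open scoped Real

namespace FermatAgent.LT.Period

open FermatAgent.LT.H3 (besselK0)

theorem one_add_half_sq_le_cosh (u : ℝ) : 1 + u ^ 2 / 2 ≤ Real.cosh u := by
  rw [← Real.cosh_abs, ← sq_abs]
  set v := |u|
  have hv : 0 ≤ v := abs_nonneg u
  have h2 : v / 2 ≤ Real.sinh (v / 2) := Real.self_le_sinh_iff.2 (by linarith)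
  rw [show Real.cosh v = Real.cosh (2 * (v / 2)) by ring_nf, Real.cosh_two_mul, Real.cosh_sq]
  nlinarith

theorem besselK0_le_gauss {y : ℝ} (hy : 0 < y) :
    besselK0 y ≤ Real.exp (-y) * Real.sqrt (π / (2 * y)) := by
  have h2 : 0 < y / 2 := by linarith
  have e : Real.exp (-y) * Real.sqrt (π / (2 * y)) =
      ∫ u in Set.Ioi (0 : ℝ), Real.exp (-y) * Real.exp (-(y / 2) * u ^ 2) := by
    rw [integral_const_mul, integral_gaussian_Ioi]
    congr 1
    rw [show π / (y / 2) = (π / (2 * y)) * 2 ^ 2 by field_simp,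
      Real.sqrt_mul' _ (by norm_num : (0 : ℝ) ≤ 2 ^ 2), Real.sqrt_sq zero_le_two]
    ring
  rw [e, besselK0]
  refine setIntegral_mono_on (by simpa using H3.integrable_mom 0 hy)
    ((integrable_exp_neg_mul_sq h2).integrableOn.const_mul _) measurableSet_Ioi fun u _ => ?_
  rw [← Real.exp_add, Real.exp_le_exp]
  nlinarith [one_add_half_sq_le_cosh u]

theorem integrableOn_rpow_besselK0 {s : ℝ} (hs : 1 < s) :
    IntegrableOn (fun y => y ^ (s - 1) * besselK0 y) (Set.Ioi 0) := by
  refine ((Real.GammaIntegral_convergent (show 0 < s - 1 / 2 by linarith)).const_mul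
    (Real.sqrt (π / 2))).mono' ?_ ?_
  · refine ContinuousOn.aestronglyMeasurable ?_ measurableSet_Ioi
    exact (ContinuousOn.rpow_const continuousOn_id fun y hy => Or.inl (ne_of_gt hy)).mul
      H3.continuousOn_besselK0
  · filter_upwards [ae_restrict_mem measurableSet_Ioi] with y hy
    have hy0 : (0 : ℝ) < y := hy
    rw [Real.norm_of_nonneg (mul_nonneg (Real.rpow_nonneg hy0.le _) (H3.besselK0_pos hy0).le)]
    refine (mul_le_mul_of_nonneg_left (besselK0_le_gauss hy0) (Real.rpow_nonneg hy0.le _)).trans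
      (le_of_eq ?_)
    rw [show π / (2 * y) = (π / 2) * y⁻¹ by field_simp, Real.sqrt_mul (by positivity),
      Real.sqrt_inv, Real.sqrt_eq_rpow y, ← Real.rpow_neg hy0.le,
      show s - 1 / 2 - 1 = (s - 1) + -(1 / 2) by ring, Real.rpow_add hy0]
    ring

/-- The moment `∫ y^(s-1) K₀ y`. -/
def kMom (s : ℝ) : ℝ := ∫ y in Set.Ioi (0 : ℝ), y ^ (s - 1) * besselK0 y

theorem kMom_ge {s : ℝ} (hs : 1 < s) : besselK0 2 ≤ kMom s := by
  have h := integrableOn_rpow_besselK0 hs
  calc besselK0 2 = ∫ _ in Set.Ioc (1 : ℝ) 2, besselK0 2 := by norm_num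
    _ ≤ ∫ y in Set.Ioc (1 : ℝ) 2, y ^ (s - 1) * besselK0 y := by
        refine setIntegral_mono_on (integrableOn_const (by simp))
          (h.mono_set fun y hy => lt_trans (zero_lt_one' ℝ) hy.1) measurableSet_Ioc fun y hy => ?_
        have hy0 : (0 : ℝ) < y := by linarith [hy.1]
        calc besselK0 2 ≤ besselK0 y := H3.besselK0_anti hy0 hy.2
          _ ≤ _ := le_mul_of_one_le_left (H3.besselK0_pos hy0).le
              (Real.one_le_rpow hy.1.le (by linarith))
    _ ≤ kMom s := by
        refine setIntegral_mono_set h ?_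
          (Eventually.of_forall fun y (hy : y ∈ Set.Ioc (1 : ℝ) 2) => lt_trans zero_lt_one hy.1)
        filter_upwards [ae_restrict_mem measurableSet_Ioi] with y hy
        exact mul_nonneg (Real.rpow_nonneg (le_of_lt hy) _) (H3.besselK0_pos hy).le

theorem moment_scaled {s : ℝ} (hs : 1 < s) {a : ℝ} (ha : 0 < a) :
    IntegrableOn (fun y => y ^ (s - 1) * besselK0 (a * y)) (Set.Ioi 0) ∧
      ∫ y in Set.Ioi (0 : ℝ), y ^ (s - 1) * besselK0 (a * y) = a ^ (-s) * kMom s := by
  set g : ℝ → ℝ := fun y => y ^ (s - 1) * besselK0 y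
  have he : ∀ y ∈ Set.Ioi (0 : ℝ), y ^ (s - 1) * besselK0 (a * y) = a ^ (1 - s) * g (a * y) := by
    intro y hy
    have hy0 : (0 : ℝ) < y := hy
    simp only [g]
    rw [Real.mul_rpow ha.le hy0.le, show (1 : ℝ) - s = -(s - 1) by ring, Real.rpow_neg ha.le]
    field_simp
  constructor
  · refine (IntegrableOn.congr_fun ?_ (fun y hy => (he y hy).symm) measurableSet_Ioi)
    refine Integrable.const_mul ?_ _
    have := (integrableOn_Ioi_comp_mul_left_iff g 0 ha).2
      (by rw [mul_zero]; exact integrableOn_rpow_besselK0 hs)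
    exact this
  · rw [setIntegral_congr_fun measurableSet_Ioi he, integral_const_mul,
      integral_comp_mul_left_Ioi g 0 ha, mul_zero, smul_eq_mul, kMom,
      show -s = (1 - s) + -1 by ring, Real.rpow_add ha, Real.rpow_neg_one]
    ring

/-- `y^(s-2) / (1 + y)` is integrable on the positive axis. -/
theorem integrableOn_stripBound {s : ℝ} (hs : 1 < s) (hs' : s < 2) :
    IntegrableOn (fun y : ℝ => (y ^ 2)⁻¹ * (y ^ s / (1 + y))) (Set.Ioi 0) := by
  have hc : ContinuousOn (fun y : ℝ => (y ^ 2)⁻¹ * (y ^ s / (1 + y))) (Set.Ioi 0) := by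
    refine ((continuousOn_pow 2).inv₀ fun y hy => pow_ne_zero _ (ne_of_gt hy)).mul
      ((ContinuousOn.rpow_const continuousOn_id fun y hy => Or.inl (ne_of_gt hy)).div
        (continuousOn_const.add continuousOn_id) fun y hy => ?_)
    have : (0 : ℝ) < y := hy
    linarith
  have e : ∀ y : ℝ, 0 < y → ‖(y ^ 2)⁻¹ * (y ^ s / (1 + y))‖ = y ^ (s - 2) / (1 + y) := by
    intro y hy
    rw [Real.norm_of_nonneg (by positivity), show s - 2 = s + -((2 : ℕ) : ℝ) by push_cast; ring,
      Real.rpow_add hy, Real.rpow_neg hy.le, Real.rpow_natCast]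
    ring
  rw [← Set.Ioc_union_Ioi_eq_Ioi (zero_le_one' ℝ), integrableOn_union]
  constructor
  · refine Integrable.mono'
      ((intervalIntegrable_iff_integrableOn_Ioc_of_le zero_le_one).1
        (intervalIntegral.intervalIntegrable_rpow' (show -1 < s - 2 by linarith)))
      ((hc.mono Set.Ioc_subset_Ioi_self).aestronglyMeasurable measurableSet_Ioc) ?_
    filter_upwards [ae_restrict_mem measurableSet_Ioc] with y hy
    rw [e y hy.1]
    exact div_le_self (Real.rpow_nonneg hy.1.le _) (by linarith [hy.1])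
  · refine Integrable.mono' (integrableOn_Ioi_rpow_of_lt (show s - 3 < -1 by linarith) one_pos)
      ((hc.mono (Set.Ioi_subset_Ioi zero_le_one)).aestronglyMeasurable measurableSet_Ioi) ?_
    filter_upwards [ae_restrict_mem measurableSet_Ioi] with y hy
    have hy0 : (0 : ℝ) < y := lt_trans zero_lt_one hy
    rw [e y hy0, show s - 3 = (s - 2) + -1 by ring, Real.rpow_add hy0, Real.rpow_neg_one,
      div_eq_mul_inv]
    exact mul_le_mul_of_nonneg_left (inv_anti₀ hy0 (by linarith)) (Real.rpow_nonneg hy0.le _)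

/-- The translates by `range N` of the unit interval make a full period. -/
theorem sum_integral_exp_shift {N : ℕ} (hN : N ≠ 0) (k : ℤ) :
    ∑ b ∈ Finset.range N, ∫ x : ℝ in Set.Ioc (0 : ℝ) 1,
      Complex.exp (2 * π * Complex.I * (k : ℂ) / N * ((x : ℂ) - b)) =
        if k = 0 then (N : ℂ) else 0 := by
  rcases eq_or_ne k 0 with rfl | hk
  · simp
  rw [if_neg hk]
  set c : ℂ := 2 * π * Complex.I * (k : ℂ) / N with hc
  have hN' : (N : ℂ) ≠ 0 := Nat.cast_ne_zero.2 hN
  have hc0 : c ≠ 0 :=
    div_ne_zero (mul_ne_zero Complex.two_pi_I_ne_zero (Int.cast_ne_zero.2 hk)) hN'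
  have hint : ∀ b : ℕ, ∫ x : ℝ in Set.Ioc (0 : ℝ) 1, Complex.exp (c * ((x : ℂ) - b)) =
      Complex.exp (-c * b) * ((Complex.exp c - 1) / c) := by
    intro b
    have : ∀ x : ℝ, Complex.exp (c * ((x : ℂ) - b)) =
        Complex.exp (-c * b) * Complex.exp (c * x) := fun x => by
      rw [← Complex.exp_add]; congr 1; ring
    simp only [this]
    rw [integral_const_mul, ← intervalIntegral.integral_of_le zero_le_one,
      integral_exp_mul_complex hc0]
    simp
  simp only [hint, ← Finset.sum_mul]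
  set q := Complex.exp (-c) with hqdef
  have hq : ∀ b : ℕ, Complex.exp (-c * b) = q ^ b := fun b => by
    rw [hqdef, ← Complex.exp_nat_mul]; congr 1; ring
  simp only [hq]
  have hqN : q ^ N = 1 := by
    rw [hqdef, ← Complex.exp_nat_mul,
      show (N : ℂ) * -c = ((-k : ℤ) : ℂ) * (2 * π * Complex.I) by
        rw [hc]; push_cast; field_simp]
    exact Complex.exp_int_mul_two_pi_mul_I (-k)
  have he : Complex.exp c - 1 = Complex.exp c * (1 - q) := by
    rw [mul_sub, mul_one, hqdef, ← Complex.exp_add, add_neg_cancel, Complex.exp_zero]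
  have hg := geom_sum_mul_neg q N
  rw [hqN, sub_self] at hg
  rw [he]
  linear_combination (Complex.exp c / c) * hg

end FermatAgent.LT.Period
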