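import Fermat.Agent.LT.Period.Parseval
import Fermat.Agent.LT.Period.Frobenius
import Mathlib.NumberTheory.EulerProduct.Basic

set_option autoImplicit false

/-!
# The coefficient series over the rational integers is unbounded at `s = 1`
-/

noncomputable section

open Filter Topology Asymptotics
open scoped Classical
open Complex (normSq)
open FermatAgent.GalRep (primeSum)

namespace FermatAgent.LT.Period

/-- The recursion of Hecke eigenvalues at prime powers. -/
def heckeSeq (x : ℝ) : ℕ → ℝ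
  | 0 => 1
  | 1 => x
  | k + 2 => x * heckeSeq x (k + 1) - heckeSeq x k

theorem abs_heckeSeq_le {x : ℝ} (hx : |x| ≤ 2) : ∀ k, |heckeSeq x k| ≤ 3 ^ k
  | 0 => by simp [heckeSeq]
  | 1 => by simp only [heckeSeq, pow_one]; linarith
  | k + 2 => by
    have h1 := abs_heckeSeq_le hx (k + 1)
    have h2 := abs_heckeSeq_le hx k
    have h3 : |x * heckeSeq x (k + 1)| ≤ 2 * 3 ^ (k + 1) := by
      rw [abs_mul]; exact mul_le_mul hx h1 (abs_nonneg _) zero_le_two
    have h4 : (0 : ℝ) < 3 ^ k := by positivity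
    have h5 := abs_sub (x * heckeSeq x (k + 1)) (heckeSeq x k)
    rw [heckeSeq, pow_succ _ (k + 1), pow_succ]
    rw [pow_succ] at h3
    linarith

theorem tsum_split_mul {x y t : ℝ}
    (h : Summable fun k => heckeSeq x k * heckeSeq y k * t ^ k) :
    (∑' k, heckeSeq x k * heckeSeq y k * t ^ k) *
      (1 - x * y * t + (x ^ 2 + y ^ 2 - 2) * t ^ 2 - x * y * t ^ 3 + t ^ 4) = 1 - t ^ 2 := by
  set g := fun k => heckeSeq x k * heckeSeq y k * t ^ k with hg
  have hs : ∀ j, Summable fun k => g (k + j) := fun j => (summable_nat_add_iff j).2 h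
  have hT : ∀ j, ∑ i ∈ Finset.range j, g i + ∑' k, g (k + j) = ∑' k, g k := fun j =>
    h.sum_add_tsum_nat_add j
  have hrec : ∀ k, g (k + 4) - x * y * t * g (k + 3) + (x ^ 2 + y ^ 2 - 2) * t ^ 2 * g (k + 2) -
      x * y * t ^ 3 * g (k + 1) + t ^ 4 * g k = 0 := fun k => by
    simp only [hg, heckeSeq, pow_add, pow_one]
    ring
  have h0 : ∑' k, (g (k + 4) - x * y * t * g (k + 3) + (x ^ 2 + y ^ 2 - 2) * t ^ 2 * g (k + 2) -
      x * y * t ^ 3 * g (k + 1) + t ^ 4 * g k) = 0 := by simp [hrec]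
  have h4 := hs 4
  have h3 := (hs 3).mul_left (x * y * t)
  have h2 := (hs 2).mul_left ((x ^ 2 + y ^ 2 - 2) * t ^ 2)
  have h1 := (hs 1).mul_left (x * y * t ^ 3)
  have h00 := h.mul_left (t ^ 4)
  rw [(((h4.sub h3).add h2).sub h1).tsum_add h00, ((h4.sub h3).add h2).tsum_sub h1,
    (h4.sub h3).tsum_add h2, h4.tsum_sub h3, tsum_mul_left, tsum_mul_left, tsum_mul_left,
    tsum_mul_left] at h0
  have e4 := hT 4
  have e3 := hT 3
  have e2 := hT 2
  have e1 := hT 1
  simp only [Finset.sum_range_succ, Finset.sum_range_zero, zero_add] at e4 e3 e2 e1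
  simp only [hg, heckeSeq, pow_zero, pow_one] at e4 e3 e2 e1 h0 ⊢
  linear_combination h0 - e4 + x * y * t * e3 - (x ^ 2 + y ^ 2 - 2) * t ^ 2 * e2 +
    x * y * t ^ 3 * e1

theorem tsum_inert_mul {x t : ℝ} (h : Summable fun k => heckeSeq x k * t ^ k) :
    (∑' k, heckeSeq x k * t ^ k) * (1 - x * t + t ^ 2) = 1 := by
  set g := fun k => heckeSeq x k * t ^ k with hg
  have hs : ∀ j, Summable fun k => g (k + j) := fun j => (summable_nat_add_iff j).2 h
  have hrec : ∀ k, g (k + 2) - x * t * g (k + 1) + t ^ 2 * g k = 0 := fun k => by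
    simp only [hg, heckeSeq, pow_add, pow_one]
    ring
  have h0 : ∑' k, (g (k + 2) - x * t * g (k + 1) + t ^ 2 * g k) = 0 := by simp [hrec]
  have h1 := (hs 1).mul_left (x * t)
  rw [((hs 2).sub h1).tsum_add (h.mul_left (t ^ 2)), (hs 2).tsum_sub h1, tsum_mul_left,
    tsum_mul_left] at h0
  have e2 := h.sum_add_tsum_nat_add 2
  have e1 := h.sum_add_tsum_nat_add 1
  simp only [Finset.sum_range_succ, Finset.sum_range_zero, zero_add] at e2 e1
  simp only [hg, heckeSeq, pow_zero, pow_one] at e2 e1 h0 ⊢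
  linear_combination h0 - e2 + x * t * e1

theorem split_lower {x y t E : ℝ} (hx : |x| ≤ 2) (hy : |y| ≤ 2) (ht0 : 0 < t) (ht : t ≤ 1 / 20)
    (hE : E * (1 - x * y * t + (x ^ 2 + y ^ 2 - 2) * t ^ 2 - x * y * t ^ 3 + t ^ 4) = 1 - t ^ 2) :
    Real.exp (x * y * t - 10 * t ^ 2) ≤ E := by
  set Δ := 1 - x * y * t + (x ^ 2 + y ^ 2 - 2) * t ^ 2 - x * y * t ^ 3 + t ^ 4 with hΔ
  have hxy : |x * y| ≤ 4 := by
    rw [abs_mul]; nlinarith [abs_nonneg x, abs_nonneg y]
  rw [abs_le] at hxy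
  have hx2 : x ^ 2 ≤ 4 := by nlinarith [sq_abs x, abs_nonneg x]
  have hy2 : y ^ 2 ≤ 4 := by nlinarith [sq_abs y, abs_nonneg y]
  have ht2 : t ^ 2 ≤ t * (1 / 20) := by nlinarith
  have ht3 : t ^ 3 ≤ t ^ 2 * (1 / 20) := by nlinarith [sq_nonneg t]
  have ht4 : t ^ 4 ≤ t ^ 2 := by nlinarith [sq_nonneg t, pow_pos ht0 2]
  have h3pos : 0 < t ^ 3 := by positivity
  have hup : Δ ≤ 1 - x * y * t + 8 * t ^ 2 := by
    rw [hΔ]; nlinarith [sq_nonneg t]
  have hpos : 0 < Δ := by
    rw [hΔ]; nlinarith [sq_nonneg t, sq_nonneg x, sq_nonneg y, pow_pos ht0 4]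
  have hE' : E = (1 - t ^ 2) / Δ := by rw [eq_div_iff hpos.ne']; exact hE
  have hexp : Δ ≤ Real.exp (-(x * y * t) + 8 * t ^ 2) :=
    hup.trans (by linarith [Real.add_one_le_exp (-(x * y * t) + 8 * t ^ 2)])
  have hlow : Real.exp (-(2 * t ^ 2)) ≤ 1 - t ^ 2 := by
    rw [Real.exp_neg, inv_le_iff_one_le_mul₀ (Real.exp_pos _)]
    nlinarith [Real.add_one_le_exp (2 * t ^ 2), sq_nonneg t]
  rw [hE', le_div_iff₀ hpos]
  calc Real.exp (x * y * t - 10 * t ^ 2) * Δ
      ≤ Real.exp (x * y * t - 10 * t ^ 2) * Real.exp (-(x * y * t) + 8 * t ^ 2) :=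
        mul_le_mul_of_nonneg_left hexp (Real.exp_pos _).le
    _ = Real.exp (-(2 * t ^ 2)) := by rw [← Real.exp_add]; congr 1; ring
    _ ≤ _ := hlow

theorem inert_lower {x t E : ℝ} (hx : |x| ≤ 2) (ht0 : 0 < t) (ht : t ≤ 1 / 20)
    (hE : E * (1 - x * t + t ^ 2) = 1) : Real.exp (x * t - 10 * t ^ 2) ≤ E := by
  have hx' := abs_le.1 hx
  have hpos : 0 < 1 - x * t + t ^ 2 := by nlinarith
  have hexp : 1 - x * t + t ^ 2 ≤ Real.exp (-(x * t) + 10 * t ^ 2) := by
    nlinarith [Real.add_one_le_exp (-(x * t) + 10 * t ^ 2), sq_nonneg t]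
  rw [show x * t - 10 * t ^ 2 = -(-(x * t) + 10 * t ^ 2) by ring, Real.exp_neg,
    inv_le_iff_one_le_mul₀ (Real.exp_pos _), ← hE]
  exact mul_le_mul_of_nonneg_left hexp (by
    rcases le_or_gt 0 E with h | h
    · exact h
    · nlinarith)

variable {S : Setup} (B : BianchiForm S)

theorem c_ofReal (ν : EisInt) : ((B.c ν).re : ℂ) = B.c ν :=
  Complex.conj_eq_iff_re.1 (B.c_real ν)

theorem coef_zero : coef B.c 0 = 0 := by simp [coef, B.c_zero]

theorem coef_one : coef B.c 1 = 1 := by simp [coef, B.c_one]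

theorem coef_mul {m n : ℕ} (h : m.Coprime n) : coef B.c (m * n) = coef B.c m * coef B.c n := by
  rw [coef, Nat.cast_mul, B.c_mul _ _ (isCoprime_natCast h), ← c_ofReal B, ← c_ofReal B (n : EisInt),
    ← Complex.ofReal_mul, Complex.ofReal_re]
  rfl

theorem norm_natCast_eis (n : ℕ) : ‖((n : EisInt) : ℂ)‖ = n := by
  rw [show ((n : EisInt) : ℂ) = ((n : ℕ) : ℂ) from map_natCast EisInt.subtype n,
    Complex.norm_natCast]

theorem exists_abs_coef_le : ∃ C : ℝ, 0 ≤ C ∧ ∀ n : ℕ, |coef B.c n| ≤ C * n := by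
  obtain ⟨C, hC0, hC⟩ := exists_norm_c_le B.periodData (level_ne_zero S)
  refine ⟨C, hC0, fun n => (Complex.abs_re_le_norm _).trans ((hC _).trans_eq ?_)⟩
  rw [norm_natCast_eis]

theorem c_pow {π : EisInt} (hπ : Prime π)
    (hN : IsCoprime π ((3 * S.m : ℕ) : EisInt)) :
    ∀ k, B.c (π ^ k) = ((heckeSeq (B.c π).re k : ℝ) : ℂ)
  | 0 => by simp [heckeSeq, B.c_one]
  | 1 => by simp [heckeSeq, c_ofReal B π]
  | k + 2 => by
    rw [B.c_prime_pow π k hπ hN, c_pow hπ hN (k + 1), c_pow hπ hN k, heckeSeq]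
    push_cast
    rw [c_ofReal B π]

theorem dterm_mul (s : ℝ) {m n : ℕ} (h : m.Coprime n) :
    dterm B.c s (m * n) = dterm B.c s m * dterm B.c s n := by
  rw [dterm, dterm, dterm, coef_mul B h, Nat.cast_mul,
    Real.mul_rpow (Nat.cast_nonneg m) (Nat.cast_nonneg n)]
  ring

theorem dterm_one (s : ℝ) : dterm B.c s 1 = 1 := by simp [dterm, coef_one]

theorem dterm_zero (s : ℝ) : dterm B.c s 0 = 0 := by simp [dterm, coef_zero]

theorem dterm_pow (s : ℝ) (p e : ℕ) :
    dterm B.c s (p ^ e) = coef B.c (p ^ e) * ((p : ℝ) ^ (-s)) ^ e := by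
  rw [dterm, Nat.cast_pow, ← Real.rpow_natCast_mul (Nat.cast_nonneg p), mul_comm (e : ℝ),
    Real.rpow_mul (Nat.cast_nonneg p), Real.rpow_natCast]

/-- The Euler factor. -/
def factor (s : ℝ) (p : Nat.Primes) : ℝ := ∑' e : ℕ, dterm B.c s ((p : ℕ) ^ e)

theorem summable_norm_dterm_pow {s : ℝ} (hs : 1 < s) {p : ℕ} (hp : p.Prime) :
    Summable fun e : ℕ => ‖dterm B.c s (p ^ e)‖ := by
  obtain ⟨C, hC0, hC⟩ := exists_abs_coef_le B
  have hp0 : (0 : ℝ) < p := by exact_mod_cast hp.pos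
  have hr : (p : ℝ) ^ (1 - s) < 1 :=
    Real.rpow_lt_one_of_one_lt_of_neg (by exact_mod_cast hp.one_lt) (by linarith)
  refine Summable.of_nonneg_of_le (fun e => norm_nonneg _) (fun e => ?_)
    ((summable_geometric_of_lt_one (by positivity) hr).mul_left C)
  rw [dterm_pow, norm_mul, Real.norm_eq_abs, Real.norm_eq_abs,
    abs_of_nonneg (show (0 : ℝ) ≤ ((p : ℝ) ^ (-s)) ^ e by positivity),
    show (1 - s : ℝ) = 1 + -s by ring, Real.rpow_add hp0, Real.rpow_one, mul_pow, ← mul_assoc]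
  exact mul_le_mul_of_nonneg_right ((hC _).trans_eq (by push_cast; ring)) (by positivity)

theorem summable_dterm_pow {s : ℝ} (hs : 1 < s) {p : ℕ} (hp : p.Prime) :
    Summable fun e : ℕ => coef B.c (p ^ e) * ((p : ℝ) ^ (-s)) ^ e :=
  (summable_norm_dterm_pow B hs hp).of_norm.congr fun e => dterm_pow B s p e

/-- A prime of norm `p`, for split `p`. -/
def piOf (p : Nat.Primes) : EisInt :=
  if h : (p : ℕ) % 3 = 1 then (exists_normSq_eq p.2 h).choose else 1

theorem normSq_piOf {p : Nat.Primes} (h : (p : ℕ) % 3 = 1) :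
    normSq (piOf p : ℂ) = (p : ℕ) := by
  rw [piOf, dif_pos h]
  exact (exists_normSq_eq p.2 h).choose_spec

/-- The eigenvalue at `π`. -/
def xOf (p : Nat.Primes) : ℝ := (B.c (piOf p)).re

/-- The eigenvalue at the conjugate of `π`. -/
def yOf (p : Nat.Primes) : ℝ := (B.c (eisConj (piOf p))).re

theorem coef_pow_dvd {p : ℕ} (hp : p.Prime) (hdvd : p ∣ 3 * S.m) (e : ℕ) :
    coef B.c (p ^ (e + 1)) = 0 := by
  rw [coef, B.c_support _ (not_isCoprime_prime_pow hp hdvd e), Complex.zero_re]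

theorem isCoprime_level {π : EisInt} {p : ℕ} (hp : p.Prime) (hdvd : ¬ p ∣ 3 * S.m)
    (hπ : π ∣ (p : EisInt)) : IsCoprime π ((3 * S.m : ℕ) : EisInt) :=
  isCoprime_of_dvd_natCast hπ dvd_rfl (hp.coprime_iff_not_dvd.2 hdvd)

theorem coef_pow_split {p : Nat.Primes} (h : (p : ℕ) % 3 = 1) (hdvd : ¬ (p : ℕ) ∣ 3 * S.m)
    (e : ℕ) : coef B.c ((p : ℕ) ^ e) = heckeSeq (xOf B p) e * heckeSeq (yOf B p) e := by
  have hn := normSq_piOf h
  have hn' : normSq (eisConj (piOf p) : ℂ) = (p : ℕ) := by rw [normSq_eisConj, hn]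
  have hp3 : (p : ℕ) ≠ 3 := by omega
  rw [coef, Nat.cast_pow, ← mul_eisConj hn, mul_pow, B.c_mul _ _ ((isCoprime_eisConj p.2 hp3 hn).pow),
    c_pow B (prime_of_normSq p.2 hn) (isCoprime_level p.2 hdvd (dvd_of_normSq hn)),
    c_pow B (prime_of_normSq p.2 hn') (isCoprime_level p.2 hdvd (dvd_of_normSq hn')),
    ← Complex.ofReal_mul, Complex.ofReal_re]
  rfl

theorem coef_pow_inert {p : Nat.Primes} (h : (p : ℕ) % 3 = 2) (hdvd : ¬ (p : ℕ) ∣ 3 * S.m)
    (e : ℕ) : coef B.c ((p : ℕ) ^ e) = heckeSeq (coef B.c p) e := by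
  rw [coef, Nat.cast_pow, c_pow B (prime_of_inert p.2 h) (isCoprime_level p.2 hdvd dvd_rfl),
    Complex.ofReal_re]
  rfl

theorem mod_three_cases {p : Nat.Primes} (hdvd : ¬ (p : ℕ) ∣ 3 * S.m) :
    (p : ℕ) % 3 = 1 ∨ (p : ℕ) % 3 = 2 := by
  have : (p : ℕ) % 3 ≠ 0 := fun h0 => hdvd (by
    rw [← ((Nat.prime_dvd_prime_iff_eq Nat.prime_three p.2).1 (Nat.dvd_of_mod_eq_zero h0))]
    exact dvd_mul_right 3 S.m)
  omega

/-- The primes at which everything is prescribed. -/
def IsGood (p : Nat.Primes) : Prop :=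
  (p : ℕ) ∉ B.exc ∧ ¬ (p : ℕ) ∣ 3 * S.m ∧ 20 ≤ (p : ℕ)

theorem finite_not_isGood : {p : Nat.Primes | ¬ IsGood B p}.Finite := by
  refine ((B.exc.finite_toSet.union ((3 * S.m).divisors.finite_toSet.union
    (Finset.range 20).finite_toSet)).preimage Subtype.val_injective.injOn).subset fun p hp => ?_
  simp only [IsGood, not_and_or, not_not, not_le] at hp
  rcases hp with h | h | h
  · exact Or.inl h
  · exact Or.inr (Or.inl (Finset.mem_coe.2 (Nat.mem_divisors.2 ⟨h, level_ne_zero S⟩)))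
  · exact Or.inr (Or.inr (Finset.mem_coe.2 (Finset.mem_range.2 h)))

theorem abs_c_re_le_two {π : EisInt} {p : Nat.Primes} (hp : IsGood B p) (hπ : Prime π)
    (hdvd : π ∣ ((p : ℕ) : EisInt)) : |(B.c π).re| ≤ 2 :=
  (Complex.abs_re_le_norm _).trans (B.c_le_two π p hπ p.2 hp.1 hp.2.1 hdvd)

theorem abs_xOf_le {p : Nat.Primes} (hp : IsGood B p) (h : (p : ℕ) % 3 = 1) :
    |xOf B p| ≤ 2 :=
  abs_c_re_le_two B hp (prime_of_normSq p.2 (normSq_piOf h)) (dvd_of_normSq (normSq_piOf h))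

theorem abs_yOf_le {p : Nat.Primes} (hp : IsGood B p) (h : (p : ℕ) % 3 = 1) :
    |yOf B p| ≤ 2 :=
  abs_c_re_le_two B hp
    (prime_of_normSq p.2 (by rw [normSq_eisConj]; exact normSq_piOf h))
    (dvd_of_normSq (by rw [normSq_eisConj]; exact normSq_piOf h))

theorem abs_coef_inert_le {p : Nat.Primes} (hp : IsGood B p) (h : (p : ℕ) % 3 = 2) :
    |coef B.c p| ≤ 2 :=
  abs_c_re_le_two B hp (prime_of_inert p.2 h) dvd_rfl

theorem abs_coef_pow_le {p : Nat.Primes} (hp : IsGood B p) (e : ℕ) :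
    |coef B.c ((p : ℕ) ^ e)| ≤ 9 ^ e := by
  rcases mod_three_cases hp.2.1 with h | h
  · rw [coef_pow_split B h hp.2.1, abs_mul, show (9 : ℝ) ^ e = 3 ^ e * 3 ^ e by
      rw [← mul_pow]; norm_num]
    exact mul_le_mul (abs_heckeSeq_le (abs_xOf_le B hp h) e) (abs_heckeSeq_le (abs_yOf_le B hp h) e)
      (abs_nonneg _) (by positivity)
  · rw [coef_pow_inert B h hp.2.1]
    exact (abs_heckeSeq_le (abs_coef_inert_le B hp h) e).trans
      (pow_le_pow_left₀ (by norm_num) (by norm_num) e)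

theorem rpow_neg_le {p : Nat.Primes} {s : ℝ} (hs : 1 ≤ s) {M : ℝ} (hM : 0 < M)
    (hp : M ≤ ((p : ℕ) : ℝ)) : ((p : ℕ) : ℝ) ^ (-s) ≤ 1 / M := by
  have hp0 : (1 : ℝ) ≤ (p : ℕ) := by exact_mod_cast p.2.one_lt.le
  rw [one_div, ← Real.rpow_neg_one]
  exact (Real.rpow_le_rpow_of_exponent_le hp0 (by linarith)).trans
    (Real.rpow_le_rpow_of_nonpos hM hp (by norm_num))

theorem tsum_norm_good_le {p : Nat.Primes} (hp : IsGood B p) {s : ℝ} (hs : 1 < s) :
    ∑' e : ℕ, ‖dterm B.c s ((p : ℕ) ^ e)‖ ≤ 1 + 18 * ((p : ℕ) : ℝ) ^ (-s) := by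
  set t := ((p : ℕ) : ℝ) ^ (-s)
  have ht0 : 0 ≤ t := by positivity
  have ht : t ≤ 1 / 20 := rpow_neg_le hs.le (by norm_num) (by exact_mod_cast hp.2.2)
  have hgeo := summable_geometric_of_lt_one (show (0 : ℝ) ≤ 9 * t by positivity) (by linarith)
  refine ((summable_norm_dterm_pow B hs p.2).tsum_le_tsum (fun e => ?_) hgeo).trans ?_
  · rw [dterm_pow, norm_mul, Real.norm_eq_abs, Real.norm_eq_abs, mul_pow,
      abs_of_nonneg (show (0 : ℝ) ≤ t ^ e by positivity)]
    exact mul_le_mul_of_nonneg_right (abs_coef_pow_le B hp e) (by positivity)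
  · rw [tsum_geometric_of_lt_one (by positivity) (by linarith), inv_le_iff_one_le_mul₀ (by linarith)]
    nlinarith

theorem summable_norm_dterm {s : ℝ} (hs : 1 < s) : Summable fun n => ‖dterm B.c s n‖ := by
  set f : ℕ → ℝ := fun n => ‖dterm B.c s n‖ with hf
  have hf1 : f 1 = 1 := by simp [hf, dterm_one]
  have hmul : ∀ {m n : ℕ}, m.Coprime n → f (m * n) = f m * f n := fun h => by
    simp only [hf, dterm_mul B s h, norm_mul]
  have hsum : ∀ {p : ℕ}, p.Prime → Summable fun e : ℕ => ‖f (p ^ e)‖ := fun hp => by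
    simpa [hf] using summable_norm_dterm_pow B hs hp
  set G : Nat.Primes → ℝ := fun p => (∑' e : ℕ, f ((p : ℕ) ^ e)) - 1
  have hG0 : ∀ p, 0 ≤ G p := fun p => sub_nonneg.2 (by
    have := (summable_norm_dterm_pow B hs p.2).le_tsum 0 fun e _ => norm_nonneg _
    simpa [hf, dterm_one] using this)
  have hG : Summable G := by
    refine Summable.of_norm_bounded_eventually
      ((Nat.Primes.summable_rpow.2 (show -s < -1 by linarith)).mul_left 18) ?_
    filter_upwards [(finite_not_isGood B).compl_mem_cofinite] with p hp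
    simp only [Set.mem_compl_iff, Set.mem_ofPred_eq, not_not] at hp
    rw [Real.norm_eq_abs, abs_of_nonneg (hG0 p)]
    exact sub_le_iff_le_add'.2 (tsum_norm_good_le B hp hs)
  refine summable_of_sum_range_le (c := Real.exp (∑' p, G p)) (fun n => norm_nonneg _) fun M => ?_
  obtain ⟨h1, h2⟩ :=
    EulerProduct.summable_and_hasSum_smoothNumbers_prod_primesBelow_tsum hf1 hmul hsum M
  have hle : ∑ n ∈ Finset.range M, f n ≤ ∏ p ∈ M.primesBelow, ∑' e : ℕ, f (p ^ e) := by
    have h3 : ∑ n ∈ (Finset.range M).subtype (· ∈ M.smoothNumbers), f n ≤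
        ∏ p ∈ M.primesBelow, ∑' e : ℕ, f (p ^ e) :=
      sum_le_hasSum _ (fun n _ => norm_nonneg _) h2
    rw [Finset.sum_subtype_eq_sum_filter (f := f)] at h3
    refine le_trans (le_of_eq (Finset.sum_filter_of_ne fun n hn hne => ?_).symm) h3
    refine Nat.mem_smoothNumbers_of_lt (Nat.pos_of_ne_zero fun h0 => hne ?_) (Finset.mem_range.1 hn)
    simp [h0, hf, dterm_zero]
  refine hle.trans ?_
  rw [← Finset.prod_subtype_of_mem (fun p => ∑' e : ℕ, f (p ^ e))
    (fun p hp => Nat.prime_of_mem_primesBelow hp)]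
  have key : ∀ T : Finset Nat.Primes, ∏ p ∈ T, ∑' e : ℕ, f ((p : ℕ) ^ e) ≤
      Real.exp (∑' p, G p) := fun T => by
    calc ∏ p ∈ T, ∑' e : ℕ, f ((p : ℕ) ^ e) = ∏ p ∈ T, (1 + G p) :=
          Finset.prod_congr rfl fun p _ => (add_sub_cancel _ _).symm
      _ ≤ Real.exp (∑ p ∈ T, G p) := Real.prod_one_add_le_exp_sum T fun p => hG0 p
      _ ≤ _ := Real.exp_le_exp.2 (hG.sum_le_tsum T fun p _ => hG0 p)
  exact key _

theorem hasProd_factor {s : ℝ} (hs : 1 < s) :
    HasProd (factor B s) (∑' n, dterm B.c s n) :=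
  EulerProduct.eulerProduct_hasProd (dterm_one B s) (fun h => dterm_mul B s h)
    (summable_norm_dterm B hs) (dterm_zero B s)

theorem factor_split {s : ℝ} (hs : 1 < s) {p : Nat.Primes} (h : (p : ℕ) % 3 = 1)
    (hdvd : ¬ (p : ℕ) ∣ 3 * S.m) :
    let t := ((p : ℕ) : ℝ) ^ (-s)
    factor B s p * (1 - xOf B p * yOf B p * t + (xOf B p ^ 2 + yOf B p ^ 2 - 2) * t ^ 2 -
      xOf B p * yOf B p * t ^ 3 + t ^ 4) = 1 - t ^ 2 := by
  intro t
  have hsum : Summable fun e => heckeSeq (xOf B p) e * heckeSeq (yOf B p) e * t ^ e :=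
    (summable_dterm_pow B hs p.2).congr fun e => by rw [coef_pow_split B h hdvd]
  rw [factor, ← tsum_split_mul hsum]
  congr 1
  exact tsum_congr fun e => by rw [dterm_pow, coef_pow_split B h hdvd]

theorem factor_inert {s : ℝ} (hs : 1 < s) {p : Nat.Primes} (h : (p : ℕ) % 3 = 2)
    (hdvd : ¬ (p : ℕ) ∣ 3 * S.m) :
    let t := ((p : ℕ) : ℝ) ^ (-s)
    factor B s p * (1 - coef B.c p * t + t ^ 2) = 1 := by
  intro t
  have hsum : Summable fun e => heckeSeq (coef B.c p) e * t ^ e :=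
    (summable_dterm_pow B hs p.2).congr fun e => by rw [coef_pow_inert B h hdvd]
  refine Eq.trans ?_ (tsum_inert_mul hsum)
  rw [factor]
  congr 1
  exact tsum_congr fun e => by rw [dterm_pow, coef_pow_inert B h hdvd]

theorem exists_factor_lower (p : Nat.Primes) :
    ∃ δ : ℝ, ∀ s : ℝ, 1 < s → Real.exp δ ≤ |factor B s p| := by
  by_cases hdvd : (p : ℕ) ∣ 3 * S.m
  · refine ⟨0, fun s hs => le_of_eq ?_⟩
    rw [Real.exp_zero, factor, tsum_eq_single 0]
    · simp [dterm_one]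
    · intro e he
      obtain ⟨k, rfl⟩ := Nat.exists_eq_succ_of_ne_zero he
      rw [dterm_pow, coef_pow_dvd B p.2 hdvd, zero_mul]
  have ht : ∀ s : ℝ, 1 < s → 0 ≤ ((p : ℕ) : ℝ) ^ (-s) ∧ ((p : ℕ) : ℝ) ^ (-s) ≤ 1 / 2 :=
    fun s hs => ⟨by positivity, rpow_neg_le hs.le two_pos (by exact_mod_cast p.2.two_le)⟩
  have key : ∀ M : ℝ, 0 < M → (∀ s : ℝ, 1 < s → ∃ Δ : ℝ, |Δ| ≤ M ∧ 3 / 4 ≤ |factor B s p| * |Δ|) →
      ∃ δ : ℝ, ∀ s : ℝ, 1 < s → Real.exp δ ≤ |factor B s p| := by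
    intro M hM h
    refine ⟨Real.log (3 / 4 / M), fun s hs => ?_⟩
    obtain ⟨Δ, hΔ, h1⟩ := h s hs
    rw [Real.exp_log (by positivity), div_le_iff₀ hM]
    exact h1.trans (mul_le_mul_of_nonneg_left hΔ (abs_nonneg _))
  rcases mod_three_cases hdvd with h | h
  · refine key (1 + |xOf B p * yOf B p| + |xOf B p ^ 2 + yOf B p ^ 2 - 2| +
      |xOf B p * yOf B p| + 1) (by positivity) fun s hs => ?_
    obtain ⟨ht0, ht1⟩ := ht s hs
    have hf := factor_split B hs h hdvd
    simp only at hf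
    set t := ((p : ℕ) : ℝ) ^ (-s)
    refine ⟨1 - xOf B p * yOf B p * t + (xOf B p ^ 2 + yOf B p ^ 2 - 2) * t ^ 2 -
      xOf B p * yOf B p * t ^ 3 + t ^ 4, ?_, ?_⟩
    · have hp : ∀ k : ℕ, |t ^ k| ≤ 1 := fun k => by
        rw [abs_of_nonneg (pow_nonneg ht0 k)]; exact pow_le_one₀ ht0 (by linarith)
      have hb : ∀ c : ℝ, ∀ k : ℕ, |c * t ^ k| ≤ |c| := fun c k => by
        rw [abs_mul]; exact mul_le_of_le_one_right (abs_nonneg _) (hp k)
      have b1 := hb (xOf B p * yOf B p) 1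
      have b2 := hb (xOf B p ^ 2 + yOf B p ^ 2 - 2) 2
      have b3 := hb (xOf B p * yOf B p) 3
      have b4 := hp 4
      rw [pow_one] at b1
      rw [abs_le] at b1 b2 b3 b4 ⊢
      constructor <;> linarith
    · rw [← abs_mul, hf]
      refine le_trans ?_ (le_abs_self _)
      nlinarith
  · refine key (1 + |coef B.c p| + 1) (by positivity) fun s hs => ?_
    obtain ⟨ht0, ht1⟩ := ht s hs
    have hf := factor_inert B hs h hdvd
    simp only at hf
    refine ⟨_, ?_, le_of_le_of_eq (by norm_num) (by rw [← abs_mul, hf, abs_one] : (1 : ℝ) = _)⟩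
    set t := ((p : ℕ) : ℝ) ^ (-s)
    have b1 : |coef B.c p * t| ≤ |coef B.c p| := by
      rw [abs_mul, abs_of_nonneg ht0]; exact mul_le_of_le_one_right (abs_nonneg _) (by linarith)
    have b2 : t ^ 2 ≤ 1 := pow_le_one₀ ht0 (by linarith)
    rw [abs_le] at b1 ⊢
    constructor <;> nlinarith

/-- The squares of the eigenvalues at good split primes. -/
def sqSplit (p : Nat.Primes) : ℝ :=
  if IsGood B p ∧ (p : ℕ) % 3 = 1 then xOf B p ^ 2 + yOf B p ^ 2 else 0

theorem sqSplit_nonneg (p : Nat.Primes) : 0 ≤ sqSplit B p := by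
  unfold sqSplit; split_ifs <;> positivity

theorem abs_sqSplit_le (p : Nat.Primes) : |sqSplit B p| ≤ 8 := by
  rw [abs_of_nonneg (sqSplit_nonneg B p), sqSplit]
  split_ifs with h
  · nlinarith [sq_abs (xOf B p), sq_abs (yOf B p), abs_xOf_le B h.1 h.2, abs_yOf_le B h.1 h.2,
      abs_nonneg (xOf B p), abs_nonneg (yOf B p)]
  · norm_num

theorem det_one_or_neg_one {g : GL (Fin 2) (ZMod 3)} (h : g = 1 ∨ g = -1) :
    (g : Matrix (Fin 2) (Fin 2) (ZMod 3)).det = 1 := by
  rcases h with rfl | rfl <;> decide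

theorem det_of_mod {p : Nat.Primes} (hdvd : ¬ (p : ℕ) ∣ 3 * S.m) :
    (frobImage S.ρ p : Matrix (Fin 2) (Fin 2) (ZMod 3)).det = (((p : ℕ) % 3 : ℕ) : ZMod 3) := by
  rw [det_frobImage S.det_eq (fun h => hdvd (by rw [h]; exact dvd_mul_right 3 S.m)), ZMod.natCast_mod]

theorem q8Trace_sq (g : GL (Fin 2) (ZMod 3)) :
    ((q8Trace g : ℝ)) ^ 2 = 4 * if g = 1 ∨ g = -1 then 1 else 0 := by
  unfold q8Trace
  rcases em (g = 1) with h | h
  · simp [h]; norm_num
  · rcases em (g = -1) with h' | h'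
    · rw [if_neg h, if_pos h', if_pos (Or.inr h')]; norm_num
    · rw [if_neg h, if_neg h', if_neg (not_or.2 ⟨h, h'⟩)]; norm_num

theorem split_key {p : Nat.Primes} (hp : IsGood B p) (h : (p : ℕ) % 3 = 1) :
    8 * indCentral S.ρ p + 2 * indInvol S.ρ p - sqSplit B p / 2 ≤ xOf B p * yOf B p := by
  have hI : indInvol S.ρ p = 0 := by
    unfold indInvol
    refine if_neg fun hi => ?_
    have := hi.1.symm.trans (det_of_mod hp.2.1)
    rw [h] at this
    exact absurd this (by decide)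
  rw [hI, sqSplit, if_pos ⟨hp, h⟩]
  by_cases hq : frobImage S.ρ p ∈ quaternionSubgroup
  · have hs : S.SplitsInF p := (splitsInF_iff S hp.2.1).2 hq
    have hn := normSq_piOf h
    have hn' : normSq (eisConj (piOf p) : ℂ) = (p : ℕ) := by rw [normSq_eisConj, hn]
    have hx : xOf B p = q8Trace (frobImage S.ρ p) := by
      rw [xOf, B.c_split _ p (prime_of_normSq p.2 hn) p.2 hp.1 hp.2.1 (dvd_of_normSq hn) hn hs _
        (frobPlace_liesOver p) _ (frobElt_isFrobeniusAt p)]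
      simp [frobImage]
    have hy : yOf B p = q8Trace (frobImage S.ρ p) := by
      rw [yOf, B.c_split _ p (prime_of_normSq p.2 hn') p.2 hp.1 hp.2.1 (dvd_of_normSq hn') hn' hs _
        (frobPlace_liesOver p) _ (frobElt_isFrobeniusAt p)]
      simp [frobImage]
    rw [hx, hy, ← pow_two, q8Trace_sq, indCentral]
    linarith
  · have hC : indCentral S.ρ p = 0 := by
      unfold indCentral
      refine if_neg fun hc => hq ?_
      rcases hc with hc | hc <;> rw [hc]
      · exact one_mem _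
      · exact ⟨det_one_or_neg_one (Or.inr rfl), Or.inr (Or.inr rfl)⟩
    rw [hC]
    nlinarith [sq_nonneg (xOf B p + yOf B p)]

theorem inert_key {p : Nat.Primes} (hp : IsGood B p) (h : (p : ℕ) % 3 = 2) :
    8 * indCentral S.ρ p + 2 * indInvol S.ρ p - sqSplit B p / 2 ≤ coef B.c p := by
  have hd : (frobImage S.ρ p : Matrix (Fin 2) (Fin 2) (ZMod 3)).det = -1 := by
    rw [det_of_mod hp.2.1, h]; decide
  have hC : indCentral S.ρ p = 0 := by
    unfold indCentral
    refine if_neg fun hc => ?_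
    rw [det_one_or_neg_one hc] at hd
    exact absurd hd (by decide)
  have hx : coef B.c p = q8Trace (frobImage S.ρ p ^ 2) := by
    rw [coef, B.c_inert p p.2 hp.1 hp.2.1 h _ (frobPlace_liesOver p) _ (frobElt_isFrobeniusAt p)]
    simp [frobImage]
  rw [hC, sqSplit, if_neg (by omega : ¬ (IsGood B p ∧ (p : ℕ) % 3 = 1)), hx, q8Trace,
    if_neg (sq_ne_neg_one hd), indInvol]
  by_cases h2 : frobImage S.ρ p ^ 2 = 1
  · rw [if_pos h2, if_pos (show IsOddInvol (frobImage S.ρ p) from ⟨hd, h2⟩)]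
    norm_num
  · rw [if_neg h2, if_neg (fun hi : IsOddInvol (frobImage S.ρ p) => h2 hi.2)]
    norm_num

theorem indCentral_mem (p : Nat.Primes) : 0 ≤ indCentral S.ρ p ∧ indCentral S.ρ p ≤ 1 := by
  unfold indCentral; split_ifs <;> norm_num

theorem indInvol_mem (p : Nat.Primes) : 0 ≤ indInvol S.ρ p ∧ indInvol S.ρ p ≤ 1 := by
  unfold indInvol; split_ifs <;> norm_num

/-- The loss at the bad primes. -/
def badLoss (p : Nat.Primes) : ℝ :=
  if IsGood B p then 0 else |(exists_factor_lower B p).choose| + 10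

theorem summable_badLoss : Summable (badLoss B) :=
  summable_of_hasFiniteSupport ((finite_not_isGood B).subset fun p hp h => hp (by simp [badLoss, h]))

/-- The minorant of `log |E_p|`. -/
def logLow (s : ℝ) (p : Nat.Primes) : ℝ :=
  (8 * indCentral S.ρ p + 2 * indInvol S.ρ p - sqSplit B p / 2) * ((p : ℕ) : ℝ) ^ (-s) -
    10 * (((p : ℕ) : ℝ) ^ (-s)) ^ 2 - badLoss B p

theorem exp_logLow_le {s : ℝ} (hs : 1 < s) (p : Nat.Primes) :
    Real.exp (logLow B s p) ≤ |factor B s p| := by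
  set t := ((p : ℕ) : ℝ) ^ (-s) with ht
  have ht0 : 0 < t := Real.rpow_pos_of_pos (by exact_mod_cast p.2.pos) _
  by_cases hp : IsGood B p
  · have ht1 : t ≤ 1 / 20 := rpow_neg_le hs.le (by norm_num) (by exact_mod_cast hp.2.2)
    rw [logLow, badLoss, if_pos hp, sub_zero]
    refine le_trans ?_ (le_abs_self _)
    rcases mod_three_cases hp.2.1 with h | h
    · refine le_trans (Real.exp_le_exp.2 ?_)
        (split_lower (abs_xOf_le B hp h) (abs_yOf_le B hp h) ht0 ht1 (factor_split B hs h hp.2.1))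
      have := mul_le_mul_of_nonneg_right (split_key B hp h) ht0.le
      linarith
    · refine le_trans (Real.exp_le_exp.2 ?_)
        (inert_lower (abs_coef_inert_le B hp h) ht0 ht1 (factor_inert B hs h hp.2.1))
      have := mul_le_mul_of_nonneg_right (inert_key B hp h) ht0.le
      linarith
  · refine le_trans (Real.exp_le_exp.2 ?_) ((exists_factor_lower B p).choose_spec s hs)
    have ht1 : t ≤ 1 / 2 := rpow_neg_le hs.le two_pos (by exact_mod_cast p.2.two_le)
    have hS : sqSplit B p = 0 := if_neg fun h => hp h.1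
    rw [logLow, badLoss, if_neg hp, hS, ← ht]
    obtain ⟨hc0, hc1⟩ := indCentral_mem (S := S) p
    obtain ⟨hi0, hi1⟩ := indInvol_mem (S := S) p
    have : (8 * indCentral S.ρ p + 2 * indInvol S.ρ p - 0 / 2) * t ≤ 10 * 1 :=
      mul_le_mul (by linarith) (by linarith) ht0.le (by norm_num)
    linarith [neg_abs_le (exists_factor_lower B p).choose, sq_nonneg t]

theorem c_finset_prod {ι : Type*} [DecidableEq ι] (f : ι → EisInt) (U : Finset ι)
    (h : ∀ i ∈ U, ∀ j ∈ U, i ≠ j → IsCoprime (f i) (f j)) :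
    B.c (∏ i ∈ U, f i) = ∏ i ∈ U, B.c (f i) := by
  induction U using Finset.induction_on with
  | empty => simp [B.c_one]
  | insert a U ha ih =>
    rw [Finset.prod_insert ha, Finset.prod_insert ha, B.c_mul, ih]
    · exact fun i hi j hj => h i (Finset.mem_insert_of_mem hi) j (Finset.mem_insert_of_mem hj)
    · refine IsCoprime.prod_right fun i hi => h a (Finset.mem_insert_self _ _) i
        (Finset.mem_insert_of_mem hi) ?_
      rintro rfl
      exact ha hi

/-- The two primes above a split prime. -/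
def piPair (i : Nat.Primes × Bool) : EisInt := if i.2 then piOf i.1 else eisConj (piOf i.1)

theorem normSq_piPair {i : Nat.Primes × Bool} (h : (i.1 : ℕ) % 3 = 1) :
    normSq (piPair i : ℂ) = (i.1 : ℕ) := by
  unfold piPair
  split_ifs
  · exact normSq_piOf h
  · rw [normSq_eisConj, normSq_piOf h]

theorem isCoprime_piPair {i j : Nat.Primes × Bool} (hi : (i.1 : ℕ) % 3 = 1)
    (hj : (j.1 : ℕ) % 3 = 1) (hne : i ≠ j) : IsCoprime (piPair i) (piPair j) := by
  obtain ⟨p, a⟩ := i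
  obtain ⟨q, b⟩ := j
  by_cases hpq : p = q
  · subst hpq
    have hc := isCoprime_eisConj p.2 (by
      intro h3; simp only at hi; omega) (normSq_piOf hi)
    cases a <;> cases b
    · exact absurd rfl hne
    · exact hc.symm
    · exact hc
    · exact absurd rfl hne
  · exact isCoprime_of_dvd_natCast (dvd_of_normSq (normSq_piPair hi))
      (dvd_of_normSq (normSq_piPair hj))
      ((Nat.coprime_primes p.2 q.2).2 fun h => hpq (Subtype.ext h))

theorem exists_primeSum_sqSplit_le : ∃ C : ℝ, ∀ s : ℝ, 1 < s → s ≤ 3 / 2 →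
    primeSum (sqSplit B) s ≤ -Real.log (s - 1) + C := by
  obtain ⟨C₀, hC₀, hdir⟩ := exists_dirichlet_sq_le B.periodData (level_ne_zero S)
  set T2 := ∑' p : Nat.Primes, ((p : ℕ) : ℝ) ^ (-2 : ℝ)
  have hT2 : Summable fun p : Nat.Primes => ((p : ℕ) : ℝ) ^ (-2 : ℝ) :=
    Nat.Primes.summable_rpow.2 (by norm_num)
  refine ⟨Real.log (C₀ + 1) + 32 * T2, fun s hs hs' => ?_⟩
  have hL : (0 : ℝ) < s - 1 := by linarith
  refine Real.tsum_le_of_sum_le (fun p => mul_nonneg (sqSplit_nonneg B p) (by positivity))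
    fun T => ?_
  set T' := T.filter fun p => IsGood B p ∧ (p : ℕ) % 3 = 1
  set I := T' ×ˢ (Finset.univ : Finset Bool)
  set z : Nat.Primes × Bool → ℝ := fun i =>
    normSq (B.c (piPair i)) * ((i.1 : ℕ) : ℝ) ^ (-s)
  have hI : ∀ i ∈ I, IsGood B i.1 ∧ (i.1 : ℕ) % 3 = 1 := fun i hi =>
    (Finset.mem_filter.1 (Finset.mem_product.1 hi).1).2
  have hz0 : ∀ i, 0 ≤ z i := fun i => mul_nonneg (Complex.normSq_nonneg _) (by positivity)
  have hprod : ∀ U ∈ I.powerset, ∏ i ∈ U, z i =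
      normSq (B.c (∏ i ∈ U, piPair i)) * normSq ((∏ i ∈ U, piPair i : EisInt) : ℂ) ^ (-s) := by
    intro U hU
    rw [Finset.mem_powerset] at hU
    rw [c_finset_prod B piPair U fun i hi j hj => isCoprime_piPair (hI i (hU hi)).2 (hI j (hU hj)).2,
      map_prod, show ((∏ i ∈ U, piPair i : EisInt) : ℂ) = ∏ i ∈ U, (piPair i : ℂ) from
        map_prod EisInt.subtype _ _, map_prod,
      ← Real.finsetProd_rpow _ _ (fun i _ => Complex.normSq_nonneg _), ← Finset.prod_mul_distrib]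
    refine Finset.prod_congr rfl fun i hi => ?_
    rw [normSq_piPair (hI i (hU hi)).2]
  have hinj : Set.InjOn (fun U => ∏ i ∈ U, piPair i) (I.powerset : Set (Finset (Nat.Primes × Bool))) := by
    intro U hU V hV hUV
    simp only [Finset.coe_powerset, Set.mem_preimage, Set.mem_powerset_iff, Finset.coe_subset] at hU hV
    have key : ∀ i ∈ I, ∀ W ⊆ I, piPair i ∣ ∏ j ∈ W, piPair j → i ∈ W := by
      intro i hi W hW hdvd
      obtain ⟨hg, hi3⟩ := hI i hi
      obtain ⟨j, hj, hij⟩ :=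
        (prime_of_normSq i.1.2 (normSq_piPair hi3)).exists_mem_finset_dvd hdvd
      by_contra hiW
      exact (prime_of_normSq i.1.2 (normSq_piPair hi3)).not_isUnit
        ((isCoprime_piPair hi3 (hI j (hW hj)).2 (fun h => hiW (h ▸ hj))).isUnit_of_dvd hij)
    refine Finset.ext fun i => ⟨fun hi => key i (hU hi) V hV ?_, fun hi => key i (hV hi) U hU ?_⟩
    · simp only at hUV; rw [← hUV]; exact Finset.dvd_prod_of_mem _ hi
    · simp only at hUV; rw [hUV]; exact Finset.dvd_prod_of_mem _ hi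
  have hbig : ∏ i ∈ I, (1 + z i) ≤ C₀ / (s - 1) := by
    rw [Finset.prod_one_add, Finset.sum_congr rfl hprod,
      ← Finset.sum_image (f := fun ν : EisInt => normSq (B.c ν) * normSq (ν : ℂ) ^ (-s)) hinj]
    exact hdir s hs hs' _
  have hlog : ∑ i ∈ I, (z i - z i ^ 2) ≤ -Real.log (s - 1) + Real.log (C₀ + 1) := by
    calc ∑ i ∈ I, (z i - z i ^ 2) ≤ ∑ i ∈ I, Real.log (1 + z i) := by
          refine Finset.sum_le_sum fun i _ => le_trans ?_
            (Real.one_sub_inv_le_log_of_pos (by linarith [hz0 i]))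
          have h1 : 0 < 1 + z i := by linarith [hz0 i]
          rw [show 1 - (1 + z i)⁻¹ = z i / (1 + z i) by field_simp; ring, le_div_iff₀ h1]
          nlinarith [pow_nonneg (hz0 i) 3]
      _ = Real.log (∏ i ∈ I, (1 + z i)) :=
          (Real.log_prod fun i _ => by linarith [hz0 i]).symm
      _ ≤ Real.log ((C₀ + 1) / (s - 1)) :=
          Real.log_le_log (Finset.prod_pos fun i _ => by linarith [hz0 i])
            (hbig.trans (div_le_div_of_nonneg_right (by linarith) hL.le))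
      _ = _ := by rw [Real.log_div (by linarith) hL.ne']; ring
  have hsum : ∀ f : Nat.Primes × Bool → ℝ, ∑ i ∈ I, f i = ∑ p ∈ T', (f (p, true) + f (p, false)) :=
    fun f => by rw [Finset.sum_product]; simp
  rw [hsum] at hlog
  calc ∑ p ∈ T, sqSplit B p * ((p : ℕ) : ℝ) ^ (-s)
      = ∑ p ∈ T', sqSplit B p * ((p : ℕ) : ℝ) ^ (-s) := by
        refine (Finset.sum_filter_of_ne fun p _ hne => ?_).symm
        by_contra h
        exact hne (by simp [sqSplit, h])
    _ ≤ ∑ p ∈ T', (z (p, true) - z (p, true) ^ 2 + (z (p, false) - z (p, false) ^ 2) +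
          32 * ((p : ℕ) : ℝ) ^ (-2 : ℝ)) := by
        refine Finset.sum_le_sum fun p hp => ?_
        obtain ⟨-, hg, h3⟩ := Finset.mem_filter.1 hp
        have ht : (((p : ℕ) : ℝ) ^ (-s)) ^ 2 ≤ ((p : ℕ) : ℝ) ^ (-2 : ℝ) := by
          rw [← Real.rpow_natCast _ 2, ← Real.rpow_mul (Nat.cast_nonneg _)]
          refine Real.rpow_le_rpow_of_exponent_le (by exact_mod_cast p.2.one_lt.le) ?_
          push_cast
          linarith
        have e1 : normSq (B.c (piOf p)) = xOf B p ^ 2 := by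
          rw [xOf, ← c_ofReal B (piOf p), Complex.normSq_ofReal, Complex.ofReal_re, sq]
        have e2 : normSq (B.c (eisConj (piOf p))) = yOf B p ^ 2 := by
          rw [yOf, ← c_ofReal B (eisConj (piOf p)), Complex.normSq_ofReal, Complex.ofReal_re, sq]
        have hb : ∀ a : ℝ, |a| ≤ 2 → (a ^ 2) ^ 2 ≤ 16 := fun a ha => by
          have h4 : a ^ 2 ≤ 4 := by nlinarith [sq_abs a, abs_nonneg a]
          nlinarith [sq_nonneg a]
        rw [sqSplit, if_pos ⟨hg, h3⟩]
        simp only [z, piPair, if_true, Bool.false_eq_true, if_false, e1, e2, mul_pow]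
        nlinarith [hb _ (abs_xOf_le B hg h3), hb _ (abs_yOf_le B hg h3),
          sq_nonneg (((p : ℕ) : ℝ) ^ (-s))]
    _ ≤ _ := by
        rw [Finset.sum_add_distrib, ← Finset.mul_sum]
        linarith [hT2.sum_le_tsum T' fun p _ => by positivity]

/-- The coefficient series is unbounded as `s → 1⁺`. -/
theorem tendsto_abs_dirichlet :
    Tendsto (fun s => |∑' n, dterm B.c s n|) (𝓝[>] (1 : ℝ)) atTop := by
  obtain ⟨Csq, hCsq⟩ := exists_primeSum_sqSplit_le B
  obtain ⟨CC, hCC⟩ := (primeSum_indCentral_isBigO S.finiteLevel S.surjective).bound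
  obtain ⟨CI, hCI⟩ := (primeSum_indInvol_isBigO S.finiteLevel S.surjective).bound
  set K := 8 * CC + 2 * CI + Csq / 2 + 10 * ∑' p : Nat.Primes, ((p : ℕ) : ℝ) ^ (-2 : ℝ) +
    ∑' p, badLoss B p
  have hmain : ∀ᶠ s in 𝓝[>] (1 : ℝ),
      Real.exp (-Real.log (s - 1) / 3 - K) ≤ |∑' n, dterm B.c s n| := by
    filter_upwards [hCC, hCI, Ioc_mem_nhdsGT (show (1 : ℝ) < 3 / 2 by norm_num)] with s hc hi hs
    obtain ⟨hs1, hs2⟩ := hs
    rw [Real.norm_eq_abs, norm_one, mul_one, abs_le] at hc hi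
    have hq := hCsq s hs1 hs2
    have hbC : ∀ p, |indCentral S.ρ p| ≤ 1 := fun p =>
      abs_le.2 ⟨by linarith [(indCentral_mem (S := S) p).1], (indCentral_mem p).2⟩
    have hbI : ∀ p, |indInvol S.ρ p| ≤ 1 := fun p =>
      abs_le.2 ⟨by linarith [(indInvol_mem (S := S) p).1], (indInvol_mem p).2⟩
    have sC := FermatAgent.GalRep.summable_primeSum hbC hs1
    have sI := FermatAgent.GalRep.summable_primeSum hbI hs1
    have sQ := FermatAgent.GalRep.summable_primeSum (abs_sqSplit_le B) hs1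
    have sT : Summable fun p : Nat.Primes => (((p : ℕ) : ℝ) ^ (-s)) ^ 2 := by
      refine Summable.of_nonneg_of_le (fun p => by positivity) (fun p => ?_)
        (Nat.Primes.summable_rpow.2 (show (-2 : ℝ) < -1 by norm_num))
      rw [← Real.rpow_natCast _ 2, ← Real.rpow_mul (Nat.cast_nonneg _)]
      refine Real.rpow_le_rpow_of_exponent_le (by exact_mod_cast p.2.one_lt.le) ?_
      push_cast
      linarith
    have sL : HasSum (logLow B s) (8 * primeSum (indCentral S.ρ) s + 2 * primeSum (indInvol S.ρ) s -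
        primeSum (sqSplit B) s / 2 - 10 * ∑' p : Nat.Primes, (((p : ℕ) : ℝ) ^ (-s)) ^ 2 -
          ∑' p, badLoss B p) := by
      refine ((((sC.hasSum.mul_left 8).add (sI.hasSum.mul_left 2)).sub
        (sQ.hasSum.div_const 2)).sub (sT.hasSum.mul_left 10)).sub
          (summable_badLoss B).hasSum |>.congr_fun fun p => ?_
      rw [logLow]
      ring
    have hT : ∑' p : Nat.Primes, (((p : ℕ) : ℝ) ^ (-s)) ^ 2 ≤
        ∑' p : Nat.Primes, ((p : ℕ) : ℝ) ^ (-2 : ℝ) := by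
      refine sT.tsum_le_tsum (fun p => ?_) (Nat.Primes.summable_rpow.2 (by norm_num))
      rw [← Real.rpow_natCast _ 2, ← Real.rpow_mul (Nat.cast_nonneg _)]
      refine Real.rpow_le_rpow_of_exponent_le (by exact_mod_cast p.2.one_lt.le) ?_
      push_cast
      linarith
    have hlim : Real.exp (∑' p, logLow B s p) ≤ |∑' n, dterm B.c s n| := by
      refine le_of_tendsto_of_tendsto' ((Real.continuous_exp.tendsto _).comp sL.summable.hasSum)
        ((continuous_abs.tendsto _).comp (hasProd_factor B hs1)) fun T => ?_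
      simp only [Function.comp_apply]
      rw [Finset.abs_prod, Real.exp_sum]
      exact Finset.prod_le_prod (fun p _ => (Real.exp_pos _).le) fun p _ => exp_logLow_le B hs1 p
    refine le_trans (Real.exp_le_exp.2 ?_) hlim
    rw [sL.tsum_eq]
    simp only [K]
    linarith [hc.1, hi.1]
  refine tendsto_atTop_mono' _ hmain (Real.tendsto_exp_atTop.comp ?_)
  have h1 : Tendsto (fun s : ℝ => Real.log (s - 1)) (𝓝[>] 1) atBot := by
    refine Real.tendsto_log_nhdsGT_zero.comp (tendsto_nhdsWithin_iff.mpr ⟨?_, ?_⟩)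
    · exact ((continuous_sub_right (1 : ℝ)).tendsto' 1 0 (sub_self _)).mono_left nhdsWithin_le_nhds
    · filter_upwards [self_mem_nhdsWithin] with s hs using sub_pos.mpr (Set.mem_Ioi.mp hs)
  exact tendsto_atTop_add_const_right _ (-K)
    ((tendsto_neg_atBot_atTop.comp h1).atTop_div_const (show (0 : ℝ) < 3 by norm_num)) |>.congr
      fun s => by simp only [Function.comp_apply]; ring

end FermatAgent.LT.Period
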