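import Mathlib

set_option autoImplicit false

/-!
# Unfolding for `SL₂(ℤ)` on the upper half-plane
-/

noncomputable section

open MeasureTheory Filter Topology
open scoped MatrixGroups Modular ENNReal NNReal
open UpperHalfPlane

namespace FermatAgent.LT.Period

theorem countable_slz : Countable SL(2, ℤ) := by
  have : Countable (Matrix (Fin 2) (Fin 2) ℤ) := inferInstanceAs (Countable (Fin 2 → Fin 2 → ℤ))
  exact Subtype.countable

attribute [local instance] countable_slz

theorem measurableEmbedding_slz_smul (g : SL(2, ℤ)) : MeasurableEmbedding fun z : ℍ => g • z :=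
  measurableEmbedding_const_smul (Matrix.SpecialLinearGroup.mapGL ℝ g)

theorem measurePreserving_slz_smul (g : SL(2, ℤ)) :
    MeasurePreserving (fun z : ℍ => g • z) volume volume :=
  measurePreserving_smul (Matrix.SpecialLinearGroup.mapGL ℝ g) (volume : Measure ℍ)

theorem measurableSet_fd' : MeasurableSet (𝒟 : Set ℍ) :=
  ModularGroup.isClosed_fd.measurableSet

theorem volume_eq_zero_of_image {s : Set ℍ} (h : volume (UpperHalfPlane.coe '' s) = 0) :
    volume s = 0 := by
  rw [volume_eq_lintegral, setLIntegral_measure_zero _ _ h]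

theorem volume_re_eq (c : ℝ) : volume {z : ℂ | z.re = c} = 0 := by
  have e : {z : ℂ | z.re = c} = Complex.measurableEquivRealProd ⁻¹' ({c} ×ˢ Set.univ) := by
    ext z
    simp
  rw [e, Complex.volume_preserving_equiv_real_prod.measure_preimage
    ((measurableSet_singleton c).prod MeasurableSet.univ).nullMeasurableSet,
    Measure.volume_eq_prod, Measure.prod_prod, Real.volume_singleton, zero_mul]

theorem volume_boundary : volume ((𝒟 : Set ℍ) \ 𝒟ᵒ) = 0 := by
  refine volume_eq_zero_of_image (measure_mono_null (t := {z : ℂ | z.re = 1 / 2} ∪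
    ({z : ℂ | z.re = -(1 / 2)} ∪ Metric.sphere 0 1)) ?_ ?_)
  · rintro _ ⟨τ, ⟨h1, h2⟩, rfl⟩
    by_cases hn : Complex.normSq (τ : ℂ) = 1
    · right; right
      rw [Metric.mem_sphere, dist_zero_right, Complex.norm_def, hn, Real.sqrt_one]
    have hn1 : 1 < Complex.normSq (τ : ℂ) := lt_of_le_of_ne h1.1 (Ne.symm hn)
    have hre : |τ.re| = 1 / 2 := le_antisymm h1.2 (not_lt.1 fun hlt => h2 ⟨hn1, hlt⟩)
    rcases eq_or_eq_neg_of_abs_eq hre with h | h
    · exact Or.inl h
    · exact Or.inr (Or.inl h)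
  · exact measure_union_null (volume_re_eq _)
      (measure_union_null (volume_re_eq _) (Measure.addHaar_sphere_of_ne_zero _ _ one_ne_zero))

theorem neg_ne_self (g : SL(2, ℤ)) : g ≠ -g := by
  intro h
  have h2 : ∀ i j, (g : Matrix (Fin 2) (Fin 2) ℤ) i j = 0 := fun i j => by
    have := congrArg (fun x : SL(2, ℤ) => (x : Matrix (Fin 2) (Fin 2) ℤ) i j) h
    simp only [Matrix.SpecialLinearGroup.coe_neg, Matrix.neg_apply] at this
    omega
  have hd := g.det_coe
  rw [Matrix.det_fin_two, h2, h2] at hd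
  simp [h2] at hd

theorem ae_orbit : ∀ᵐ z : ℍ, ∃ g₀ : SL(2, ℤ), ∀ g : SL(2, ℤ),
    g⁻¹ • z ∈ 𝒟 ↔ (g = g₀ ∨ g = -g₀) := by
  have h : ∀ᵐ z : ℍ, ∀ g : SL(2, ℤ), g • z ∉ (𝒟 : Set ℍ) \ 𝒟ᵒ := by
    rw [ae_all_iff]
    intro g
    refine measure_mono_null ?_
      (((measurePreserving_slz_smul g).measure_preimage_emb (measurableEmbedding_slz_smul g)
        ((𝒟 : Set ℍ) \ 𝒟ᵒ)).trans volume_boundary)
    intro z hz
    simpa using hz
  filter_upwards [h] with z hz
  obtain ⟨g₁, hg₁⟩ := ModularGroup.exists_smul_mem_fd z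
  have hg₁o : g₁ • z ∈ 𝒟ᵒ := by
    by_contra hn
    exact hz g₁ ⟨hg₁, hn⟩
  refine ⟨g₁⁻¹, fun g => ⟨fun hg => ?_, ?_⟩⟩
  · have := ModularGroup.eq_one_or_neg_one_of_mem_fdo_mem_fd hg₁o (g := g⁻¹ * g₁⁻¹)
      (by rwa [mul_smul, inv_smul_smul])
    rcases this with h1 | h1
    · left
      rw [inv_mul_eq_one] at h1
      exact h1
    · right
      rw [inv_mul_eq_iff_eq_mul, mul_neg, mul_one] at h1
      rw [h1, neg_neg]
  · rintro (rfl | rfl)
    · rwa [inv_inv]
    · rwa [show (-g₁⁻¹)⁻¹ = -g₁ from inv_eq_of_mul_eq_one_right (by rw [neg_mul_neg, inv_mul_cancel]),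
        ModularGroup.SL_neg_smul]

/-- Twice an integral over the upper half plane is an integral over the fundamental domain. -/
theorem two_integral_eq {F : ℍ → ℂ} (hF : Integrable F) :
    (2 : ℂ) * ∫ z, F z = ∫ τ in 𝒟, ∑' g : SL(2, ℤ), F (g • τ) := by
  classical
  set A : SL(2, ℤ) → ℍ → ℂ := fun g z => if g⁻¹ • z ∈ 𝒟 then F z else 0
  have hcomp : ∀ g, (fun τ => A g (g • τ)) = (𝒟 : Set ℍ).indicator fun τ => F (g • τ) := fun g => by
    ext τ
    simp [A, Set.indicator_apply]
  have hAm : ∀ g, AEStronglyMeasurable (A g) := fun g => by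
    have e : A g = ((fun z : ℍ => g⁻¹ • z) ⁻¹' (𝒟 : Set ℍ)).indicator F := by
      ext z; simp [A, Set.indicator_apply]
    rw [e]
    exact hF.1.indicator ((measurableEmbedding_slz_smul g⁻¹).measurable measurableSet_fd')
  have hsumA : ∀ᵐ z : ℍ, ∑' g, ‖A g z‖ₑ = 2 * ‖F z‖ₑ ∧ ∑' g, A g z = 2 * F z := by
    filter_upwards [ae_orbit] with z hz
    obtain ⟨g₀, hg₀⟩ := hz
    have hsup : ∀ g ∉ ({g₀, -g₀} : Finset SL(2, ℤ)), A g z = 0 := fun g hg => by
      simp only [Finset.mem_insert, Finset.mem_singleton] at hg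
      exact if_neg fun h => hg ((hg₀ g).1 h)
    have h1 : A g₀ z = F z := if_pos ((hg₀ g₀).2 (Or.inl rfl))
    have h2 : A (-g₀) z = F z := if_pos ((hg₀ (-g₀)).2 (Or.inr rfl))
    constructor
    · rw [tsum_eq_sum (s := {g₀, -g₀}) fun g hg => by rw [hsup g hg, enorm_zero],
        Finset.sum_pair (neg_ne_self g₀), h1, h2, two_mul]
    · rw [tsum_eq_sum (s := {g₀, -g₀}) hsup, Finset.sum_pair (neg_ne_self g₀), h1, h2, two_mul]
  have hfin : ∑' g, ∫⁻ z, ‖A g z‖ₑ ≠ ⊤ := by
    rw [← lintegral_tsum fun g => (hAm g).enorm, lintegral_congr_ae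
      (hsumA.mono fun z hz => hz.1), lintegral_const_mul' _ _ ENNReal.ofNat_ne_top]
    exact ENNReal.mul_ne_top ENNReal.ofNat_ne_top hF.2.ne
  have htr : ∀ g, ∫⁻ τ, ‖A g (g • τ)‖ₑ = ∫⁻ z, ‖A g z‖ₑ := fun g =>
    (measurePreserving_slz_smul g).lintegral_comp_emb (measurableEmbedding_slz_smul g)
      fun z => ‖A g z‖ₑ
  have hB : ∀ g, AEStronglyMeasurable fun τ => A g (g • τ) := fun g =>
    (hAm g).comp_measurePreserving (measurePreserving_slz_smul g)
  calc (2 : ℂ) * ∫ z, F z = ∫ z, ∑' g, A g z := by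
        rw [integral_congr_ae (hsumA.mono fun z hz => hz.2), integral_const_mul]
    _ = ∑' g, ∫ z, A g z := integral_tsum hAm hfin
    _ = ∑' g, ∫ τ, A g (g • τ) := tsum_congr fun g =>
        ((measurePreserving_slz_smul g).integral_comp (measurableEmbedding_slz_smul g) (A g)).symm
    _ = ∫ τ, ∑' g, A g (g • τ) := (integral_tsum hB (by simp only [htr]; exact hfin)).symm
    _ = ∫ τ in 𝒟, ∑' g : SL(2, ℤ), F (g • τ) := by
        rw [← integral_indicator measurableSet_fd']
        refine integral_congr_ae (Eventually.of_forall fun τ => ?_)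
        simp only [fun g => congrFun (hcomp g) τ]
        by_cases h : τ ∈ (𝒟 : Set ℍ) <;> simp [h]

/-- The unit vertical strip. -/
def strip : Set ℍ := {τ | τ.re ∈ Set.Ico (0 : ℝ) 1}

theorem measurableSet_strip : MeasurableSet strip :=
  UpperHalfPlane.continuous_re.measurable measurableSet_Ico

/-- Primitive vectors. -/
def Prim : Type := {v : Fin 2 → ℤ // IsCoprime (v 0) (v 1)}

/-- A matrix with prescribed bottom row. -/
def primRep (v : Prim) : SL(2, ℤ) := (ModularGroup.bottom_row_surj v.2).choose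

theorem primRep_row (v : Prim) : (primRep v : Matrix (Fin 2) (Fin 2) ℤ) 1 = v.1 :=
  (ModularGroup.bottom_row_surj v.2).choose_spec.2

theorem exists_T_zpow_of_row {g g' : SL(2, ℤ)}
    (h : (g' : Matrix (Fin 2) (Fin 2) ℤ) 1 = (g : Matrix (Fin 2) (Fin 2) ℤ) 1) :
    ∃ n : ℤ, g' = ModularGroup.T ^ n * g := by
  refine ⟨(g' * g⁻¹) 0 1, ?_⟩
  rw [← mul_inv_eq_iff_eq_mul]
  have hd := g.det_coe
  rw [Matrix.det_fin_two] at hd
  have h10 := congrFun h 0
  have h11 := congrFun h 1
  have e10 : (g' * g⁻¹) 1 0 = 0 := by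
    simp [Matrix.SpecialLinearGroup.coe_mul, Matrix.SpecialLinearGroup.coe_inv,
      Matrix.adjugate_fin_two, Matrix.mul_apply, Fin.sum_univ_two, h10, h11]
    ring
  have e11 : (g' * g⁻¹) 1 1 = 1 := by
    simp [Matrix.SpecialLinearGroup.coe_mul, Matrix.SpecialLinearGroup.coe_inv,
      Matrix.adjugate_fin_two, Matrix.mul_apply, Fin.sum_univ_two, h10, h11]
    linear_combination hd
  generalize g' * g⁻¹ = k at e10 e11 ⊢
  have hk := k.det_coe
  rw [Matrix.det_fin_two, e10, e11, mul_one, mul_zero, sub_zero] at hk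
  apply Matrix.SpecialLinearGroup.ext
  intro i j
  rw [ModularGroup.coe_T_zpow]
  fin_cases i <;> fin_cases j
  · simpa using hk
  · simp
  · simpa using e10
  · simpa using e11

theorem tsum_strip {E : Type*} [AddCommMonoid E] [TopologicalSpace E] (G : ℍ → E)
    (hG : ∀ (n : ℤ) (τ : ℍ), G (ModularGroup.T ^ n • τ) = G τ) (τ : ℍ) :
    ∑' g : SL(2, ℤ), strip.indicator G (g • τ) = ∑' v : Prim, G (primRep v • τ) := by
  classical
  set P : Set SL(2, ℤ) := {g | g • τ ∈ strip}
  have e : (fun g : SL(2, ℤ) => strip.indicator G (g • τ)) = P.indicator fun g => G (g • τ) := by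
    ext g
    simp [P, Set.indicator_apply]
  rw [e, ← tsum_subtype P]
  let row : P → Prim := fun g => ⟨(g.1 : Matrix (Fin 2) (Fin 2) ℤ) 1, ModularGroup.bottom_row_coprime g.1⟩
  have hbij : Function.Bijective row := by
    refine ⟨fun g g' hgg' => ?_, fun v => ?_⟩
    · obtain ⟨n, hn⟩ := exists_T_zpow_of_row (congrArg Subtype.val hgg').symm
      have h1 : ((g : SL(2, ℤ)) • τ).re ∈ Set.Ico (0 : ℝ) 1 := g.2
      have h2 : ((g' : SL(2, ℤ)) • τ).re ∈ Set.Ico (0 : ℝ) 1 := g'.2
      rw [hn, mul_smul, ModularGroup.re_T_zpow_smul] at h2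
      rw [Set.mem_Ico] at h1 h2
      have hn1 : -1 < n := by exact_mod_cast (by push_cast; linarith : ((-1 : ℤ) : ℝ) < n)
      have hn2 : n < 1 := by exact_mod_cast (by push_cast; linarith : (n : ℝ) < ((1 : ℤ) : ℝ))
      refine Subtype.ext ?_
      rw [hn, show n = 0 by omega, zpow_zero, one_mul]
    · set n : ℤ := -⌊(primRep v • τ).re⌋
      refine ⟨⟨ModularGroup.T ^ n * primRep v, ?_⟩, Subtype.ext ?_⟩
      · show (((ModularGroup.T ^ n * primRep v) • τ).re) ∈ Set.Ico (0 : ℝ) 1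
        rw [mul_smul, ModularGroup.re_T_zpow_smul, Set.mem_Ico]
        simp only [n, Int.cast_neg]
        constructor
        · linarith [Int.floor_le (primRep v • τ).re]
        · linarith [Int.lt_floor_add_one (primRep v • τ).re]
      · show ((ModularGroup.T ^ n * primRep v : SL(2, ℤ)) : Matrix (Fin 2) (Fin 2) ℤ) 1 = v.1
        rw [← primRep_row v]
        ext j
        simp
  rw [← (Equiv.ofBijective row hbij).tsum_eq]
  refine tsum_congr fun g => ?_
  obtain ⟨n, hn⟩ := exists_T_zpow_of_row (g := (g : SL(2, ℤ))) (g' := primRep (row g))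
    (primRep_row (row g))
  show G ((g : SL(2, ℤ)) • τ) = G (primRep (row g) • τ)
  rw [hn, mul_smul, hG]

/-- The point with given coordinates. -/
def mkH (q : ℝ × ℝ) : ℍ := UpperHalfPlane.ofComplex ⟨q.1, q.2⟩

theorem mkH_im {q : ℝ × ℝ} (hq : 0 < q.2) : (mkH q).im = q.2 := by
  rw [mkH, UpperHalfPlane.ofComplex_apply_of_im_pos (z := ⟨q.1, q.2⟩) hq]
  rfl

theorem mkH_re {q : ℝ × ℝ} (hq : 0 < q.2) : (mkH q).re = q.1 := by
  rw [mkH, UpperHalfPlane.ofComplex_apply_of_im_pos (z := ⟨q.1, q.2⟩) hq]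
  rfl

/-- Coordinates on the strip. -/
def stripMeasure : Measure (ℝ × ℝ) :=
  (volume.restrict (Set.Ico (0 : ℝ) 1)).prod (volume.restrict (Set.Ioi 0))

theorem comap_coe_preserving :
    MeasurePreserving UpperHalfPlane.coe ((volume : Measure ℂ).comap UpperHalfPlane.coe)
      ((volume : Measure ℂ).restrict (Set.range UpperHalfPlane.coe)) :=
  ⟨measurable_coe, by rw [measurableEmbedding_coe.map_comap]⟩

theorem strip_integral_pair {E : Type*} [NormedAddCommGroup E] [NormedSpace ℝ E] (F : ℍ → E) :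
    (∫ τ in strip, F τ = ∫ q, (q.2 ^ 2)⁻¹ • F (mkH q) ∂stripMeasure) ∧
      (IntegrableOn F strip ↔ Integrable (fun q => (q.2 ^ 2)⁻¹ • F (mkH q)) stripMeasure) := by
  set w : ℍ → ℝ≥0 := fun z => (1 / NNReal.mk z.im z.im_pos.le) ^ 2 with hw
  have hwm : Measurable w := by
    rw [hw]
    have h : Measurable fun z : ℍ => NNReal.mk z.im z.im_pos.le :=
      UpperHalfPlane.continuous_im.measurable.subtype_mk
    exact (measurable_const.div h).pow_const 2
  set H : ℂ → E := fun z => {z : ℂ | z.re ∈ Set.Ico (0 : ℝ) 1 ∧ 0 < z.im}.indicator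
    (fun z => (z.im ^ 2)⁻¹ • F (UpperHalfPlane.ofComplex z)) z with hH
  have hms : MeasurableSet {z : ℂ | z.re ∈ Set.Ico (0 : ℝ) 1 ∧ 0 < z.im} :=
    (Complex.measurable_re measurableSet_Ico).inter (Complex.measurable_im measurableSet_Ioi)
  have hHcoe : (fun z : ℍ => w z • strip.indicator F z) = fun z : ℍ => H (z : ℂ) := by
    ext z
    rw [hH]
    by_cases hz : z ∈ strip
    · have hz' : (z : ℂ) ∈ {z : ℂ | z.re ∈ Set.Ico (0 : ℝ) 1 ∧ 0 < z.im} := ⟨hz, z.im_pos⟩
      simp only [Set.indicator_of_mem hz, Set.indicator_of_mem hz', UpperHalfPlane.ofComplex_apply,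
        NNReal.smul_def, hw]
      congr 1
      simp
    · have hz' : (z : ℂ) ∉ {z : ℂ | z.re ∈ Set.Ico (0 : ℝ) 1 ∧ 0 < z.im} := fun h => hz h.1
      simp only [Set.indicator_of_notMem hz, Set.indicator_of_notMem hz', smul_zero]
  have hrange : Set.range UpperHalfPlane.coe = {z : ℂ | 0 < z.im} := by
    ext z
    exact ⟨fun ⟨τ, h⟩ => h ▸ τ.im_pos, fun h => ⟨⟨z, h⟩, rfl⟩⟩
  have hsupp : ∀ z ∉ Set.range UpperHalfPlane.coe, H z = 0 := fun z hz => by
    rw [hrange] at hz
    exact Set.indicator_of_notMem (fun h => hz h.2) _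
  set T := Complex.measurableEquivRealProd
  have hrect : T ⁻¹' (Set.Ico (0 : ℝ) 1 ×ˢ Set.Ioi 0) =
      {z : ℂ | z.re ∈ Set.Ico (0 : ℝ) 1 ∧ 0 < z.im} := by
    ext z
    simp [T]
  have hHT : ∀ q, (Set.Ico (0 : ℝ) 1 ×ˢ Set.Ioi 0).indicator
      (fun q => (q.2 ^ 2)⁻¹ • F (mkH q)) q = H (T.symm q) := by
    intro q
    have hq : T.symm q = ⟨q.1, q.2⟩ := Complex.ext rfl rfl
    simp only [hH, hq, Set.indicator_apply, Set.mem_prod, Set.mem_Ioi, mkH]
    rfl
  have hrm : stripMeasure = (volume : Measure (ℝ × ℝ)).restrict (Set.Ico (0 : ℝ) 1 ×ˢ Set.Ioi 0) := by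
    rw [stripMeasure, Measure.prod_restrict]
    rfl
  have hmsp : MeasurableSet (Set.Ico (0 : ℝ) 1 ×ˢ Set.Ioi (0 : ℝ)) :=
    measurableSet_Ico.prod measurableSet_Ioi
  refine ⟨?_, ?_⟩
  · rw [← integral_indicator measurableSet_strip, volume_def,
      integral_withDensity_eq_integral_smul hwm, hHcoe,
      comap_coe_preserving.integral_comp measurableEmbedding_coe,
      setIntegral_eq_integral_of_forall_compl_eq_zero hsupp, hrm, ← integral_indicator hmsp]
    simp only [hHT]
    exact ((Complex.volume_preserving_equiv_real_prod.symm _).integral_comp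
      T.symm.measurableEmbedding H).symm
  · rw [← integrable_indicator_iff measurableSet_strip, volume_def,
      integrable_withDensity_iff_integrable_smul hwm, hHcoe,
      ← Function.comp_def H UpperHalfPlane.coe,
      comap_coe_preserving.integrable_comp_emb measurableEmbedding_coe,
      ← IntegrableOn, integrableOn_iff_integrable_of_support_subset
        (fun z hz => by by_contra h; exact hz (hsupp z h)), hrm, ← IntegrableOn,
      ← integrable_indicator_iff hmsp, funext hHT, ← Function.comp_def H T.symm,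
      (Complex.volume_preserving_equiv_real_prod.symm _).integrable_comp_emb
        T.symm.measurableEmbedding]

end FermatAgent.LT.Period
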