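import Mathlib

set_option autoImplicit false

/-!
# Lattice sums in a residue class near `s = 1`

`∑_{v ≡ r (N)} (y / |c τ + d|²)^s` is a quantity independent of `τ` and `r` up to `O(y^{3/2})`.
-/

noncomputable section

open MeasureTheory Filter Topology
open scoped Classical UpperHalfPlane
open Complex (normSq)

namespace FermatAgent.LT.Period

/-- The profile `(u² + A²)^{-s}`. -/
def prof (A s u : ℝ) : ℝ := (u ^ 2 + A ^ 2) ^ (-s)

/-- The integral `∫ (1 + u²)^{-s}`. -/
def betaInt (s : ℝ) : ℝ := ∫ u : ℝ, (1 + u ^ 2) ^ (-s)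

theorem prof_pos {A : ℝ} (hA : 0 < A) (s u : ℝ) : 0 < prof A s u := by
  unfold prof; positivity

theorem prof_le {A : ℝ} (hA : 0 < A) {s : ℝ} (hs : 0 ≤ s) {u v : ℝ} (h : u ^ 2 ≤ v ^ 2) :
    prof A s v ≤ prof A s u :=
  Real.rpow_le_rpow_of_nonpos (by positivity) (by linarith) (by linarith)

theorem continuous_prof {A : ℝ} (hA : 0 < A) (s : ℝ) : Continuous (prof A s) := by
  unfold prof
  exact Continuous.rpow_const (by fun_prop) fun u => Or.inl (by positivity)

theorem integrable_one_add_sq {s : ℝ} (hs : 1 / 2 < s) :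
    Integrable fun u : ℝ => (1 + u ^ 2) ^ (-s) := by
  have := integrable_rpow_neg_one_add_norm_sq (E := ℝ) (μ := volume) (r := 2 * s)
    (by rw [Module.finrank_self]; push_cast; linarith)
  refine this.congr (Eventually.of_forall fun u => ?_)
  simp only [Real.norm_eq_abs, sq_abs]
  congr 1
  ring

theorem prof_scale {A : ℝ} (hA : 0 < A) (s u : ℝ) :
    prof A s (A * u) = A ^ (-(2 * s)) * (1 + u ^ 2) ^ (-s) := by
  rw [prof, show (A * u) ^ 2 + A ^ 2 = A ^ 2 * (1 + u ^ 2) by ring,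
    Real.mul_rpow (by positivity) (by positivity), ← Real.rpow_natCast A 2,
    ← Real.rpow_mul hA.le]
  congr 2
  push_cast
  ring

theorem integrable_prof {A : ℝ} (hA : 0 < A) {s : ℝ} (hs : 1 / 2 < s) :
    Integrable (prof A s) := by
  refine (integrable_comp_mul_left_iff _ hA.ne').1 ?_
  simp only [prof_scale hA]
  exact (integrable_one_add_sq hs).const_mul _

theorem integral_prof {A : ℝ} (hA : 0 < A) (s : ℝ) :
    ∫ u, prof A s u = A ^ (1 - 2 * s) * betaInt s := by
  have h := Measure.integral_comp_mul_left (prof A s) A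
  simp only [prof_scale hA, integral_const_mul, smul_eq_mul, abs_inv, abs_of_pos hA] at h
  rw [betaInt, show (1 - 2 * s) = 1 + -(2 * s) by ring, Real.rpow_add hA, Real.rpow_one,
    mul_assoc, h, mul_inv_cancel_left₀ hA.ne']

theorem betaInt_nonneg (s : ℝ) : 0 ≤ betaInt s :=
  integral_nonneg fun _ => by positivity

theorem betaInt_le_pi {s : ℝ} (hs : 1 ≤ s) : betaInt s ≤ Real.pi := by
  rw [← integral_univ_inv_one_add_sq]
  refine integral_mono (integrable_one_add_sq (by linarith)) integrable_inv_one_add_sq fun u => ?_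
  rw [← Real.rpow_neg_one]
  exact Real.rpow_le_rpow_of_exponent_le (by nlinarith [sq_nonneg u]) (by linarith)

/-- An increasing function controlling the variation of the profile. -/
def variation (A s u : ℝ) : ℝ := if u ≤ 0 then prof A s u else 2 * prof A s 0 - prof A s u

theorem variation_mem {A : ℝ} (hA : 0 < A) {s : ℝ} (hs : 0 ≤ s) (u : ℝ) :
    0 ≤ variation A s u ∧ variation A s u ≤ 2 * prof A s 0 := by
  have h := prof_le hA hs (show (0 : ℝ) ^ 2 ≤ u ^ 2 by nlinarith [sq_nonneg u])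
  have h0 := prof_pos hA s u
  unfold variation
  split_ifs <;> constructor <;> linarith

theorem abs_prof_sub_le {A : ℝ} (hA : 0 < A) {s : ℝ} (hs : 0 ≤ s) {u v : ℝ} (h : u ≤ v) :
    |prof A s u - prof A s v| ≤ variation A s v - variation A s u := by
  have h0u := prof_le hA hs (show (0 : ℝ) ^ 2 ≤ u ^ 2 by nlinarith [sq_nonneg u])
  have h0v := prof_le hA hs (show (0 : ℝ) ^ 2 ≤ v ^ 2 by nlinarith [sq_nonneg v])
  unfold variation
  split_ifs with h1 h2 h2
  · have := prof_le hA hs (show v ^ 2 ≤ u ^ 2 by nlinarith)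
    rw [abs_le]; constructor <;> linarith
  · linarith
  · rw [abs_le]; constructor <;> linarith
  · have := prof_le hA hs (show u ^ 2 ≤ v ^ 2 by nlinarith)
    rw [abs_le]; constructor <;> linarith

theorem variation_mono {A : ℝ} (hA : 0 < A) {s : ℝ} (hs : 0 ≤ s) {u v : ℝ} (h : u ≤ v) :
    variation A s u ≤ variation A s v :=
  sub_nonneg.1 ((abs_nonneg _).trans (abs_prof_sub_le hA hs h))

/-- A sum over an arithmetic progression against the integral. -/
theorem tsum_prof_progression {A : ℝ} (hA : 0 < A) {s : ℝ} (hs : 1 / 2 < s) {M : ℝ} (hM : 0 < M)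
    (a : ℝ) :
    Summable (fun j : ℤ => prof A s (a + M * j)) ∧
      |M * ∑' j : ℤ, prof A s (a + M * j) - ∫ u, prof A s u| ≤ 2 * M * prof A s 0 := by
  have hs0 : 0 ≤ s := by linarith
  set f := prof A s
  set V := variation A s
  have hint := integrable_prof hA hs
  set u : ℕ → ℕ → ℝ := fun n k => a + M * ((k : ℝ) - n) with hu
  have hstep : ∀ n k, u n (k + 1) = u n k + M := fun n k => by simp [hu]; ring
  have hone : ∀ n k, |M * f (u n k) - ∫ x in u n k..u n (k + 1), f x| ≤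
      M * (V (u n (k + 1)) - V (u n k)) := by
    intro n k
    set p := u n k
    set q := u n (k + 1)
    have hpq : q = p + M := hstep n k
    have e : M * f p - ∫ x in p..q, f x = ∫ x in p..q, (f p - f x) := by
      rw [intervalIntegral.integral_sub intervalIntegrable_const
        ((continuous_prof hA s).intervalIntegrable _ _), intervalIntegral.integral_const,
        smul_eq_mul, hpq, add_sub_cancel_left]
    rw [e, ← Real.norm_eq_abs]
    refine (intervalIntegral.norm_integral_le_of_norm_le_const (C := V q - V p)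
      fun x hx => ?_).trans_eq (by rw [hpq, add_sub_cancel_left, abs_of_pos hM]; ring)
    rw [Set.uIoc_of_le (by linarith), Set.mem_Ioc] at hx
    rw [Real.norm_eq_abs]
    exact (abs_prof_sub_le hA hs0 hx.1.le).trans
      (by linarith [variation_mono hA hs0 hx.2])
  have hfin : ∀ n, |M * ∑ k ∈ Finset.range (2 * n), f (u n k) - ∫ x in u n 0..u n (2 * n), f x| ≤
      2 * M * f 0 := by
    intro n
    rw [← intervalIntegral.sum_integral_adjacent_intervals
      fun k _ => (continuous_prof hA s).intervalIntegrable _ _, Finset.mul_sum,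
      ← Finset.sum_sub_distrib]
    refine (Finset.abs_sum_le_sum_abs _ _).trans ?_
    refine (Finset.sum_le_sum fun k _ => hone n k).trans ?_
    rw [← Finset.mul_sum, Finset.sum_range_sub fun k => V (u n k)]
    have h1 := (variation_mem hA hs0 (u n (2 * n))).2
    have h2 := (variation_mem hA hs0 (u n 0)).1
    nlinarith
  set T : ℕ → Finset ℤ := fun n => (Finset.range (2 * n)).image fun k : ℕ => (k : ℤ) - n
  have hTsum : ∀ n, ∑ j ∈ T n, f (a + M * j) = ∑ k ∈ Finset.range (2 * n), f (u n k) := fun n => by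
    rw [Finset.sum_image fun x _ y _ h => by simpa using h]
    exact Finset.sum_congr rfl fun k _ => by simp [hu]
  have hTmem : ∀ (n : ℕ) (j : ℤ), j ∈ T n ↔ -(n : ℤ) ≤ j ∧ j < n := by
    intro n j
    simp only [T, Finset.mem_image, Finset.mem_range]
    exact ⟨fun ⟨k, hk, hkj⟩ => by omega, fun h => ⟨(j + n).toNat, by omega, by omega⟩⟩
  have hTtop : Tendsto T atTop atTop := by
    refine tendsto_atTop_finset_of_monotone (fun m n h j => ?_) fun j => ⟨j.natAbs + 1, ?_⟩
    · rw [hTmem, hTmem]; omega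
    · rw [hTmem]; omega
  have hbound : ∀ n, ∑ j ∈ T n, f (a + M * j) ≤ ((∫ x, f x) + 2 * M * f 0) / M := fun n => by
    rw [hTsum, le_div_iff₀ hM, mul_comm]
    have h1 := (abs_le.1 (hfin n)).2
    have h2 : ∫ x in u n 0..u n (2 * n), f x ≤ ∫ x, f x := by
      rw [intervalIntegral.integral_of_le (by simp [hu]; nlinarith)]
      exact setIntegral_le_integral hint (Eventually.of_forall fun x => (prof_pos hA s x).le)
    linarith
  have hsum : Summable (fun j : ℤ => f (a + M * j)) := by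
    refine summable_of_sum_le (c := ((∫ x, f x) + 2 * M * f 0) / M) (fun j => (prof_pos hA s _).le) fun U => ?_
    obtain ⟨n, hn⟩ := (hTtop.eventually (eventually_ge_atTop U)).exists
    exact (Finset.sum_le_sum_of_subset_of_nonneg hn fun j _ _ => (prof_pos hA s _).le).trans
      (hbound n)
  refine ⟨hsum, ?_⟩
  have hu0 : Tendsto (fun n => u n 0) atTop atBot := by
    simp only [hu, Nat.cast_zero, zero_sub, mul_neg]
    exact tendsto_atBot_add_const_left _ _
      (tendsto_neg_atTop_atBot.comp (tendsto_natCast_atTop_atTop.const_mul_atTop hM))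
  have hu1 : Tendsto (fun n => u n (2 * n)) atTop atTop := by
    have : (fun n => u n (2 * n)) = fun n : ℕ => a + M * n := funext fun n => by simp only [hu]; push_cast; ring
    rw [this]
    exact tendsto_atTop_add_const_left _ _ (tendsto_natCast_atTop_atTop.const_mul_atTop hM)
  refine le_of_tendsto (Tendsto.abs ((((hsum.hasSum).comp hTtop).const_mul M).sub
    (intervalIntegral_tendsto_integral hint hu0 hu1))) (Eventually.of_forall fun n => ?_)
  simp only [Function.comp_apply, hTsum]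
  exact hfin n

/-- The term of the lattice sum; it vanishes at the origin. -/
def latTerm (τ : ℍ) (s : ℝ) (v : Fin 2 → ℤ) : ℝ :=
  (τ.im / normSq ((v 0 : ℂ) * τ + v 1)) ^ s

theorem latTerm_nonneg (τ : ℍ) (s : ℝ) (v : Fin 2 → ℤ) : 0 ≤ latTerm τ s v :=
  Real.rpow_nonneg (div_nonneg τ.im_pos.le (Complex.normSq_nonneg _)) _

theorem summable_latTerm (τ : ℍ) {s : ℝ} (hs : 1 < s) : Summable (latTerm τ s) := by
  refine Summable.of_nonneg_of_le (latTerm_nonneg τ s) (fun v => ?_)
    (((EisensteinSeries.summable_one_div_norm_rpow (k := 2 * s) (by linarith)).mul_left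
      (EisensteinSeries.r τ ^ (-(2 * s)))).mul_left (τ.im ^ s))
  rw [latTerm, Real.div_rpow τ.im_pos.le (Complex.normSq_nonneg _), div_eq_mul_inv]
  refine mul_le_mul_of_nonneg_left ?_ (Real.rpow_nonneg τ.im_pos.le _)
  rw [Complex.normSq_eq_norm_sq, ← Real.rpow_natCast _ 2, ← Real.rpow_mul (norm_nonneg _),
    ← Real.rpow_neg (norm_nonneg _)]
  push_cast
  exact EisensteinSeries.summand_bound τ (by linarith) v

/-- The lattice sum over the residue class `r`. -/
def latSum (N : ℕ) (r : Fin 2 → ZMod N) (τ : ℍ) (s : ℝ) : ℝ :=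
  ∑' v : Fin 2 → ℤ, if (fun i => (v i : ZMod N)) = r then latTerm τ s v else 0

/-- The common main term. -/
def latMain (N : ℕ) (s : ℝ) : ℝ :=
  betaInt s / N * ∑' j : ℤ, |((N : ℝ) * j)| ^ (1 - 2 * s)

theorem tsum_residue {N : ℕ} [NeZero N] (g : ℤ → ℝ) (b : ℤ) :
    ∑' d : ℤ, (if (d : ZMod N) = (b : ZMod N) then g d else 0) = ∑' j : ℤ, g (b + N * j) := by
  have hN : (N : ℤ) ≠ 0 := Int.natCast_ne_zero.2 (NeZero.ne N)
  have hinj : Function.Injective fun j : ℤ => b + N * j := fun i j h =>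
    mul_left_cancel₀ hN (add_left_cancel h)
  rw [← hinj.tsum_eq]
  · exact tsum_congr fun j => by simp
  · intro d hd
    rw [Function.mem_support] at hd
    have h : (d : ZMod N) = b := by by_contra h; simp [h] at hd
    obtain ⟨j, hj⟩ := (ZMod.intCast_eq_intCast_iff_dvd_sub b d N).1 h.symm
    exact ⟨j, by linarith⟩

theorem latTerm_eq_prof (τ : ℍ) (s : ℝ) (c d : ℤ) :
    latTerm τ s ![c, d] = τ.im ^ s * prof (|(c : ℝ)| * τ.im) s ((c : ℝ) * τ.re + d) := by
  rw [latTerm, prof, Real.div_rpow τ.im_pos.le (Complex.normSq_nonneg _), div_eq_mul_inv]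
  congr 1
  rw [← Real.rpow_neg (Complex.normSq_nonneg _), Complex.normSq_apply]
  congr 1
  simp only [Matrix.cons_val_zero, Matrix.cons_val_one, Complex.add_re, Complex.mul_re,
    Complex.intCast_re, Complex.intCast_im, zero_mul, sub_zero, Complex.add_im, Complex.mul_im,
    add_zero, UpperHalfPlane.coe_re, UpperHalfPlane.coe_im, mul_pow, sq_abs]
  ring

theorem im_rpow_bounds {y s : ℝ} (hy : 4 / 5 ≤ y) (hs : 1 ≤ s) (hs' : s ≤ 3 / 2) :
    (4 / 5 : ℝ) * y ≤ y ^ (3 / 2 : ℝ) ∧ y ^ (-s) ≤ 2 ∧ y ^ s ≤ 2 * y ^ (3 / 2 : ℝ) ∧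
      y ^ (1 - s) ≤ 2 ∧ |y ^ (1 - s) - 1| ≤ 2 * (s - 1) * y := by
  have hy0 : 0 < y := by linarith
  have h1 : (4 / 5 : ℝ) * y ≤ y ^ (3 / 2 : ℝ) := by
    rw [show (3 / 2 : ℝ) = 1 + 1 / 2 by norm_num, Real.rpow_add hy0, Real.rpow_one, mul_comm _ y]
    refine mul_le_mul_of_nonneg_left ?_ hy0.le
    rw [← Real.sqrt_eq_rpow]
    exact le_trans (Real.le_sqrt_of_sq_le (by norm_num)) (Real.sqrt_le_sqrt hy)
  have h54 : ∀ t : ℝ, 0 ≤ t → t ≤ 3 / 2 → y ^ (-t) ≤ 2 := fun t ht ht' => by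
    calc y ^ (-t) ≤ (4 / 5 : ℝ) ^ (-t) := Real.rpow_le_rpow_of_nonpos (by norm_num) hy (by linarith)
      _ = (5 / 4 : ℝ) ^ t := by rw [Real.rpow_neg_eq_inv_rpow]; norm_num
      _ ≤ (5 / 4 : ℝ) ^ (2 : ℝ) := Real.rpow_le_rpow_of_exponent_le (by norm_num) (by linarith)
      _ ≤ 2 := by norm_num
  refine ⟨h1, h54 s (by linarith) hs', ?_, ?_, ?_⟩
  · have : y ^ s = y ^ (3 / 2 : ℝ) * y ^ (-(3 / 2 - s)) := by
      rw [← Real.rpow_add hy0]; congr 1; ring
    rw [this, mul_comm 2 (y ^ (3 / 2 : ℝ))]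
    exact mul_le_mul_of_nonneg_left (h54 _ (by linarith) (by linarith)) (by positivity)
  · rw [show (1 : ℝ) - s = -(s - 1) by ring]
    exact h54 _ (by linarith) (by linarith)
  · rw [show (1 : ℝ) - s = -(s - 1) by ring]
    set u := s - 1
    have hu : 0 ≤ u := by simp [u]; linarith
    rcases le_or_gt 1 y with h | h
    · have h2 : y ^ (-u) ≤ 1 := Real.rpow_le_one_of_one_le_of_nonpos h (by linarith)
      rw [abs_of_nonpos (by linarith), Real.rpow_def_of_pos hy0]
      have h3 := Real.add_one_le_exp (Real.log y * -u)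
      have h4 := Real.log_le_sub_one_of_pos hy0
      nlinarith [mul_le_mul_of_nonneg_left h4 hu]
    · have h2 : 1 ≤ y ^ (-u) := Real.one_le_rpow_of_pos_of_le_one_of_nonpos hy0 h.le (by linarith)
      rw [abs_of_nonneg (by linarith)]
      have h3 : y ^ (-u) ≤ 1 + u * (1 / y - 1) := by
        have h := rpow_one_add_le_one_add_mul_self (s := 1 / y - 1)
          (by linarith [one_div_pos.2 hy0]) (p := u) hu (by simp only [u]; linarith)
        rwa [show 1 + (1 / y - 1) = y⁻¹ by ring, Real.inv_rpow hy0.le,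
          ← Real.rpow_neg hy0.le] at h
      have h5 : 1 / y - 1 ≤ y := by
        rw [sub_le_iff_le_add, div_le_iff₀ hy0]; nlinarith
      nlinarith [mul_le_mul_of_nonneg_left h5 hu]

theorem progression_compare {σ : ℝ} (hσ : 1 < σ) {N : ℕ} (hN : N ≠ 0) {b : ℕ} (hb : 1 ≤ b)
    (hb' : b ≤ N) :
    (∑' j : ℕ, (((N : ℝ) * (j + 1)) ^ (-σ))) ≤ ∑' j : ℕ, ((b : ℝ) + N * j) ^ (-σ) ∧
      (∑' j : ℕ, ((b : ℝ) + N * j) ^ (-σ)) ≤ 1 + ∑' j : ℕ, (((N : ℝ) * (j + 1)) ^ (-σ)) := by
  have hN0 : (0 : ℝ) < N := by exact_mod_cast Nat.pos_of_ne_zero hN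
  have hb0 : (0 : ℝ) < b := by exact_mod_cast hb
  have hbN : (b : ℝ) ≤ N := by exact_mod_cast hb'
  have hH : Summable fun j : ℕ => ((N : ℝ) * (j + 1)) ^ (-σ) := by
    refine Summable.congr (((summable_nat_add_iff 1).2
      (Real.summable_nat_rpow.2 (show -σ < -1 by linarith))).mul_left ((N : ℝ) ^ (-σ))) fun j => ?_
    rw [Real.mul_rpow hN0.le (by positivity)]
    push_cast
    rfl
  have hle : ∀ j : ℕ, ((b : ℝ) + N * (j + 1 : ℕ)) ^ (-σ) ≤ ((N : ℝ) * (j + 1)) ^ (-σ) := fun j => by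
    refine Real.rpow_le_rpow_of_nonpos (by positivity) ?_ (by linarith)
    push_cast
    linarith
  have hB : Summable fun j : ℕ => ((b : ℝ) + N * j) ^ (-σ) :=
    (summable_nat_add_iff 1).1 (Summable.of_nonneg_of_le (fun j => by positivity) hle hH)
  constructor
  · refine hH.tsum_le_tsum (fun j => Real.rpow_le_rpow_of_nonpos (by positivity) ?_ (by linarith)) hB
    nlinarith
  · rw [hB.tsum_eq_zero_add]
    refine add_le_add ?_ (Summable.tsum_le_tsum hle ((summable_nat_add_iff 1).2 hB) hH)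
    rw [Nat.cast_zero, mul_zero, add_zero]
    exact Real.rpow_le_one_of_one_le_of_nonpos (by exact_mod_cast hb) (by linarith)

theorem summable_abs_int_rpow {σ : ℝ} (hσ : 1 < σ) :
    Summable fun c : ℤ => |(c : ℝ)| ^ (-σ) :=
  Real.summable_abs_int_rpow hσ

theorem tsum_int_split {g : ℤ → ℝ} (hg : Summable g) :
    ∑' j : ℤ, g j = (∑' n : ℕ, g (n : ℤ)) + ∑' n : ℕ, g (-((n : ℤ) + 1)) :=
  tsum_of_nat_of_neg_add_one (hg.comp_injective (i := fun n : ℕ => (n : ℤ)) Int.ofNat_injective)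
    (hg.comp_injective (i := fun n : ℕ => -((n : ℤ) + 1)) fun i j h => by simpa using h)

theorem abs_residue_sum_sub_le {σ : ℝ} (hσ : 1 < σ) {N : ℕ} [NeZero N] (a : ZMod N) :
    |(∑' c : ℤ, if (c : ZMod N) = a then |(c : ℝ)| ^ (-σ) else 0) -
      ∑' j : ℤ, |(N : ℝ) * j| ^ (-σ)| ≤ 2 := by
  have hN := NeZero.ne N
  have hN0 : (0 : ℝ) < N := by exact_mod_cast Nat.pos_of_ne_zero hN
  have hN' : (N : ℤ) ≠ 0 := Int.natCast_ne_zero.2 hN
  obtain ⟨b, hb, rfl⟩ : ∃ b : ℕ, b < N ∧ ((b : ℤ) : ZMod N) = a :=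
    ⟨a.val, ZMod.val_lt a, by simp⟩
  rw [tsum_residue (fun c : ℤ => |(c : ℝ)| ^ (-σ)) b]
  rcases Nat.eq_zero_or_pos b with rfl | hb0
  · simp
  have hsum : ∀ b' : ℤ, Summable fun j : ℤ => |((b' + N * j : ℤ) : ℝ)| ^ (-σ) := fun b' =>
    (summable_abs_int_rpow hσ).comp_injective fun i j h => mul_left_cancel₀ hN' (add_left_cancel h)
  have hsum0 : Summable fun j : ℤ => |(N : ℝ) * j| ^ (-σ) :=
    (hsum 0).congr fun j => by push_cast; rw [zero_add]
  have hP := hsum b
  rw [tsum_int_split hP, tsum_int_split hsum0]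
  have e1 : ∀ j : ℕ, |(((b : ℤ) + N * (j : ℤ) : ℤ) : ℝ)| ^ (-σ) = ((b : ℝ) + N * j) ^ (-σ) :=
    fun j => by push_cast; rw [abs_of_nonneg (by positivity)]
  have e2 : ∀ j : ℕ, |(((b : ℤ) + N * (-((j : ℤ) + 1)) : ℤ) : ℝ)| ^ (-σ) =
      (((N - b : ℕ) : ℝ) + N * j) ^ (-σ) := fun j => by
    push_cast [Nat.cast_sub hb.le]
    have : (b : ℝ) < N := by exact_mod_cast hb
    rw [abs_of_nonpos (by nlinarith [Nat.cast_nonneg (α := ℝ) j])]
    ring_nf
  have e3 : ∀ j : ℕ, |(N : ℝ) * ((-((j : ℤ) + 1) : ℤ) : ℝ)| ^ (-σ) = ((N : ℝ) * (j + 1)) ^ (-σ) :=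
    fun j => by push_cast; rw [mul_neg, abs_neg, abs_of_nonneg (by positivity)]
  have e4 : (∑' j : ℕ, |(N : ℝ) * ((j : ℤ) : ℝ)| ^ (-σ)) = ∑' j : ℕ, ((N : ℝ) * (j + 1)) ^ (-σ) := by
    have h := (hsum0.comp_injective (i := fun n : ℕ => (n : ℤ)) Int.ofNat_injective).tsum_eq_zero_add
    simp only [Function.comp_def] at h
    rw [h]
    simp [Real.zero_rpow (by linarith : -σ ≠ 0), abs_of_nonneg, hN0.le, add_nonneg]
  rw [tsum_congr e1, tsum_congr e2, tsum_congr e3, e4]
  obtain ⟨l1, u1⟩ := progression_compare hσ hN hb0 hb.le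
  obtain ⟨l2, u2⟩ := progression_compare hσ hN (b := N - b) (by omega) (Nat.sub_le _ _)
  rw [abs_le]
  constructor <;> linarith

theorem exists_mul_latTail_le : ∃ C : ℝ, 0 ≤ C ∧ ∀ᶠ s in 𝓝[>] (1 : ℝ), ∀ N : ℕ, N ≠ 0 →
    (s - 1) * ∑' j : ℤ, |(N : ℝ) * j| ^ (1 - 2 * s) ≤ C := by
  have h2 : Tendsto (fun s : ℝ => 2 * s - 1) (𝓝[>] 1) (𝓝[>] 1) := by
    refine tendsto_nhdsWithin_iff.mpr ⟨?_, ?_⟩
    · exact ((by fun_prop : Continuous fun s : ℝ => 2 * s - 1).tendsto' 1 1 (by norm_num)).mono_left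
        nhdsWithin_le_nhds
    · filter_upwards [self_mem_nhdsWithin] with s hs
      simp only [Set.mem_Ioi] at hs ⊢
      linarith
  refine ⟨4, by norm_num, ?_⟩
  filter_upwards [(tendsto_sub_mul_tsum_nat_rpow.comp h2).eventually
    (eventually_le_nhds (show (1 : ℝ) < 2 by norm_num)), self_mem_nhdsWithin] with s hs hs1 N hN
  simp only [Function.comp_apply, Set.mem_Ioi] at hs hs1
  have hN1 : (1 : ℝ) ≤ N := by exact_mod_cast Nat.one_le_iff_ne_zero.2 hN
  have hσ : 1 < 2 * s - 1 := by linarith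
  have hle : ∀ j : ℤ, |(N : ℝ) * j| ^ (1 - 2 * s) ≤ |(j : ℝ)| ^ (-(2 * s - 1)) := by
    intro j
    rw [neg_sub]
    rcases eq_or_ne j 0 with rfl | hj
    · simp
    refine Real.rpow_le_rpow_of_nonpos (by positivity) ?_ (by linarith)
    rw [abs_mul, Nat.abs_cast]
    exact le_mul_of_one_le_left (abs_nonneg _) hN1
  have hS := summable_abs_int_rpow hσ
  refine (mul_le_mul_of_nonneg_left
    ((Summable.of_nonneg_of_le (fun j => by positivity) hle hS).tsum_le_tsum hle hS)
    (by linarith)).trans ?_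
  rw [tsum_int_split hS]
  have hn : Summable fun n : ℕ => (n : ℝ) ^ (-(2 * s - 1)) :=
    Real.summable_nat_rpow.2 (by linarith)
  have e1 : (∑' n : ℕ, |((n : ℤ) : ℝ)| ^ (-(2 * s - 1))) = ∑' n : ℕ, 1 / (n : ℝ) ^ (2 * s - 1) :=
    tsum_congr fun n => by
      rw [Int.cast_natCast, Nat.abs_cast, Real.rpow_neg (Nat.cast_nonneg n), one_div]
  have e2 : (∑' n : ℕ, |((-((n : ℤ) + 1) : ℤ) : ℝ)| ^ (-(2 * s - 1))) ≤
      ∑' n : ℕ, 1 / (n : ℝ) ^ (2 * s - 1) := by
    rw [show (∑' n : ℕ, 1 / (n : ℝ) ^ (2 * s - 1)) = ∑' n : ℕ, (n : ℝ) ^ (-(2 * s - 1)) from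
      tsum_congr fun n => by rw [Real.rpow_neg (Nat.cast_nonneg n), one_div], hn.tsum_eq_zero_add]
    refine le_add_of_nonneg_of_le (by positivity) (le_of_eq (tsum_congr fun n => ?_))
    push_cast
    rw [abs_neg, abs_of_nonneg (by positivity)]
  nlinarith [mul_le_mul_of_nonneg_left e2 (show 0 ≤ s - 1 by linarith)]

/-- The lattice sum is `latMain` up to `O(y^{3/2})`, uniformly. -/
theorem exists_abs_latSum_sub_le : ∃ C : ℝ, ∀ᶠ s in 𝓝[>] (1 : ℝ), ∀ (N : ℕ) [NeZero N]
    (r : Fin 2 → ZMod N) (τ : ℍ), 4 / 5 ≤ τ.im →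
      |latSum N r τ s - latMain N s| ≤ C * τ.im ^ (3 / 2 : ℝ) := by
  obtain ⟨C₁, hC₁, htail⟩ := exists_mul_latTail_le
  set Z2 := ∑' c : ℤ, |(c : ℝ)| ^ (-2 : ℝ)
  have hZ2 : Summable fun c : ℤ => |(c : ℝ)| ^ (-2 : ℝ) := summable_abs_int_rpow one_lt_two
  have hZ20 : 0 ≤ Z2 := tsum_nonneg fun c => by positivity
  refine ⟨8 * Z2 + 2 * Z2 + Real.pi * (4 * (25 / 16) + 2 * C₁ * (5 / 4)), ?_⟩
  filter_upwards [htail, Ioc_mem_nhdsGT (show (1 : ℝ) < 3 / 2 by norm_num)] with s hW hs N _ r τ hy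
  obtain ⟨hs1, hs2⟩ := hs
  set y := τ.im
  have hy0 : 0 < y := τ.im_pos
  obtain ⟨hy32, hys, hys', hy1, hyd⟩ := im_rpow_bounds hy hs1.le hs2
  have hN0 : (0 : ℝ) < N := by exact_mod_cast Nat.pos_of_ne_zero (NeZero.ne N)
  have hN1 : (1 : ℝ) ≤ N := by exact_mod_cast Nat.one_le_iff_ne_zero.2 (NeZero.ne N)
  set g : ℤ × ℤ → ℝ := fun q =>
    if (q.1 : ZMod N) = r 0 ∧ (q.2 : ZMod N) = r 1 then latTerm τ s ![q.1, q.2] else 0
  have hgsum : Summable g := by
    refine Summable.of_nonneg_of_le (fun q => ?_) (fun q => ?_)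
      ((summable_latTerm τ hs1).comp_injective (finTwoArrowEquiv ℤ).symm.injective)
    · simp only [g]; split_ifs <;> simp [latTerm_nonneg]
    · simp only [g, Function.comp_apply, finTwoArrowEquiv_symm_apply]
      split_ifs
      · exact le_rfl
      · exact latTerm_nonneg _ _ _
  set I : ℤ → ℝ := fun c => ∑' d : ℤ, g (c, d)
  have hS : latSum N r τ s = ∑' c, I c := by
    rw [← hgsum.tsum_prod' fun c => hgsum.comp_injective (Prod.mk_right_injective c), latSum,
      ← (finTwoArrowEquiv ℤ).symm.tsum_eq]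
    refine tsum_congr fun q => ?_
    simp only [g, finTwoArrowEquiv_symm_apply, funext_iff, Fin.forall_fin_two, Matrix.cons_val_zero,
      Matrix.cons_val_one]
  have hIsum : Summable I := hgsum.prod
  set β := betaInt s
  set m : ℤ → ℝ := fun c => if (c : ZMod N) = r 0 then |(c : ℝ)| ^ (-(2 * s - 1)) else 0
  have hmsum : Summable m :=
    Summable.of_nonneg_of_le (fun c => by simp only [m]; split_ifs <;> positivity)
      (fun c => by simp only [m]; split_ifs; exacts [le_rfl, by positivity])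
      (summable_abs_int_rpow (by linarith : 1 < 2 * s - 1))
  have hkey : ∀ c : ℤ, |I c - β / N * y ^ (1 - s) * m c| ≤
      4 * |(c : ℝ)| ^ (-2 : ℝ) + if c = 0 then 2 * y ^ (3 / 2 : ℝ) * Z2 else 0 := by
    intro c
    by_cases hca : (c : ZMod N) = r 0
    swap
    · have hI0 : I c = 0 := by simp [I, g, hca]
      rw [hI0]
      simp only [m, if_neg hca, mul_zero, sub_zero, abs_zero]
      split_ifs <;> positivity
    rcases eq_or_ne c 0 with rfl | hc
    · have hm0 : m 0 = 0 := by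
        simp only [m, if_pos hca, Int.cast_zero, abs_zero]
        exact Real.zero_rpow (by linarith)
      rw [hm0, mul_zero, sub_zero, abs_of_nonneg (tsum_nonneg fun d => by
        simp only [g]; split_ifs <;> simp [latTerm_nonneg]), if_pos rfl]
      refine le_add_of_nonneg_of_le (by positivity) ?_
      calc I 0 ≤ ∑' d : ℤ, y ^ s * |(d : ℝ)| ^ (-2 : ℝ) := by
            refine (hgsum.comp_injective (Prod.mk_right_injective 0)).tsum_le_tsum (fun d => ?_)
              (hZ2.mul_left _)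
            simp only [g]
            split_ifs
            swap
            · positivity
            rcases eq_or_ne d 0 with rfl | hd
            · simp [latTerm, Real.zero_rpow (by linarith : s ≠ 0)]
            simp only [latTerm, Matrix.cons_val_zero, Matrix.cons_val_one, Int.cast_zero, zero_mul,
              zero_add]
            rw [show normSq ((d : ℂ)) = |(d : ℝ)| ^ 2 by
              rw [← Complex.ofReal_intCast, Complex.normSq_ofReal, sq_abs]; ring,
              Real.div_rpow hy0.le (by positivity), div_eq_mul_inv,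
              ← Real.rpow_natCast _ 2, ← Real.rpow_mul (abs_nonneg _), ← Real.rpow_neg (abs_nonneg _)]
            refine mul_le_mul_of_nonneg_left (Real.rpow_le_rpow_of_exponent_le ?_ ?_) (by positivity)
            · exact_mod_cast Int.one_le_abs hd
            · push_cast; linarith
        _ ≤ _ := by rw [tsum_mul_left]; exact mul_le_mul_of_nonneg_right hys' hZ20
    rw [if_neg hc, add_zero]
    set A := |(c : ℝ)| * y
    have hA : 0 < A := mul_pos (abs_pos.2 (Int.cast_ne_zero.2 hc)) hy0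
    obtain ⟨b, hb⟩ := ZMod.intCast_surjective (r 1)
    have hI : I c = y ^ s * ∑' j : ℤ, prof A s ((c : ℝ) * τ.re + b + N * j) := by
      simp only [I, g, hca, true_and, ← hb]
      rw [tsum_residue (fun d => latTerm τ s ![c, d]) b, ← tsum_mul_left]
      refine tsum_congr fun j => ?_
      rw [latTerm_eq_prof]
      push_cast
      rw [add_assoc]
    obtain ⟨-, h1⟩ := tsum_prof_progression hA (by linarith : 1 / 2 < s) hN0 ((c : ℝ) * τ.re + b)
    rw [integral_prof hA] at h1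
    have e1 : y ^ s * A ^ (1 - 2 * s) = y ^ (1 - s) * |(c : ℝ)| ^ (-(2 * s - 1)) := by
      rw [Real.mul_rpow (abs_nonneg _) hy0.le, ← mul_assoc, mul_comm (y ^ s), mul_assoc,
        ← Real.rpow_add hy0, neg_sub, mul_comm (y ^ (1 - s))]
      congr 2
      ring
    have e2 : y ^ s * prof A s 0 = y ^ (-s) * |(c : ℝ)| ^ (-(2 * s)) := by
      rw [prof, show (0 : ℝ) ^ 2 + A ^ 2 = A ^ 2 by ring, ← Real.rpow_natCast A 2,
        ← Real.rpow_mul hA.le, Real.mul_rpow (abs_nonneg _) hy0.le, ← mul_assoc,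
        mul_comm (y ^ s), mul_assoc, ← Real.rpow_add hy0, mul_comm (y ^ (-s))]
      push_cast
      congr 2 <;> ring_nf
    set Sj := ∑' j : ℤ, prof A s ((c : ℝ) * τ.re + b + N * j)
    have h2 : |I c - β / N * y ^ (1 - s) * m c| ≤ 2 * (y ^ s * prof A s 0) := by
      have e3 : I c - β / N * y ^ (1 - s) * m c =
          y ^ s / N * ((N : ℝ) * Sj - A ^ (1 - 2 * s) * betaInt s) := by
        simp only [hI, m, if_pos hca]
        have : y ^ s / N * (A ^ (1 - 2 * s) * betaInt s) =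
            β / N * (y ^ s * A ^ (1 - 2 * s)) := by simp only [β]; ring
        rw [mul_sub, this, e1]
        field_simp
      rw [e3, abs_mul, abs_of_nonneg (show 0 ≤ y ^ s / N by positivity)]
      refine (mul_le_mul_of_nonneg_left h1 (by positivity)).trans (le_of_eq ?_)
      field_simp
    rw [e2] at h2
    refine h2.trans ?_
    rw [← mul_assoc]
    refine mul_le_mul (by linarith) (Real.rpow_le_rpow_of_exponent_le ?_ (by linarith))
      (by positivity) (by norm_num)
    exact_mod_cast Int.one_le_abs hc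
  have he : HasSum (fun c : ℤ => 4 * |(c : ℝ)| ^ (-2 : ℝ) +
      if c = 0 then 2 * y ^ (3 / 2 : ℝ) * Z2 else 0) (4 * Z2 + 2 * y ^ (3 / 2 : ℝ) * Z2) :=
    (hZ2.hasSum.mul_left 4).add (hasSum_ite_eq 0 _)
  have h3 : |latSum N r τ s - β / N * y ^ (1 - s) * ∑' c, m c| ≤
      4 * Z2 + 2 * y ^ (3 / 2 : ℝ) * Z2 := by
    rw [hS, ← tsum_mul_left, ← hIsum.tsum_sub (hmsum.mul_left _), ← Real.norm_eq_abs]
    exact tsum_of_norm_bounded he fun c => by rw [Real.norm_eq_abs]; exact hkey c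
  set P := ∑' c, m c
  set W := ∑' j : ℤ, |(N : ℝ) * j| ^ (1 - 2 * s)
  have hPW : |P - W| ≤ 2 := by
    have := abs_residue_sum_sub_le (σ := 2 * s - 1) (by linarith) (N := N) (r 0)
    rw [neg_sub] at this
    simpa [P, W, m, neg_sub] using this
  have hW0 : 0 ≤ W := tsum_nonneg fun j => by positivity
  have h4 : |β / N * y ^ (1 - s) * P - latMain N s| ≤
      Real.pi * (4 * (25 / 16) + 2 * C₁ * (5 / 4)) * y ^ (3 / 2 : ℝ) := by
    rw [show β / N * y ^ (1 - s) * P - latMain N s =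
      β / N * (y ^ (1 - s) * (P - W) + (y ^ (1 - s) - 1) * W) by simp only [latMain, β, W]; ring,
      abs_mul]
    have hβ : |β / N| ≤ Real.pi := by
      rw [abs_of_nonneg (div_nonneg (betaInt_nonneg s) hN0.le)]
      exact (div_le_self (betaInt_nonneg s) hN1).trans (betaInt_le_pi hs1.le)
    rw [mul_assoc Real.pi]
    refine mul_le_mul hβ ((abs_add_le _ _).trans ?_) (abs_nonneg _) Real.pi_pos.le
    rw [abs_mul, abs_mul, abs_of_nonneg hW0, abs_of_nonneg (show 0 ≤ y ^ (1 - s) by positivity)]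
    have h5 : y ^ (1 - s) * |P - W| ≤ 2 * 2 := mul_le_mul hy1 hPW (abs_nonneg _) zero_le_two
    have h6 : |y ^ (1 - s) - 1| * W ≤ 2 * y * C₁ :=
      calc |y ^ (1 - s) - 1| * W ≤ 2 * (s - 1) * y * W := mul_le_mul_of_nonneg_right hyd hW0
        _ = 2 * y * ((s - 1) * W) := by ring
        _ ≤ _ := mul_le_mul_of_nonneg_left (hW N (NeZero.ne N)) (by positivity)
    nlinarith
  calc |latSum N r τ s - latMain N s|
      ≤ |latSum N r τ s - β / N * y ^ (1 - s) * P| + |β / N * y ^ (1 - s) * P - latMain N s| :=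
        abs_sub_le _ _ _
    _ ≤ _ := add_le_add h3 h4
    _ ≤ _ := by nlinarith

end FermatAgent.LT.Period
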