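import Fermat.Agent.LT.Period.Data
import Fermat.Agent.LT.Period.LatticeSum
import Fermat.Agent.LT.Period.Fundamental
import Fermat.Agent.LT.Period.Analytic

set_option autoImplicit false

/-!
# Unfolding a form of level `N` against the Eisenstein series
-/

noncomputable section

open MeasureTheory Filter Topology
open scoped MatrixGroups Modular Classical
open UpperHalfPlane

namespace FermatAgent.LT.Period

attribute [local instance] countable_slz

/-- An element of `SL₂(ℤ)` over the Eisenstein integers. -/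
def eisMat : SL(2, ℤ) →* GL (Fin 2) EisInt := Matrix.SpecialLinearGroup.mapGL EisInt

/-- An element of `SL₂(ℤ)` modulo `N`. -/
def modMat (N : ℕ) : SL(2, ℤ) →* GL (Fin 2) (ZMod N) := Matrix.SpecialLinearGroup.mapGL (ZMod N)

theorem redMat_eisMat (N : ℕ) (g : SL(2, ℤ)) :
    redMat N (eisMat g) = zmodMat N (modMat N g) := by
  refine Units.ext (Matrix.ext fun i j => ?_)
  simp [redMat, zmodMat, eisMat, modMat, Matrix.SpecialLinearGroup.mapGL,
    Matrix.GeneralLinearGroup.map_apply]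

theorem modMat_apply (N : ℕ) (g : SL(2, ℤ)) (i j : Fin 2) :
    (modMat N g : Matrix (Fin 2) (Fin 2) (ZMod N)) i j =
      (((g : Matrix (Fin 2) (Fin 2) ℤ) i j : ℤ) : ZMod N) := by
  simp [modMat, Matrix.SpecialLinearGroup.mapGL]

theorem cplxMat_eisMat_apply (g : SL(2, ℤ)) (i j : Fin 2) :
    (cplxMat (eisMat g) : Matrix (Fin 2) (Fin 2) ℂ) i j =
      (((g : Matrix (Fin 2) (Fin 2) ℤ) i j : ℤ) : ℂ) := by
  simp [cplxMat, eisMat, Matrix.SpecialLinearGroup.mapGL, Matrix.GeneralLinearGroup.map_apply]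

theorem ofUHP_smul (g : SL(2, ℤ)) (τ : ℍ) :
    H3.ofUHP (g • τ) = cplxMat (eisMat g) • H3.ofUHP τ := by
  have hd := g.det_coe
  rw [Matrix.det_fin_two] at hd
  set a : ℤ := (g : Matrix (Fin 2) (Fin 2) ℤ) 0 0 with ha
  set b : ℤ := (g : Matrix (Fin 2) (Fin 2) ℤ) 0 1 with hb
  set c : ℤ := (g : Matrix (Fin 2) (Fin 2) ℤ) 1 0 with hc
  set d : ℤ := (g : Matrix (Fin 2) (Fin 2) ℤ) 1 1 with hd'
  have hden : H3.den (cplxMat (eisMat g)) (H3.ofUHP τ) =
      Complex.normSq ((c : ℂ) * τ + d) := by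
    simp only [H3.den, H3.ofUHP, cplxMat_eisMat_apply, ← hc, ← hd', Complex.normSq_apply,
      Complex.add_re, Complex.add_im, Complex.mul_re, Complex.mul_im, Complex.intCast_re,
      Complex.intCast_im, Complex.ofReal_re, Complex.ofReal_im, UpperHalfPlane.coe_re,
      UpperHalfPlane.coe_im]
    ring
  have hcoe : ((g • τ : ℍ) : ℂ) = ((a : ℂ) * τ + b) / ((c : ℂ) * τ + d) := by
    rw [UpperHalfPlane.coe_specialLinearGroup_apply]
    simp [ha, hb, hc, hd']
  rw [H3.smul_def]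
  refine H3.ext ?_ ?_
  · show ((g • τ).re : ℂ) = _
    simp only [H3.act, hden]
    rw [← UpperHalfPlane.coe_re, hcoe]
    simp only [H3.ofUHP, cplxMat_eisMat_apply, ← ha, ← hb, ← hc, ← hd']
    rw [Complex.div_re, ← add_div, Complex.ofReal_div]
    congr 1
    apply Complex.ext <;> simp [← Complex.ofReal_pow]
    ring
  · show (g • τ).im = _
    simp only [H3.act, hden]
    rw [← UpperHalfPlane.coe_im, hcoe, Matrix.det_fin_two]
    simp only [H3.ofUHP, cplxMat_eisMat_apply, ← ha, ← hb, ← hc, ← hd']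
    have hn : ‖(a : ℂ) * d - b * c‖ = 1 := by
      rw [show (a : ℂ) * d - b * c = ((a * d - b * c : ℤ) : ℂ) by push_cast; ring, hd]
      simp
    rw [hn, one_mul, Complex.div_im]
    simp only [Complex.add_re, Complex.add_im, Complex.mul_re, Complex.mul_im, Complex.intCast_re,
      Complex.intCast_im, UpperHalfPlane.coe_re, UpperHalfPlane.coe_im]
    have hdR : (a : ℝ) * d - b * c = 1 := by exact_mod_cast hd
    rw [← sub_div]
    congr 1
    linear_combination τ.im * hdR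

theorem continuous_ofUHP : Continuous H3.ofUHP := by
  rw [continuous_induced_rng]
  exact (Complex.continuous_ofReal.comp UpperHalfPlane.continuous_re).prodMk
    UpperHalfPlane.continuous_im

theorem im_smul_primRep (v : Prim) (τ : ℍ) (s : ℝ) :
    (primRep v • τ).im ^ s = latTerm τ s v.1 := by
  rw [ModularGroup.im_smul_eq_div_normSq, latTerm]
  congr 3
  simp only [UpperHalfPlane.denom]
  rw [← primRep_row v]
  simp

theorem latTerm_smul_nat (τ : ℍ) (s : ℝ) (k : ℕ) (v : Fin 2 → ℤ) :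
    latTerm τ s (fun i => (k : ℤ) * v i) = (k : ℝ) ^ (-(2 * s)) * latTerm τ s v := by
  unfold latTerm
  have e : Complex.normSq ((((k : ℤ) * v 0 : ℤ) : ℂ) * τ + (((k : ℤ) * v 1 : ℤ) : ℂ)) =
      (k : ℝ) ^ 2 * Complex.normSq ((v 0 : ℂ) * τ + v 1) := by
    rw [show (((k : ℤ) * v 0 : ℤ) : ℂ) * τ + (((k : ℤ) * v 1 : ℤ) : ℂ) =
      (k : ℂ) * ((v 0 : ℂ) * τ + v 1) by push_cast; ring, map_mul, Complex.normSq_natCast]
    ring
  rw [e, show τ.im / ((k : ℝ) ^ 2 * Complex.normSq ((v 0 : ℂ) * τ + v 1)) =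
    ((k : ℝ) ^ 2)⁻¹ * (τ.im / Complex.normSq ((v 0 : ℂ) * τ + v 1)) by ring,
    Real.mul_rpow (by positivity) (div_nonneg τ.im_pos.le (Complex.normSq_nonneg _))]
  congr 1
  rw [Real.inv_rpow (by positivity), ← Real.rpow_natCast (k : ℝ) 2,
    ← Real.rpow_mul (Nat.cast_nonneg k), ← Real.rpow_neg (Nat.cast_nonneg k)]
  norm_num

theorem latTerm_zero (τ : ℍ) {s : ℝ} (hs : 0 < s) : latTerm τ s 0 = 0 := by
  simp [latTerm, Real.zero_rpow hs.ne']

variable {N : ℕ} [NeZero N]

/-- The row attached to a residue matrix. -/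
def rowVec (h : GL (Fin 2) (ZMod N)) : Fin 2 → ZMod N :=
  fun i => ((h⁻¹ : GL (Fin 2) (ZMod N)) : Matrix (Fin 2) (Fin 2) (ZMod N)) 1 i

/-- A component of `v h`. -/
def rowMul (v : Fin 2 → ℤ) (h : GL (Fin 2) (ZMod N)) (j : Fin 2) : ZMod N :=
  (v 0 : ZMod N) * (h : Matrix (Fin 2) (Fin 2) (ZMod N)) 0 j +
    (v 1 : ZMod N) * (h : Matrix (Fin 2) (Fin 2) (ZMod N)) 1 j

/-- `∑ k^{-2s}` over `k` prime to `N`. -/
def coprimeSum (N : ℕ) (s : ℝ) : ℝ :=
  ∑' k : ℕ, if k.Coprime N then (k : ℝ) ^ (-(2 * s)) else 0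

theorem summable_coprimeSum (N : ℕ) {s : ℝ} (hs : 1 < s) :
    Summable fun k : ℕ => if k.Coprime N then (k : ℝ) ^ (-(2 * s)) else 0 :=
  Summable.of_nonneg_of_le (fun k => by split_ifs <;> positivity)
    (fun k => by split_ifs; exacts [le_rfl, by positivity])
    (Real.summable_nat_rpow.2 (show -(2 * s) < -1 by linarith))

theorem one_le_coprimeSum (N : ℕ) {s : ℝ} (hs : 1 < s) : 1 ≤ coprimeSum N s := by
  have := (summable_coprimeSum N hs).le_tsum 1 fun k _ => by split_ifs <;> positivity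
  simpa [coprimeSum] using this

omit [NeZero N] in
theorem rowVec_mul (h : GL (Fin 2) (ZMod N)) :
    rowVec h 0 * (h : Matrix (Fin 2) (Fin 2) (ZMod N)) 0 0 +
        rowVec h 1 * (h : Matrix (Fin 2) (Fin 2) (ZMod N)) 1 0 = 0 ∧
      rowVec h 0 * (h : Matrix (Fin 2) (Fin 2) (ZMod N)) 0 1 +
        rowVec h 1 * (h : Matrix (Fin 2) (Fin 2) (ZMod N)) 1 1 = 1 := by
  have e : ((h⁻¹ : GL (Fin 2) (ZMod N)) : Matrix (Fin 2) (Fin 2) (ZMod N)) *
      (h : Matrix (Fin 2) (Fin 2) (ZMod N)) = 1 := h.inv_mul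
  have e0 := congrFun (congrFun e 1) 0
  have e1 := congrFun (congrFun e 1) 1
  rw [Matrix.mul_apply, Fin.sum_univ_two] at e0 e1
  rw [Matrix.one_apply_ne (by decide : (1 : Fin 2) ≠ 0)] at e0
  rw [Matrix.one_apply_eq] at e1
  exact ⟨e0, e1⟩

omit [NeZero N] in
theorem row_eq_iff (v : Fin 2 → ℤ) (h : GL (Fin 2) (ZMod N)) (u : ZMod N) :
    ((fun i => (v i : ZMod N)) = fun i => u * rowVec h i) ↔
      rowMul v h 0 = 0 ∧ rowMul v h 1 = u := by
  obtain ⟨e0, e1⟩ := rowVec_mul h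
  have e : (h : Matrix (Fin 2) (Fin 2) (ZMod N)) *
      ((h⁻¹ : GL (Fin 2) (ZMod N)) : Matrix (Fin 2) (Fin 2) (ZMod N)) = 1 := h.mul_inv
  constructor
  · intro hv
    simp only [funext_iff, Fin.forall_fin_two] at hv
    simp only [rowMul, hv.1, hv.2]
    exact ⟨by linear_combination u * e0, by linear_combination u * e1⟩
  · rintro ⟨h0, h1⟩
    funext i
    have ei0 := congrFun (congrFun e 0) i
    have ei1 := congrFun (congrFun e 1) i
    rw [Matrix.mul_apply, Fin.sum_univ_two] at ei0 ei1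
    simp only [rowMul] at h0 h1
    simp only [rowVec]
    set R := ((h⁻¹ : GL (Fin 2) (ZMod N)) : Matrix (Fin 2) (Fin 2) (ZMod N))
    have hvi : ∀ j, (v j : ZMod N) = (v 0 : ZMod N) * (1 : Matrix (Fin 2) (Fin 2) (ZMod N)) 0 j +
        (v 1 : ZMod N) * (1 : Matrix (Fin 2) (Fin 2) (ZMod N)) 1 j :=
      Fin.forall_fin_two.2 ⟨by simp, by simp⟩
    linear_combination hvi i - (v 0 : ZMod N) * ei0 - (v 1 : ZMod N) * ei1 + R 0 i * h0 + R 1 i * h1

theorem exists_nat_mul_prim (v : Fin 2 → ℤ) (hv : v ≠ 0) :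
    ∃ (k : ℕ) (w : Prim), 0 < k ∧ v = fun i => (k : ℤ) * w.1 i := by
  have hg : 0 < Int.gcd (v 0) (v 1) := Int.gcd_pos_iff.2 (by
    by_contra h
    push Not at h
    exact hv (funext fun i => by fin_cases i <;> simp [h.1, h.2]))
  obtain ⟨a, b, hab, h0, h1⟩ := Int.exists_gcd_one hg
  refine ⟨Int.gcd (v 0) (v 1), ⟨![a, b], by simpa using Int.isCoprime_iff_gcd_eq_one.2 hab⟩, hg, ?_⟩
  funext i
  fin_cases i <;> simp only [Fin.zero_eta, Fin.mk_one, Matrix.cons_val_zero, Matrix.cons_val_one]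
  · conv_lhs => rw [h0]
    exact mul_comm _ _
  · conv_lhs => rw [h1]
    exact mul_comm _ _

theorem nat_mul_prim_injective :
    Function.Injective fun q : {k : ℕ // 0 < k} × Prim => fun i => (q.1.1 : ℤ) * q.2.1 i := by
  rintro ⟨⟨k, hk⟩, v⟩ ⟨⟨l, hl⟩, w⟩ h
  simp only [funext_iff, Fin.forall_fin_two] at h
  have key : ∀ (k l : ℕ) (v w : Prim), (k : ℤ) * v.1 0 = l * w.1 0 → (k : ℤ) * v.1 1 = l * w.1 1 →
      (k : ℤ) ∣ l := by
    intro k l v w h0 h1
    obtain ⟨a, b, hab⟩ := w.2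
    exact ⟨a * v.1 0 + b * v.1 1, by linear_combination (-(l : ℤ)) * hab - a * h0 - b * h1⟩
  have hkl : k = l := Nat.dvd_antisymm (Int.natCast_dvd_natCast.1 (key k l v w h.1 h.2))
    (Int.natCast_dvd_natCast.1 (key l k w v h.1.symm h.2.symm))
  subst hkl
  refine Prod.ext rfl (Subtype.ext (funext fun i => ?_))
  fin_cases i
  · exact mul_left_cancel₀ (Int.natCast_ne_zero.2 hk.ne') h.1
  · exact mul_left_cancel₀ (Int.natCast_ne_zero.2 hk.ne') h.2

theorem row_cond_iff (h : GL (Fin 2) (ZMod N)) (k : ℕ) (w : Prim) :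
    (∃ e : (ZMod N)ˣ, (fun i => (((k : ℤ) * w.1 i : ℤ) : ZMod N)) =
        fun i => (e : ZMod N) * rowVec h i) ↔ k.Coprime N ∧ rowMul w.1 h 0 = 0 := by
  have hlin : ∀ j, rowMul (fun i => (k : ℤ) * w.1 i) h j = (k : ZMod N) * rowMul w.1 h j := by
    intro j
    simp only [rowMul]
    push_cast
    ring
  constructor
  · rintro ⟨e, he⟩
    obtain ⟨h0, h1⟩ := (row_eq_iff (fun i => (k : ℤ) * w.1 i) h e).1 he
    rw [hlin] at h0 h1
    have hk : IsUnit (k : ZMod N) := isUnit_of_mul_isUnit_left (h1 ▸ e.isUnit)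
    exact ⟨(ZMod.isUnit_iff_coprime k N).1 hk, hk.mul_right_eq_zero.1 h0⟩
  · rintro ⟨hk, h0⟩
    have hrow := (row_eq_iff w.1 h (rowMul w.1 h 1)).2 ⟨h0, rfl⟩
    simp only [funext_iff, Fin.forall_fin_two] at hrow
    obtain ⟨a, b, hab⟩ := w.2
    have hab' : (a : ZMod N) * (w.1 0 : ZMod N) + b * (w.1 1 : ZMod N) = 1 := by
      exact_mod_cast congrArg (Int.cast : ℤ → ZMod N) hab
    have hu : IsUnit (rowMul w.1 h 1) :=
      IsUnit.of_mul_eq_one ((a : ZMod N) * rowVec h 0 + b * rowVec h 1) (by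
        rw [hrow.1, hrow.2] at hab'
        linear_combination hab')
    refine ⟨(((ZMod.isUnit_iff_coprime k N).2 hk).mul hu).unit, ?_⟩
    refine (row_eq_iff _ h _).2 ⟨?_, ?_⟩
    · rw [hlin, h0, mul_zero]
    · rw [hlin, IsUnit.unit_spec]

/-- The sum over primitive vectors with vanishing first component modulo `N` as lattice sums. -/
theorem coprimeSum_mul_tsum (h : GL (Fin 2) (ZMod N)) (τ : ℍ) {s : ℝ} (hs : 1 < s) :
    coprimeSum N s * ∑' w : Prim, (if rowMul w.1 h 0 = 0 then latTerm τ s w.1 else 0) =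
      ∑ e : (ZMod N)ˣ, latSum N (fun i => (e : ZMod N) * rowVec h i) τ s := by
  have hlat := summable_latTerm τ hs
  set C : (Fin 2 → ℤ) → Prop := fun v =>
    ∃ e : (ZMod N)ˣ, (fun i => (v i : ZMod N)) = fun i => (e : ZMod N) * rowVec h i with hC
  have hR : ∑ e : (ZMod N)ˣ, latSum N (fun i => (e : ZMod N) * rowVec h i) τ s =
      ∑' v : Fin 2 → ℤ, if C v then latTerm τ s v else 0 := by
    unfold latSum
    rw [← Summable.tsum_finsetSum fun e _ => Summable.of_nonneg_of_le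
      (fun v => by split_ifs <;> simp [latTerm_nonneg])
      (fun v => by split_ifs; exacts [le_rfl, latTerm_nonneg _ _ _]) hlat]
    refine tsum_congr fun v => ?_
    by_cases hv : C v
    · obtain ⟨e₀, he₀⟩ := hv
      rw [if_pos (show C v from ⟨e₀, he₀⟩), Finset.sum_eq_single e₀, if_pos he₀]
      · intro e _ hne
        refine if_neg fun he => hne (Units.ext ?_)
        rw [← ((row_eq_iff v h e).1 he).2, ((row_eq_iff v h e₀).1 he₀).2]
      · simp
    · rw [if_neg hv]
      exact Finset.sum_eq_zero fun e _ => if_neg fun he => hv ⟨e, he⟩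
  rw [hR, ← nat_mul_prim_injective.tsum_eq]
  swap
  · intro v hv
    have hv0 : v ≠ 0 := by
      rintro rfl
      rw [Function.mem_support, latTerm_zero τ (by linarith)] at hv
      simp at hv
    obtain ⟨k, w, hk, rfl⟩ := exists_nat_mul_prim v hv0
    exact ⟨(⟨k, hk⟩, w), rfl⟩
  set f : {k : ℕ // 0 < k} → ℝ := fun k => if k.1.Coprime N then (k.1 : ℝ) ^ (-(2 * s)) else 0
  set g : Prim → ℝ := fun w => if rowMul w.1 h 0 = 0 then latTerm τ s w.1 else 0
  have hterm : ∀ q : {k : ℕ // 0 < k} × Prim,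
      (if C (fun i => (q.1.1 : ℤ) * q.2.1 i) then latTerm τ s (fun i => (q.1.1 : ℤ) * q.2.1 i)
        else 0) = f q.1 * g q.2 := fun q => by
    simp only [hC, row_cond_iff, latTerm_smul_nat, f, g]
    split_ifs <;> simp_all
  rw [tsum_congr hterm]
  have hf : Summable f := (summable_coprimeSum N hs).comp_injective Subtype.val_injective
  have hg : Summable g := Summable.of_nonneg_of_le
    (fun w => by simp only [g]; split_ifs <;> simp [latTerm_nonneg])
    (fun w => by simp only [g]; split_ifs; exacts [le_rfl, latTerm_nonneg _ _ _])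
    (hlat.comp_injective Subtype.val_injective)
  have hfg : Summable fun q : {k : ℕ // 0 < k} × Prim => f q.1 * g q.2 :=
    hf.mul_of_nonneg hg (fun k => by simp only [f, Pi.zero_apply]; split_ifs <;> positivity)
      (fun w => by simp only [g, Pi.zero_apply]; split_ifs <;> simp [latTerm_nonneg])
  rw [← hf.tsum_mul_tsum hg hfg]
  congr 1
  refine ((Subtype.val_injective (p := fun k : ℕ => 0 < k)).tsum_eq fun k hk => ?_).symm
  refine ⟨⟨k, Nat.pos_of_ne_zero fun h0 => ?_⟩, rfl⟩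
  subst h0
  simp [Real.zero_rpow (by linarith : -(2 * s) ≠ 0)] at hk

variable (B : PeriodData N)

/-- The form on the upper half plane. -/
def uhpForm (τ : ℍ) (h : GL (Fin 2) (ZMod N)) : ℂ :=
  B.φ (H3.ofUHP τ) (zmodMat N h)

omit [NeZero N] in
theorem uhpForm_smul (g : SL(2, ℤ)) (τ : ℍ) (h : GL (Fin 2) (ZMod N)) :
    uhpForm B (g • τ) (modMat _ g * h) = uhpForm B τ h := by
  rw [uhpForm, uhpForm, ofUHP_smul, map_mul, ← redMat_eisMat, B.invariant]

omit [NeZero N] in
theorem continuous_uhpForm (h : GL (Fin 2) (ZMod N)) :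
    Continuous fun τ => uhpForm B τ h := (B.continuous _).comp continuous_ofUHP

theorem exists_norm_uhpForm_le : ∃ D : ℝ, 0 ≤ D ∧ ∀ τ h, ‖uhpForm B τ h‖ * (1 + τ.im) ≤ D := by
  obtain ⟨M, hM⟩ := B.bounded
  choose C hC using B.decay
  set D := fun h => 2 * max |M| |C (zmodMat N h)|
  refine ⟨∑ h : GL (Fin 2) (ZMod N), D h,
    Finset.sum_nonneg fun h _ => by simp only [D]; positivity, fun τ h => ?_⟩
  refine le_trans ?_ (Finset.single_le_sum (f := D) (fun h _ => by simp only [D]; positivity)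
    (Finset.mem_univ h))
  set v := ‖uhpForm B τ h‖
  have hv : 0 ≤ v := norm_nonneg _
  have h1 : v ≤ |M| := (hM _ _).trans (le_abs_self _)
  have hy := τ.im_pos
  simp only [D]
  rcases le_or_gt 1 τ.im with hy1 | hy1
  · have h2 := hC (zmodMat N h) (H3.ofUHP τ) hy1
    rw [le_div_iff₀ (H3.ofUHP τ).t_pos] at h2
    have h3 : v * τ.im ≤ |C (zmodMat N h)| := h2.trans (le_abs_self _)
    nlinarith [le_max_left |M| |C (zmodMat N h)|, le_max_right |M| |C (zmodMat N h)|]
  · nlinarith [le_max_left |M| |C (zmodMat N h)|]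

/-- The sum over the upper triangular residue matrices. -/
def borelSum (τ : ℍ) : ℂ :=
  ∑ h : GL (Fin 2) (ZMod N),
    if (h : Matrix (Fin 2) (Fin 2) (ZMod N)) 1 0 = 0 then uhpForm B τ h else 0

/-- The unfolded integrand. -/
def stripFun (s : ℝ) (τ : ℍ) : ℂ := ((τ.im ^ s : ℝ) : ℂ) * borelSum B τ

theorem borelSum_smul (g : SL(2, ℤ)) (τ : ℍ) :
    borelSum B (g • τ) = ∑ h : GL (Fin 2) (ZMod N),
      if rowMul ((g : Matrix (Fin 2) (Fin 2) ℤ) 1) h 0 = 0 then uhpForm B τ h else 0 := by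
  unfold borelSum
  rw [← Equiv.sum_comp (Equiv.mulLeft (modMat N g))]
  refine Finset.sum_congr rfl fun h _ => ?_
  rw [Equiv.coe_mulLeft, uhpForm_smul]
  congr 1
  rw [Matrix.GeneralLinearGroup.coe_mul, Matrix.mul_apply, Fin.sum_univ_two, modMat_apply,
    modMat_apply]
  rfl

theorem stripFun_T (s : ℝ) (n : ℤ) (τ : ℍ) :
    stripFun B s (ModularGroup.T ^ n • τ) = stripFun B s τ := by
  rw [stripFun, stripFun, ModularGroup.im_T_zpow_smul, borelSum_smul]
  congr 1
  refine Finset.sum_congr rfl fun h _ => ?_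
  congr 1
  simp [rowMul, ModularGroup.coe_T_zpow]

theorem continuous_stripFun (s : ℝ) : Continuous (stripFun B s) := by
  refine (Complex.continuous_ofReal.comp (UpperHalfPlane.continuous_im.rpow_const
    fun τ => Or.inl τ.im_pos.ne')).mul (continuous_finsetSum _ fun h _ => ?_)
  split_ifs
  · exact continuous_uhpForm B h
  · exact continuous_const

theorem exists_norm_stripFun_le : ∃ D : ℝ, ∀ s τ, ‖stripFun B s τ‖ ≤ D * (τ.im ^ s / (1 + τ.im)) := by
  obtain ⟨D, hD0, hD⟩ := exists_norm_uhpForm_le B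
  refine ⟨Fintype.card (GL (Fin 2) (ZMod N)) * D, fun s τ => ?_⟩
  have hy := τ.im_pos
  rw [stripFun, norm_mul, Complex.norm_real, Real.norm_of_nonneg (by positivity)]
  have h1 : ‖borelSum B τ‖ ≤ Fintype.card (GL (Fin 2) (ZMod N)) * (D / (1 + τ.im)) := by
    refine (norm_sum_le _ _).trans ((Finset.sum_le_sum fun h _ => ?_).trans_eq
      (by rw [Finset.sum_const, Finset.card_univ, nsmul_eq_mul]))
    split_ifs
    · rw [le_div_iff₀ (by linarith)]; exact hD τ h
    · rw [norm_zero]; positivity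
  refine (mul_le_mul_of_nonneg_left h1 (by positivity)).trans (le_of_eq ?_)
  ring

theorem tsum_slz_stripFun {s : ℝ} (hs : 1 < s) (τ : ℍ) :
    (coprimeSum N s : ℂ) * ∑' g : SL(2, ℤ), strip.indicator (stripFun B s) (g • τ) =
      ∑ h : GL (Fin 2) (ZMod N), uhpForm B τ h *
        ((∑ e : (ZMod N)ˣ,
          latSum N (fun i => (e : ZMod N) * rowVec h i) τ s : ℝ) : ℂ) := by
  rw [tsum_strip _ (stripFun_T B s) τ]
  have hterm : ∀ w : Prim, stripFun B s (primRep w • τ) =
      ∑ h : GL (Fin 2) (ZMod N), uhpForm B τ h *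
        ((if rowMul w.1 h 0 = 0 then latTerm τ s w.1 else 0 : ℝ) : ℂ) := fun w => by
    rw [stripFun, borelSum_smul, im_smul_primRep, Finset.mul_sum, primRep_row]
    refine Finset.sum_congr rfl fun h _ => ?_
    split_ifs <;> simp [mul_comm]
  have hsum : ∀ h : GL (Fin 2) (ZMod N), Summable fun w : Prim =>
      (if rowMul w.1 h 0 = 0 then latTerm τ s w.1 else 0 : ℝ) := fun h =>
    Summable.of_nonneg_of_le (fun w => by split_ifs <;> simp [latTerm_nonneg])
      (fun w => by split_ifs; exacts [le_rfl, latTerm_nonneg _ _ _])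
      ((summable_latTerm τ hs).comp_injective Subtype.val_injective)
  rw [tsum_congr hterm, Summable.tsum_finsetSum fun h _ =>
    (Complex.summable_ofReal.2 (hsum h)).mul_left _, Finset.mul_sum]
  refine Finset.sum_congr rfl fun h _ => ?_
  rw [tsum_mul_left, ← Complex.ofReal_tsum, mul_left_comm, ← Complex.ofReal_mul,
    coprimeSum_mul_tsum h τ hs]

theorem continuousOn_mkH : ContinuousOn mkH {q : ℝ × ℝ | 0 < q.2} := by
  rw [Topology.IsEmbedding.continuousOn_iff UpperHalfPlane.isEmbedding_coe]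
  refine ContinuousOn.congr (f := fun q : ℝ × ℝ => Complex.equivRealProdCLM.symm q)
    Complex.equivRealProdCLM.symm.continuous.continuousOn fun q hq => ?_
  have hq' : (0 : ℝ) < q.2 := hq
  simp only [Function.comp_apply, mkH]
  rw [UpperHalfPlane.ofComplex_apply_of_im_pos (z := ⟨q.1, q.2⟩) hq']
  exact Complex.ext (by simp) (by simp)

theorem integrableOn_strip_of_le {E : Type*} [NormedAddCommGroup E] [NormedSpace ℝ E]
    [SecondCountableTopology E] {F : ℍ → E} (hF : Continuous F) {D s : ℝ} (hs : 1 < s) (hs' : s < 2)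
    (hD : ∀ τ, ‖F τ‖ ≤ D * (τ.im ^ s / (1 + τ.im))) : IntegrableOn F strip := by
  rw [(strip_integral_pair _).2]
  have hb : Integrable (fun q : ℝ × ℝ => D * ((q.2 ^ 2)⁻¹ * (q.2 ^ s / (1 + q.2)))) stripMeasure :=
    ((integrableOn_stripBound hs hs').const_mul D).comp_snd _
  refine hb.mono' ?_ ?_
  · rw [stripMeasure, Measure.prod_restrict]
    refine ContinuousOn.aestronglyMeasurable ?_ (measurableSet_Ico.prod measurableSet_Ioi)
    refine (((continuous_snd.pow 2).continuousOn).inv₀ fun q hq => pow_ne_zero _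
      (ne_of_gt hq.2)).smul (hF.comp_continuousOn ?_)
    exact continuousOn_mkH.mono fun q hq => hq.2
  · rw [stripMeasure, Measure.prod_restrict]
    filter_upwards [ae_restrict_mem (measurableSet_Ico.prod measurableSet_Ioi)] with q hq
    have h2 : 0 < q.2 := hq.2
    rw [norm_smul, Real.norm_of_nonneg (by positivity)]
    refine (mul_le_mul_of_nonneg_left (hD (mkH q)) (by positivity)).trans (le_of_eq ?_)
    rw [mkH_im h2]
    ring

theorem integrableOn_stripFun {s : ℝ} (hs : 1 < s) (hs' : s < 2) :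
    IntegrableOn (stripFun B s) strip := by
  obtain ⟨D, hD⟩ := exists_norm_stripFun_le B
  exact integrableOn_strip_of_le (continuous_stripFun B s) hs hs' (hD s)

end FermatAgent.LT.Period
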